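import Fermat.Agent.S17.Loc.Main
import Fermat.Agent.S17.FF.CurveDef

/-!
# S17-LOC, file `Curve`: the local estimates for `curveOf A`
-/

set_option autoImplicit false
set_option linter.unusedSectionVars false

noncomputable section

namespace Fermat.Agent.S17.Loc

open AlgebraicCurve Fermat.Agent.S24.Zeros Fermat.Agent.S17.FF

variable {F : Type} [Field F] [Algebra Qbar F] [IsFF Qbar F] {oo : Place Qbar F}
  (A : QAction GQ Qbar F oo)

/-- the rational pole basis, as elements of the affine ring -/
def basisA (i : ℕ) : affRing oo := ⟨A.basis i, A.isPoleBasis_basis.mem i⟩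

/-- `curveOf A` is modelled on `(F, oo, basisA A)`. -/
def modelOf : Model (curveOf A) oo (basisA A) where
  hb := A.isPoleBasis_basis
  pt := ptOfPlace oo
  pt_inj := (ptOfPlace_bijective oo).1
  ev_eq _ _ := rfl
  ell_eq _ := rfl
  big n hn := by
    have h1 := cBound_le_thr (F := F)
    have h2 : (thr Qbar F : ℤ) ≤ (n : ℤ) := by exact_mod_cast hn
    unfold Big
    have h3 : (0 : ℤ) ≤ (genus Qbar F : ℤ) := Int.natCast_nonneg _
    omega
  d_ge := le_rfl

/-- **The local estimates for `curveOf A`.** -/
theorem curveOf_estimates (𝔸 : GlobalAbs) : (curveOf A).Estimates 𝔸 := (modelOf A).estimates 𝔸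

end Fermat.Agent.S17.Loc
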