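import Fermat.Agent.S17.FF.Sep
import Fermat.Agent.S17.FF.Center
import Fermat.Agent.S17.FF.ChartFF
import Fermat.Agent.S17.FF.PoleBasis
import Fermat.Agent.S17.FF.Count

/-!
# S17-LOC, file `Basic`: definitions of valuative geometry (VG)

Setting: `K` algebraically closed of characteristic `0`, `F/K` a function field, `oo` a place,
`A = affRing oo`, `b 0 = 1, b 1, …` a pole basis of `A` (as elements of `A`), `(Ω, V : ResVal K Ω)`.
Points are `ψ : A →ₐ[K] Ω`.  A *centered point* `CPt` is a point together with a center `c` (a place of `F/K`)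
and a local hom `χ : O_c → V.O` compatible with `ψ`.
-/

set_option autoImplicit false
set_option linter.unusedSectionVars false

noncomputable section

namespace Fermat.Agent.S17.Loc

open AlgebraicCurve Fermat.Agent.S24.Zeros Fermat.Agent.S17.FF

variable {K F : Type*} [Field K] [Field F] [Algebra K F] [IsAlgClosed K] [CharZero K] [IsFF K F]

/-- `ℓ(n∞)` -/
def lv (oo : Place K F) (n : ℕ) : ℕ := ell (Finsupp.single oo (n : ℤ))

/-- a pole basis, as a sequence of elements of the affine ring -/
def IsPB (oo : Place K F) (b : ℕ → affRing oo) : Prop := IsPoleBasis oo fun i => (b i : F)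

/-- "`n` is large" -/
def Big (K F : Type*) [Field K] [Field F] [Algebra K F] [IsAlgClosed K] [CharZero K] [IsFF K F]
    (n : ℕ) : Prop := cBound K F + 2 ≤ (n : ℤ)

/-- a chosen uniformiser at `c` -/
def unif (c : Place K F) : c.toValuationSubring :=
  ⟨(exists_uniformizer c).choose, mem_of_ord_nonneg c (by rw [(exists_uniformizer c).choose_spec]; exact zero_le_one)⟩

theorem ord_unif (c : Place K F) : c.ord (unif c : F) = 1 := (exists_uniformizer c).choose_spec

/-- the local chart at `c` (with the chosen uniformiser) -/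
def chartAt (c : Place K F) : LocalChart K c.toValuationSubring := chart c (unif c) (ord_unif c)

/-- `f` as an element of `O_c` (junk value `0` if `f` has a pole at `c`) -/
def locF (c : Place K F) (f : F) : c.toValuationSubring :=
  open Classical in if h : f ∈ c.toValuationSubring then ⟨f, h⟩ else 0

theorem coe_locF {c : Place K F} {f : F} (h : 0 ≤ c.ord f) : ((locF c f : c.toValuationSubring) : F) = f := by
  unfold locF
  rw [dif_pos (mem_of_ord_nonneg c h)]

section Pts

variable {Ω : Type*} [Field Ω] [Algebra K Ω] (V : ResVal K Ω) {oo : Place K F} (b : ℕ → affRing oo)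

/-- `nrm_n(ψ) = max_{i < ℓ(n)} val ψ(b_i)` -/
def nrm (n : ℕ) (ψ : affRing oo →ₐ[K] Ω) : V.O.ValueGroup :=
  (Finset.range (lv oo n)).sup fun i => V.val (ψ (b i))

/-- `wdg_d(ψ,ψ') = max` of the valuations of the `2 × 2` minors -/
def wdg (d : ℕ) (ψ ψ' : affRing oo →ₐ[K] Ω) : V.O.ValueGroup :=
  (Finset.range (lv oo d) ×ˢ Finset.range (lv oo d)).sup fun ij =>
    V.val (ψ (b ij.1) * ψ' (b ij.2) - ψ (b ij.2) * ψ' (b ij.1))

/-- the size of the coefficient vector of a section of `L(m∞)_Ω` -/
def tsz (oo : Place K F) (m : ℕ) (t : ℕ → Ω) : V.O.ValueGroup :=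
  (Finset.range (lv oo m)).sup fun i => V.val (t i)

/-- the section `∑_{i < ℓ(m)} t_i b_i` evaluated at `ψ` -/
def sec (m : ℕ) (t : ℕ → Ω) (ψ : affRing oo →ₐ[K] Ω) : Ω :=
  ∑ i ∈ Finset.range (lv oo m), t i * ψ (b i)

/-- pairs `i < j` -/
def pairs (r : ℕ) : Finset (Fin r × Fin r) := Finset.univ.filter fun p => p.1 < p.2

/-- the matrix `(ψ_j(b_{I a}))_{a,j}` -/
def evMat {r : ℕ} (I : Fin r → ℕ) (ψ : Fin r → affRing oo →ₐ[K] Ω) : Matrix (Fin r) (Fin r) Ω :=
  Matrix.of fun a j => ψ j (b (I a))

variable (oo) in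
/-- A centered point. -/
structure CPt where
  ψ : affRing oo →ₐ[K] Ω
  c : Place K F
  χ : (chartAt c).Pt V
  compat : ∀ (f : c.toValuationSubring) (a a' : affRing oo), (f : F) * (a' : F) = (a : F) →
    χ.toHom f * ψ a' = ψ a

variable {V}

/-- the coordinate of a centered point -/
def CPt.x (P : CPt V oo) : Ω := P.χ.x

/-- the local distance: `val (x_P - x_Q)` if the centers agree, `1` otherwise -/
def dl (P Q : CPt V oo) : V.O.ValueGroup :=
  open Classical in if P.c = Q.c then V.val (P.x - Q.x) else 1

/-- the local generator of `O(n∞)` at `c`: `1` at the finite places, the top basis element at `∞` -/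
def gen (n : ℕ) (c : Place K F) : affRing oo :=
  open Classical in if c = oo then b (lv oo n - 1) else 1

/-- transport of the local hom along an equality of centers -/
def CPt.at (P : CPt V oo) (c : Place K F) (h : P.c = c) : (chartAt c).Pt V := h ▸ P.χ

theorem CPt.at_x (P : CPt V oo) (c : Place K F) (h : P.c = c) : (P.at c h).x = P.x := by
  subst h; rfl

theorem CPt.at_compat (P : CPt V oo) (c : Place K F) (h : P.c = c) (f : c.toValuationSubring)
    (a a' : affRing oo) (hf : (f : F) * (a' : F) = (a : F)) : (P.at c h).toHom f * P.ψ a' = P.ψ a := by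
  subst h; exact P.compat f a a' hf

end Pts

end Fermat.Agent.S17.Loc
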