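import Fermat.Agent.S17.Loc.Basic

/-!
# S17-LOC, file `BigPos`: a large integer is positive
-/

set_option autoImplicit false
set_option linter.unusedSectionVars false

noncomputable section

namespace Fermat.Agent.S17.Loc

open AlgebraicCurve Fermat.Agent.S24.Zeros Fermat.Agent.S17.FF

variable {K F : Type*} [Field K] [Field F] [Algebra K F] [IsAlgClosed K] [CharZero K] [IsFF K F]

/-- `Big K F d` implies `0 < d` (constants do not separate points). -/
theorem Big.pos {d : ℕ} (hd : Big K F d) : 0 < d := by
  rcases Nat.eq_zero_or_pos d with rfl | h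
  · exfalso
    obtain ⟨oo⟩ : Nonempty (Place K F) := (infinite_place (K := K) (F := F)).nonempty
    have := infinite_pts oo
    obtain ⟨c, c', hcc⟩ := exists_pair_ne {c : Place K F // c ≠ oo}
    have hne : c.1 ≠ c'.1 := fun h => hcc (Subtype.ext h)
    obtain ⟨f, hf, h0, h1⟩ := exists_sep oo (d := ((0 : ℕ) : ℤ)) hd c.2 c'.2 hne
    have hf' : f ∈ LSpace (0 : Divisor K F) := by simpa using hf
    obtain ⟨a, rfl⟩ := mem_LSpace_zero.1 hf'
    rw [val_algebraMap] at h0 h1
    exact h1 h0
  · exact h

end Fermat.Agent.S17.Loc
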