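import Fermat.Agent.S17.Loc.Lift

/-!
# S17-LOC, file `CenterB`: the center lemma, center at infinity
-/

set_option autoImplicit false
set_option linter.unusedSectionVars false

noncomputable section

namespace Fermat.Agent.S17.Loc

open AlgebraicCurve Fermat.Agent.S24.Zeros Fermat.Agent.S17.FF

variable {K F : Type*} [Field K] [Field F] [Algebra K F] [IsAlgClosed K] [CharZero K] [IsFF K F]
variable {Ω : Type*} [Field Ω] [Algebra K Ω] (V : ResVal K Ω) {oo : Place K F}

/-- polynomials with constant coefficients preserve `V.O`. -/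
theorem CenterB_aeval_mem {y : Ω} (hy : y ∈ V.O) (p : Polynomial K) :
    Polynomial.aeval y p ∈ V.O := by
  let Osub : Subalgebra K Ω :=
    { V.O.toSubring with algebraMap_mem' := V.algebraMap_mem }
  have h1 : Algebra.adjoin K {y} ≤ Osub := by
    rw [Algebra.adjoin_le_iff]
    intro z hz
    rw [Set.mem_singleton_iff] at hz
    subst hz
    exact hy
  exact h1 (Polynomial.aeval_mem_adjoin_singleton K y)

omit [IsAlgClosed K] [CharZero K] in
/-- transport of a monic equation along an algebra hom. -/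
theorem CenterB_transport {A' : Type*} [CommRing A'] [Algebra K A'] (Φ : A' →ₐ[K] Ω) (a f : A')
    (n : ℕ) (p : Fin n → Polynomial K)
    (h : f ^ n + ∑ i : Fin n, Polynomial.aeval a (p i) * f ^ (i : ℕ) = 0) :
    (Φ f) ^ n + ∑ i : Fin n, Polynomial.aeval (Φ a) (p i) * (Φ f) ^ (i : ℕ) = 0 := by
  have h1 := congrArg Φ h
  rw [map_add, map_pow, map_sum, map_zero] at h1
  rw [← h1]
  congr 1
  apply Finset.sum_congr rfl
  intro i _
  rw [map_mul, map_pow, Polynomial.aeval_algHom_apply]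

/-- integrality over `K[a]` with `Φ a ∈ V.O` forces `Φ f ∈ V.O`. -/
theorem CenterB_mem_of_monic {A' : Type*} [CommRing A'] [Algebra K A'] (Φ : A' →ₐ[K] Ω) (a f : A')
    (ha : Φ a ∈ V.O) (n : ℕ) (p : Fin n → Polynomial K)
    (h : f ^ n + ∑ i : Fin n, Polynomial.aeval a (p i) * f ^ (i : ℕ) = 0) : Φ f ∈ V.O :=
  mem_of_monic V n (fun i => Polynomial.aeval (Φ a) (p i))
    (fun i => CenterB_aeval_mem V ha (p i)) (CenterB_transport Φ a f n p h)

/-- `ψ` is injective if it has a value outside `V.O`. -/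
theorem CenterB_injective (ψ : affRing oo →ₐ[K] Ω) (x : affRing oo) (h : ψ x ∉ V.O) :
    Function.Injective ψ := by
  rw [injective_iff_map_eq_zero]
  intro a ha
  by_contra ha0
  have h1 : oo.ord (a : F) ≤ 0 := ord_nonpos_of_mem_affRing oo a.2
  rcases h1.lt_or_eq with hlt | heq
  · obtain ⟨n, p, hp⟩ := exists_monic_of_mem_affRing oo a.2 hlt x.2
    apply h
    refine CenterB_mem_of_monic V ψ a x (by rw [ha]; exact V.O.zero_mem) n p ?_
    have hval : Function.Injective (affRing oo).val := Subtype.val_injective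
    apply hval
    rw [map_zero, ← hp, map_add, map_pow, map_sum]
    congr 1
    apply Finset.sum_congr rfl
    intro i _
    rw [map_mul, map_pow, ← Polynomial.aeval_algHom_apply]
    rfl
  · obtain ⟨k, hk⟩ := exists_const_of_mem_affRing oo a.2 heq
    have hak : a = algebraMap K (affRing oo) k := Subtype.ext hk
    rw [hak, AlgHom.commutes] at ha
    have hk0 : k = 0 := by
      have := (map_eq_zero (algebraMap K Ω)).mp ha
      exact this
    apply ha0
    rw [hak, hk0, map_zero]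

/-- Case 2: `ψ x ∉ V.O`.  Then `ψ` is injective (if `ψ a = 0`, `a ≠ 0`, then `a` is nonconstant, `x` is integral over `K[a]`
(`exists_monic_of_mem_affRing` with `a` in the role of `x`), so `ψ x` is integral over `K`, so `ψ x ∈ V.O`), it extends to `Ψ : F →ₐ[K] Ω`
(`isFractionRing_affRing`, `IsFractionRing.liftAlgHom`), `Ψ (chartAlg K x⁻¹) ⊆ V.O` (`exists_monic_of_mem_chartAlg_inv`),
`res ∘ Ψ = val oo` on `chartAlg K x⁻¹` (`hom_eq_val_oo`), `exists_lift` with `B = chartAlg K x⁻¹` (`ord_oo_nonneg_iff_exists_div`);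
the extension is the restriction of `Ψ` to `O_∞`, whence `compat`. -/
theorem exists_cpt_of_not_mem (ψ : affRing oo →ₐ[K] Ω) (x : affRing oo) (hx : oo.ord (x : F) < 0)
    (h : ψ x ∉ V.O) : ∃ P : CPt V oo, P.ψ = ψ ∧ P.c = oo := by
  classical
  have hinj := CenterB_injective V ψ x h
  haveI : IsFractionRing (affRing oo) F := isFractionRing_affRing oo
  obtain ⟨Ψ, hΨ⟩ : ∃ Ψ : F →ₐ[K] Ω, ∀ a : affRing oo, Ψ (a : F) = ψ a :=
    ⟨IsFractionRing.liftAlgHom hinj, fun a => IsFractionRing.lift_algebraMap hinj a⟩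
  have hΨinj : Function.Injective Ψ := Ψ.toRingHom.injective
  -- the value at `x⁻¹`
  have hxinv : Ψ (x : F)⁻¹ = (ψ x)⁻¹ := by rw [map_inv₀, hΨ]
  have hxmem : Ψ (x : F)⁻¹ ∈ V.O := by
    rw [hxinv]
    exact (V.O.mem_or_inv_mem (ψ x)).resolve_left h
  have hxlt : V.val (Ψ (x : F)⁻¹) < 1 := by
    rw [hxinv, map_inv₀]
    have h1 : 1 < V.val (ψ x) := by
      rw [← not_le, V.val_le_one_iff]
      exact h
    exact inv_lt_one_of_one_lt₀ h1
  have hord : 0 ≤ oo.ord (x : F)⁻¹ := by rw [Place.ord_inv]; omega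
  -- `Ψ` maps the chart at infinity to `V.O`
  have hmem : ∀ f ∈ chartAlg K (x : F)⁻¹, Ψ f ∈ V.O := by
    intro f hf
    obtain ⟨n, p, hp⟩ := exists_monic_of_mem_chartAlg_inv hf
    exact CenterB_mem_of_monic V Ψ _ f hxmem n p hp
  let θ : chartAlg K (x : F)⁻¹ →ₐ[K] Ω := Ψ.comp (chartAlg K (x : F)⁻¹).val
  have hθ : ∀ f : chartAlg K (x : F)⁻¹, θ f = Ψ (f : F) := fun f => rfl
  let θO : chartAlg K (x : F)⁻¹ →+* V.O :=
    RingHom.codRestrict θ.toRingHom V.O.toSubring (fun f => hmem f f.2)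
  let rθ : chartAlg K (x : F)⁻¹ →ₐ[K] K :=
    { V.res.comp θO with
      commutes' := by
        intro k
        show V.res (θO (algebraMap K _ k)) = k
        have h1 : θO (algebraMap K _ k) = ⟨algebraMap K Ω k, V.algebraMap_mem k⟩ := by
          apply Subtype.ext
          show θ (algebraMap K _ k) = algebraMap K Ω k
          exact θ.commutes k
        rw [h1, V.res_algebraMap] }
  have hrθ : ∀ f : chartAlg K (x : F)⁻¹, rθ f = V.res ⟨θ f, hmem f f.2⟩ := fun f => rfl
  have hr0 : rθ ⟨(x : F)⁻¹, self_mem_chartAlg (x : F)⁻¹⟩ = 0 := by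
    rw [hrθ, V.res_eq_zero_iff]
    exact hxlt
  have hval : ∀ f : chartAlg K (x : F)⁻¹, rθ f = val oo (f : F) := hom_eq_val_oo oo x.2 hx rθ hr0
  obtain ⟨χ, hχ⟩ := exists_lift (V := V) oo (chartAlg K (x : F)⁻¹)
    (fun f hf => mem_of_ord_nonneg oo (ord_nonneg_of_mem_chartAlg hord hf))
    (fun f hf => (ord_oo_nonneg_iff_exists_div oo hx f).mp (ord_nonneg_of_mem oo hf))
    θ (fun f => ⟨hmem f f.2, by rw [← hrθ, hval]⟩)
  -- `χ` is the restriction of `Ψ`
  have hχΨ : ∀ f : oo.toValuationSubring, χ.toHom f = Ψ (f : F) := by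
    intro f
    obtain ⟨a, ha, b, hb, hb0, hfab⟩ :=
      (ord_oo_nonneg_iff_exists_div oo hx (f : F)).mp (ord_nonneg_of_mem oo f.2)
    have hbne : b ≠ 0 := by
      rintro rfl
      apply hb0
      have := val_algebraMap oo (0 : K)
      rwa [map_zero] at this
    have haO : a ∈ oo.toValuationSubring :=
      mem_of_ord_nonneg oo (ord_nonneg_of_mem_chartAlg hord ha)
    have hbO : b ∈ oo.toValuationSubring :=
      mem_of_ord_nonneg oo (ord_nonneg_of_mem_chartAlg hord hb)
    have h1 : f * (⟨b, hbO⟩ : oo.toValuationSubring) = ⟨a, haO⟩ := by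
      apply Subtype.ext
      show (f : F) * b = a
      rw [hfab, div_mul_cancel₀ _ hbne]
    have h2 := congrArg χ.toHom h1
    rw [map_mul, hχ ⟨b, hbO⟩ hb, hχ ⟨a, haO⟩ ha, hθ, hθ] at h2
    have h3 : Ψ (f : F) * Ψ b = Ψ a := by
      rw [← map_mul, hfab, div_mul_cancel₀ _ hbne]
    have hΨb : Ψ b ≠ 0 := by
      rw [Ne, map_eq_zero]
      exact hbne
    exact mul_right_cancel₀ hΨb (h2.trans h3.symm)
  refine ⟨⟨ψ, oo, χ, ?_⟩, rfl, rfl⟩
  intro f a a' hfa
  rw [hχΨ, ← hΨ, ← hΨ, ← map_mul, hfa]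


end Fermat.Agent.S17.Loc
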