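import Fermat.Agent.S17.Loc.CenterA
import Fermat.Agent.S17.Loc.CenterB

/-!
# S17-LOC, file `Center`: the center lemma
-/

set_option autoImplicit false
set_option linter.unusedSectionVars false

noncomputable section

namespace Fermat.Agent.S17.Loc

open AlgebraicCurve Fermat.Agent.S24.Zeros Fermat.Agent.S17.FF

variable {K F : Type*} [Field K] [Field F] [Algebra K F] [IsAlgClosed K] [CharZero K] [IsFF K F]
variable {Ω : Type*} [Field Ω] [Algebra K Ω] (V : ResVal K Ω) {oo : Place K F}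

/-- **Center lemma.** -/
theorem exists_cpt (ψ : affRing oo →ₐ[K] Ω) : ∃ P : CPt V oo, P.ψ = ψ := by
  obtain ⟨x, hx, hx'⟩ := exists_nonconstant oo
  by_cases h : ψ ⟨x, hx⟩ ∈ V.O
  · obtain ⟨P, hP, -⟩ := exists_cpt_of_mem V ψ ⟨x, hx⟩ hx' h
    exact ⟨P, hP⟩
  · obtain ⟨P, hP, -⟩ := exists_cpt_of_not_mem V ψ ⟨x, hx⟩ hx' h
    exact ⟨P, hP⟩

/-- a chosen centered point over `ψ` -/
def cpt (ψ : affRing oo →ₐ[K] Ω) : CPt V oo := (exists_cpt V ψ).choose

@[simp] theorem cpt_ψ (ψ : affRing oo →ₐ[K] Ω) : (cpt V ψ).ψ = ψ := (exists_cpt V ψ).choose_spec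

end Fermat.Agent.S17.Loc
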