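import Fermat.Agent.S17.Loc.Lift

/-!
# S17-LOC, file `CenterA`: the center lemma, finite center
-/

set_option autoImplicit false
set_option linter.unusedSectionVars false

noncomputable section

namespace Fermat.Agent.S17.Loc

open AlgebraicCurve Fermat.Agent.S24.Zeros Fermat.Agent.S17.FF

variable {K F : Type*} [Field K] [Field F] [Algebra K F] [IsAlgClosed K] [CharZero K] [IsFF K F]
variable {Ω : Type*} [Field Ω] [Algebra K Ω] (V : ResVal K Ω) {oo : Place K F}

/-- Case 1: `ψ x ∈ V.O` for one nonconstant `x ∈ A`.  Then `ψ(A) ⊆ V.O` (`exists_monic_of_mem_affRing`, `mem_of_monic`),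
`res ∘ ψ : A →ₐ[K] K` is the evaluation at a place `c ≠ ∞` (`ptOfPlace_bijective`), `exists_lift` with `B = A`
(`ord_nonneg_iff_exists_div`). -/
theorem exists_cpt_of_mem (ψ : affRing oo →ₐ[K] Ω) (x : affRing oo) (hx : oo.ord (x : F) < 0)
    (h : ψ x ∈ V.O) : ∃ P : CPt V oo, P.ψ = ψ ∧ P.c ≠ oo := by
  -- polynomials in `ψ x`
  have hpoly : ∀ p : Polynomial K, Polynomial.aeval (ψ x) p ∈ V.O := by
    intro p
    rw [Polynomial.aeval_eq_sum_range]
    exact sum_mem fun i _ => V.smul_mem _ (pow_mem h i)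
  -- (1) `ψ(A) ⊆ V.O`
  have hmem : ∀ a : affRing oo, ψ a ∈ V.O := by
    intro a
    obtain ⟨n, c, hc⟩ := exists_monic_of_mem_affRing oo x.2 hx a.2
    have hA : a ^ n + ∑ i : Fin n, Polynomial.aeval x (c i) * a ^ (i : ℕ) = 0 := by
      apply Subtype.ext
      have h1 : (affRing oo).val (a ^ n + ∑ i : Fin n, Polynomial.aeval x (c i) * a ^ (i : ℕ)) =
          0 := by
        rw [map_add, map_pow, map_sum]
        simp only [map_mul, map_pow, ← Polynomial.aeval_algHom_apply]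
        exact hc
      exact h1
    have h2 := congrArg ψ hA
    rw [map_add, map_pow, map_sum, map_zero] at h2
    simp only [map_mul, map_pow, ← Polynomial.aeval_algHom_apply] at h2
    exact mem_of_monic V n (fun i => Polynomial.aeval (ψ x) (c i)) (fun i => hpoly _) h2
  -- (2) the reduction of `ψ`
  let θ0 : affRing oo →ₐ[K] K :=
    { V.res.comp ((ψ : affRing oo →+* Ω).codRestrict V.O.toSubring hmem) with
      commutes' := fun r => by
        have h1 : (⟨ψ (algebraMap K (affRing oo) r), hmem _⟩ : V.O) =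
            ⟨algebraMap K Ω r, V.algebraMap_mem r⟩ := Subtype.ext (ψ.commutes r)
        change V.res ⟨ψ (algebraMap K (affRing oo) r), hmem _⟩ = r
        rw [h1, V.res_algebraMap] }
  -- (3) its center
  obtain ⟨⟨c, hc⟩, hcθ⟩ := (ptOfPlace_bijective oo).2 θ0
  have hval : ∀ a : affRing oo, V.res ⟨ψ a, hmem a⟩ = val c (a : F) := fun a =>
    (congrArg (fun φ : affRing oo →ₐ[K] K => φ a) hcθ).symm
  -- (4) the lift
  have hB : ∀ f ∈ affRing oo, f ∈ c.toValuationSubring := fun f hf =>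
    mem_of_ord_nonneg c (hf c hc)
  obtain ⟨χ, hχ⟩ := exists_lift (V := V) c (affRing oo) hB
    (fun f hf => (ord_nonneg_iff_exists_div oo hc f).1 ((mem_iff_ord_nonneg' c f).1 hf)) ψ
    (fun f => ⟨hmem f, hval f⟩)
  -- (5) compatibility
  refine ⟨⟨ψ, c, χ, ?_⟩, rfl, hc⟩
  intro f a a' hf
  have h1 : χ.toHom ⟨(a' : F), hB _ a'.2⟩ = ψ a' := hχ ⟨(a' : F), hB _ a'.2⟩ a'.2
  have h2 : χ.toHom ⟨(a : F), hB _ a.2⟩ = ψ a := hχ ⟨(a : F), hB _ a.2⟩ a.2
  have h3 : f * ⟨(a' : F), hB _ a'.2⟩ = (⟨(a : F), hB _ a.2⟩ : c.toValuationSubring) :=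
    Subtype.ext hf
  rw [← h1, ← h2, ← map_mul, h3]


end Fermat.Agent.S17.Loc
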