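import Fermat.Agent.S17.Loc.Newton

/-!
# S17-LOC, file `Core`: the three core consequences of (V-Newton): `red`, `hs_core_le/eq`, `hsoo_core`
-/

set_option autoImplicit false
set_option linter.unusedSectionVars false

noncomputable section

namespace Fermat.Agent.S17.Loc

open AlgebraicCurve Fermat.Agent.S24.Zeros Fermat.Agent.S17.FF

variable {K F : Type*} [Field K] [Field F] [Algebra K F] [IsAlgClosed K] [CharZero K] [IsFF K F]
variable {Ω : Type*} [Field Ω] [Algebra K Ω] {V : ResVal K Ω} {oo : Place K F} {b : ℕ → affRing oo}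

open scoped Classical in
theorem sum_single_apply {κ : Type*} (J : Finset κ) (c : κ → Place K F) (c₀ : Place K F) :
    (∑ j ∈ J, Finsupp.single (c j) (1 : ℤ)) c₀ = ((J.filter fun j => c j = c₀).card : ℤ) := by
  rw [Finsupp.finsetSum_apply, Finset.card_filter]
  push_cast
  refine Finset.sum_congr rfl fun j _ => ?_
  rw [Finsupp.single_apply]

/-- **(RED)** the reduction of a section vanishing at the distinct points `P_j` lies in `L(n∞ - ∑ centers)`. -/
theorem red (hb : IsPB oo b) {n : ℕ} (hn : Big K F n) {ι κ : Type*} (I : Finset ι) (s : ι → V.O)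
    (f : ι → affRing oo) (hf : ∀ i ∈ I, (f i : F) ∈ LSpace (Finsupp.single oo (n : ℤ)))
    (J : Finset κ) (P : κ → CPt V oo) (hinj : Set.InjOn (fun j => (P j).ψ) J)
    (hz : ∀ j ∈ J, ∑ i ∈ I, (s i : Ω) * (P j).ψ (f i) = 0) :
    sbar V I s f ∈ LSpace (Finsupp.single oo (n : ℤ) - ∑ j ∈ J, Finsupp.single (P j).c 1) := by
  classical
  by_cases h0 : sbar V I s f = 0
  · rw [h0]
    exact Submodule.zero_mem _
  rw [hb.mem_LSpace_sub_iff hn _ h0]
  intro c
  rw [sum_single_apply]
  have hnn : 0 ≤ c.ord (sbar V I s f / (gen b n c : F)) :=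
    hb.ord_div_gen_nonneg hn c (sbar_mem I s f hf)
  have hcoe := coe_locF hnn
  have hne : locF c (sbar V I s f / (gen b n c : F)) ≠ 0 := by
    intro h
    rw [h] at hcoe
    exact div_ne_zero h0 (hb.gen_ne_zero n c) hcoe.symm
  have key := (le_ord_iff_taylor c (τ := unif c) (ord_unif c) hne
    (J.filter fun j => (P j).c = c).card).2 (newton_at hb hn I s f hf J P hinj hz c).1
  rwa [hcoe] at key

end Fermat.Agent.S17.Loc
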