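import Fermat.Agent.S17.Loc.Core

/-!
# S17-LOC, file `CoreHS`: `hs_core_le`, `hs_core_eq`
-/

set_option autoImplicit false
set_option linter.unusedSectionVars false

noncomputable section

namespace Fermat.Agent.S17.Loc

open AlgebraicCurve Fermat.Agent.S24.Zeros Fermat.Agent.S17.FF

variable {K F : Type*} [Field K] [Field F] [Algebra K F] [IsAlgClosed K] [CharZero K] [IsFF K F]
variable {Ω : Type*} [Field Ω] [Algebra K Ω] {V : ResVal K Ω} {oo : Place K F} {b : ℕ → affRing oo}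

/-- common part: either `ρ` is one of the `P_j` (both sides vanish) or
`s(ρ) = ψ_ρ(gen) q ∏_{c_j = c_ρ} (x_ρ - x_j)`. -/
theorem hs_core_aux (hb : IsPB oo b) {n : ℕ} (hn : Big K F n) {ι κ : Type*} (I : Finset ι) (s : ι → V.O)
    (f : ι → affRing oo) (hf : ∀ i ∈ I, (f i : F) ∈ LSpace (Finsupp.single oo (n : ℤ)))
    (J : Finset κ) (P : κ → CPt V oo) (hinj : Set.InjOn (fun j => (P j).ψ) J)
    (hz : ∀ j ∈ J, ∑ i ∈ I, (s i : Ω) * (P j).ψ (f i) = 0) (ρ : CPt V oo) :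
    ∃ q : V.O, V.val (∑ i ∈ I, (s i : Ω) * ρ.ψ (f i)) =
        V.val (q : Ω) * (nrm V b n ρ.ψ * ∏ j ∈ J, dl (P j) ρ) ∧
      (sbar V I s f ∉ LSpace (Finsupp.single oo (n : ℤ) - ∑ j ∈ J, Finsupp.single (P j).c 1
        - Finsupp.single ρ.c 1) → V.val (q : Ω) = 1) := by
  classical
  by_cases hA : ∃ j ∈ J, (P j).c = ρ.c ∧ ρ.x = (P j).x
  · obtain ⟨j, hj, hc, hx⟩ := hA
    have hψ : ρ.ψ = (P j).ψ := CPt.ψ_eq_of_x_eq hb ρ (P j) hc.symm hx
    refine ⟨1, ?_, fun _ => by simp⟩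
    rw [hψ, hz j hj, map_zero, Finset.prod_eq_zero hj (dl_eq_zero hc hx.symm), mul_zero, mul_zero]
  · push Not at hA
    obtain ⟨h1, h2⟩ := newton_at hb hn I s f hf J P hinj hz ρ.c
    obtain ⟨q, hq, hres⟩ := h2 ρ.χ (fun j hj hc => hA j hj hc)
    refine ⟨q, ?_, ?_⟩
    · have e1 : ∑ i ∈ I, (s i : Ω) * ρ.ψ (f i) = ρ.ψ (gen b n ρ.c) *
          ∑ i ∈ I, (s i : Ω) * ρ.χ.toHom (locF ρ.c ((f i : F) / (gen b n ρ.c : F))) := by
        rw [Finset.mul_sum]
        refine Finset.sum_congr rfl fun i hi => ?_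
        rw [CPt.ψ_eq hb hn ρ (hf i hi)]
        ring
      have e2 : ∏ j ∈ J, dl (P j) ρ =
          ∏ j ∈ J.filter (fun j => (P j).c = ρ.c), V.val (ρ.χ.x - (P j).x) := by
        rw [Finset.prod_filter]
        refine Finset.prod_congr rfl fun j _ => ?_
        unfold dl
        split_ifs
        · rw [Valuation.map_sub_swap]
          rfl
        · rfl
      rw [e1, hq, map_mul, map_mul, CPt.nrm_eq hb hn ρ, map_prod, e2]
      exact mul_left_comm _ _ _
    · intro hnot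
      by_contra hq1
      apply hnot
      have hres0 : V.res q = 0 := by
        by_contra h
        exact hq1 ((V.val_eq_one_iff q).2 h)
      by_cases hsb : sbar V I s f = 0
      · rw [hsb]
        exact zero_mem _
      rw [sub_sub, hb.mem_LSpace_sub_iff hn _ hsb]
      have hred := (hb.mem_LSpace_sub_iff hn _ hsb).1 (red hb hn I s f hf J P hinj hz)
      intro c'
      by_cases hc' : c' = ρ.c
      · subst hc'
        rw [Finsupp.add_apply, Finsupp.single_eq_same, sum_single_apply J (fun j => (P j).c) ρ.c]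
        have hnn : 0 ≤ ρ.c.ord (sbar V I s f / (gen b n ρ.c : F)) :=
          hb.ord_div_gen_nonneg hn ρ.c (sbar_mem I s f hf)
        have hcoe := coe_locF hnn
        have hne : locF ρ.c (sbar V I s f / (gen b n ρ.c : F)) ≠ 0 := by
          intro h0
          rw [h0] at hcoe
          exact div_ne_zero hsb (hb.gen_ne_zero n ρ.c) hcoe.symm
        have key := (le_ord_iff_taylor ρ.c (unif ρ.c) (ord_unif ρ.c) hne
          ((J.filter fun j => (P j).c = ρ.c).card + 1)).2 (fun m hm => by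
            rcases Nat.lt_succ_iff_lt_or_eq.1 hm with hm | rfl
            · exact h1 m hm
            · exact hres.symm.trans hres0)
        rw [hcoe] at key
        exact_mod_cast key
      · rw [Finsupp.add_apply, Finsupp.single_eq_of_ne hc', add_zero]
        exact hred c'

/-- **(HS-core, ≤)** -/
theorem hs_core_le (hb : IsPB oo b) {n : ℕ} (hn : Big K F n) {ι κ : Type*} (I : Finset ι) (s : ι → V.O)
    (f : ι → affRing oo) (hf : ∀ i ∈ I, (f i : F) ∈ LSpace (Finsupp.single oo (n : ℤ)))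
    (J : Finset κ) (P : κ → CPt V oo) (hinj : Set.InjOn (fun j => (P j).ψ) J)
    (hz : ∀ j ∈ J, ∑ i ∈ I, (s i : Ω) * (P j).ψ (f i) = 0) (ρ : CPt V oo) :
    V.val (∑ i ∈ I, (s i : Ω) * ρ.ψ (f i)) ≤ nrm V b n ρ.ψ * ∏ j ∈ J, dl (P j) ρ := by
  obtain ⟨q, hq, -⟩ := hs_core_aux hb hn I s f hf J P hinj hz ρ
  rw [hq]
  calc V.val (q : Ω) * (nrm V b n ρ.ψ * ∏ j ∈ J, dl (P j) ρ)
      ≤ 1 * (nrm V b n ρ.ψ * ∏ j ∈ J, dl (P j) ρ) :=
        mul_le_mul_left ((V.val_le_one_iff _).2 q.2) _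
    _ = _ := one_mul _

/-- **(HS-core, =)** -/
theorem hs_core_eq (hb : IsPB oo b) {n : ℕ} (hn : Big K F n) {ι κ : Type*} (I : Finset ι) (s : ι → V.O)
    (f : ι → affRing oo) (hf : ∀ i ∈ I, (f i : F) ∈ LSpace (Finsupp.single oo (n : ℤ)))
    (J : Finset κ) (P : κ → CPt V oo) (hinj : Set.InjOn (fun j => (P j).ψ) J)
    (hz : ∀ j ∈ J, ∑ i ∈ I, (s i : Ω) * (P j).ψ (f i) = 0) (ρ : CPt V oo)
    (hρ : sbar V I s f ∉ LSpace (Finsupp.single oo (n : ℤ) - ∑ j ∈ J, Finsupp.single (P j).c 1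
        - Finsupp.single ρ.c 1)) :
    V.val (∑ i ∈ I, (s i : Ω) * ρ.ψ (f i)) = nrm V b n ρ.ψ * ∏ j ∈ J, dl (P j) ρ := by
  obtain ⟨q, hq, hq'⟩ := hs_core_aux hb hn I s f hf J P hinj hz ρ
  rw [hq, hq' hρ, one_mul]

end Fermat.Agent.S17.Loc
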