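import Fermat.Agent.S17.Loc.Newton

/-!
# S17-LOC, file `CoreOO`: `hsoo_core` (the top coefficient = "value at `∞`")
-/

set_option autoImplicit false
set_option linter.unusedSectionVars false

noncomputable section

namespace Fermat.Agent.S17.Loc

open AlgebraicCurve Fermat.Agent.S24.Zeros Fermat.Agent.S17.FF

variable {K F : Type*} [Field K] [Field F] [Algebra K F] [IsAlgClosed K] [CharZero K] [IsFF K F]
variable {Ω : Type*} [Field Ω] [Algebra K Ω] {V : ResVal K Ω} {oo : Place K F} {b : ℕ → affRing oo}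

/-- the value at `∞` of `b_i / b_top`. -/
theorem CoreOO_ev (hb : IsPB oo b) {n : ℕ} (hn : Big K F n) (i : ℕ) (hi : i < lv oo n) :
    ev oo (locF oo ((b i : F) / (gen b n oo : F))) = if i = lv oo n - 1 then 1 else 0 := by
  rw [gen_oo]
  have htop : oo.ord (b (lv oo n - 1) : F) = -(n : ℤ) := hb.ord_top hn
  have htop0 : (b (lv oo n - 1) : F) ≠ 0 := by
    have := hb.gen_ne_zero n oo
    rwa [gen_oo] at this
  split_ifs with h
  · rw [h, div_self htop0]
    have h1 : locF oo (1 : F) = 1 := Subtype.ext (coe_locF (by rw [Place.ord_one]))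
    rw [h1, map_one]
  · rw [ev_eq_zero_iff]
    by_cases hbi : (b i : F) = 0
    · left
      apply Subtype.ext
      rw [hbi, zero_div]
      exact coe_locF (by rw [Place.ord_zero])
    · right
      have hlt : -(n : ℤ) < oo.ord (b i : F) := hb.ord_lt_top hn (by omega)
      have hord : oo.ord ((b i : F) / (b (lv oo n - 1) : F)) = oo.ord (b i : F) + n := by
        rw [div_eq_mul_inv, oo.ord_mul hbi (inv_ne_zero htop0), Place.ord_inv, htop]
        ring
      rw [coe_locF (by rw [hord]; omega), hord]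
      omega

/-- **(HS∞-core)** -/
theorem hsoo_core (hb : IsPB oo b) {n : ℕ} (hn : Big K F n) (s : ℕ → V.O) {κ : Type*}
    (J : Finset κ) (P : κ → CPt V oo) (hinj : Set.InjOn (fun j => (P j).ψ) J)
    (hz : ∀ j ∈ J, ∑ i ∈ Finset.range (lv oo (n + 1)), (s i : Ω) * (P j).ψ (b i) = 0) :
    V.val (s (lv oo n) : Ω) * ∏ j ∈ J, nrm V b (n + 1) (P j).ψ ≤ ∏ j ∈ J, nrm V b n (P j).ψ := by
  classical
  have hN : Big K F (n + 1) := hn.succ
  have hlv : lv oo (n + 1) = lv oo n + 1 := lv_succ oo hn
  have htop : lv oo (n + 1) - 1 = lv oo n := by omega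
  obtain ⟨-, hnew⟩ := newton_at hb hN (Finset.range (lv oo (n + 1))) s b
    (fun i hi => hb.mem_LSpace (Finset.mem_range.mp hi)) J P hinj hz oo
  obtain ⟨q, hq, -⟩ := hnew (LocalChart.Pt.const (chartAt oo) V) (by
    intro j _ hc
    rw [LocalChart.Pt.const_x]
    exact (CPt.x_ne_zero hb (P j) hc).symm)
  have hsum : ∑ i ∈ Finset.range (lv oo (n + 1)), (s i : Ω) *
      (LocalChart.Pt.const (chartAt oo) V).toHom (locF oo ((b i : F) / (gen b (n + 1) oo : F))) =
      (s (lv oo n) : Ω) := by
    rw [Finset.sum_eq_single (lv oo n)]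
    · have h1 : (LocalChart.Pt.const (chartAt oo) V).toHom
          (locF oo ((b (lv oo n) : F) / (gen b (n + 1) oo : F))) =
          algebraMap K Ω (ev oo (locF oo ((b (lv oo n) : F) / (gen b (n + 1) oo : F)))) := rfl
      rw [h1, CoreOO_ev hb hN _ (by omega), if_pos htop.symm, map_one, mul_one]
    · intro i hi hne
      have h1 : (LocalChart.Pt.const (chartAt oo) V).toHom
          (locF oo ((b i : F) / (gen b (n + 1) oo : F))) =
          algebraMap K Ω (ev oo (locF oo ((b i : F) / (gen b (n + 1) oo : F)))) := rfl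
      rw [h1, CoreOO_ev hb hN _ (Finset.mem_range.mp hi), if_neg (by omega), map_zero, mul_zero]
    · intro hnot
      exact absurd (Finset.mem_range.mpr (by omega)) hnot
  rw [hsum, LocalChart.Pt.const_x] at hq
  have hval : V.val (s (lv oo n) : Ω) ≤ ∏ j ∈ J, if (P j).c = oo then V.val (P j).x else 1 := by
    rw [hq, map_mul, map_prod, ← Finset.prod_filter]
    have h1 : V.val (q : Ω) ≤ 1 := (V.val_le_one_iff _).mpr q.2
    calc V.val (q : Ω) * ∏ j ∈ J.filter (fun j => (P j).c = oo), V.val (0 - (P j).x)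
        ≤ 1 * ∏ j ∈ J.filter (fun j => (P j).c = oo), V.val (0 - (P j).x) :=
          mul_le_mul' h1 le_rfl
      _ = ∏ j ∈ J.filter (fun j => (P j).c = oo), V.val (P j).x := by
          rw [one_mul]
          apply Finset.prod_congr rfl
          intro j _
          rw [zero_sub, Valuation.map_neg]
  calc V.val (s (lv oo n) : Ω) * ∏ j ∈ J, nrm V b (n + 1) (P j).ψ
      ≤ (∏ j ∈ J, if (P j).c = oo then V.val (P j).x else 1) *
          ∏ j ∈ J, nrm V b (n + 1) (P j).ψ := mul_le_mul' hval le_rfl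
    _ = ∏ j ∈ J, nrm V b n (P j).ψ := by
        rw [← Finset.prod_mul_distrib]
        apply Finset.prod_congr rfl
        intro j _
        split_ifs with hc
        · rw [mul_comm]
          exact CPt.nrm_succ_mul hb hn (P j) hc
        · rw [one_mul, CPt.nrm_of_ne hb _ _ hc, CPt.nrm_of_ne hb _ _ hc]

end Fermat.Agent.S17.Loc
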