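import Fermat.Agent.S17.Loc.W

/-!
# S17-LOC, file `D`: (V-D) equality for some maximal minor if the centers impose independent conditions on `L(n∞)`
-/

set_option autoImplicit false
set_option linter.unusedSectionVars false

noncomputable section

namespace Fermat.Agent.S17.Loc

open AlgebraicCurve Fermat.Agent.S24.Zeros Fermat.Agent.S17.FF

variable {K F : Type*} [Field K] [Field F] [Algebra K F] [IsAlgClosed K] [CharZero K] [IsFF K F]
variable {Ω : Type*} [Field Ω] [Algebra K Ω] {V : ResVal K Ω} {oo : Place K F} {b : ℕ → affRing oo}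

/-- the cofactors of the last column -/
def D_cof (b : ℕ → affRing oo) {r : ℕ} (I : Fin (r + 1) → ℕ) (ψ : Fin r → affRing oo →ₐ[K] Ω)
    (a : Fin (r + 1)) : Ω :=
  (-1) ^ ((a : ℕ) + r) * (evMat b (fun k => I (a.succAbove k)) ψ).det

/-- Laplace expansion along the last column -/
theorem D_laplace {r : ℕ} (I : Fin (r + 1) → ℕ) (ψ : Fin (r + 1) → affRing oo →ₐ[K] Ω) :
    (evMat b I ψ).det =
      ∑ a, D_cof b I (fun j => ψ j.castSucc) a * ψ (Fin.last r) (b (I a)) := by
  rw [Matrix.det_succ_column _ (Fin.last r)]
  refine Finset.sum_congr rfl fun a _ => ?_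
  have h : (evMat b I ψ).submatrix a.succAbove (Fin.last r).succAbove =
      evMat b (fun k => I (a.succAbove k)) (fun j => ψ j.castSucc) := by
    ext k j
    simp [evMat, Fin.succAbove_last]
  rw [h, D_cof]
  simp only [evMat, Matrix.of_apply, Fin.val_last]
  ring

/-- the Laplace section vanishes at the first `r` points -/
theorem D_laplace_zero {r : ℕ} (I : Fin (r + 1) → ℕ) (ψ : Fin r → affRing oo →ₐ[K] Ω) (j : Fin r) :
    ∑ a, D_cof b I ψ a * ψ j (b (I a)) = 0 := by
  have h := D_laplace (b := b) I (Fin.snoc (α := fun _ => affRing oo →ₐ[K] Ω) ψ (ψ j))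
  simp only [Fin.snoc_castSucc, Fin.snoc_last] at h
  rw [← h]
  refine Matrix.det_zero_of_column_eq (i := j.castSucc) (j := Fin.last r)
    (Fin.castSucc_lt_last j).ne fun a => ?_
  simp [evMat]

theorem D_cof_last {r : ℕ} (I : Fin (r + 1) → ℕ) (ψ : Fin r → affRing oo →ₐ[K] Ω) :
    D_cof b I ψ (Fin.last r) = (evMat b (fun k => I k.castSucc) ψ).det := by
  rw [D_cof, Fin.val_last, ← two_mul, pow_mul]
  simp [Fin.succAbove_last]

theorem D_val_cof {r : ℕ} (I : Fin (r + 1) → ℕ) (ψ : Fin r → affRing oo →ₐ[K] Ω) (a : Fin (r + 1)) :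
    V.val (D_cof b I ψ a) = V.val (evMat b (fun k => I (a.succAbove k)) ψ).det := by
  rw [D_cof, map_mul, map_pow, Valuation.map_neg, map_one, one_pow, one_mul]

/-- **(V-D)**, centered points, `r ≤ ℓ(n)` points -/
theorem vD_core (hb : IsPB oo b) {n : ℕ} (hn : Big K F n) (r : ℕ) (P : Fin r → CPt V oo)
    (hinj : Function.Injective fun j => (P j).ψ)
    (hell : ell (Finsupp.single oo (n : ℤ) - ∑ j, Finsupp.single (P j).c 1) + r ≤ lv oo n) :
    ∃ I : Fin r → ℕ, (∀ a, I a < lv oo n) ∧
      V.val (evMat b I fun j => (P j).ψ).det =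
        (∏ j, nrm V b n (P j).ψ) * ∏ p ∈ pairs r, dl (P p.1) (P p.2) := by
  induction r with
  | zero =>
    refine ⟨Fin.elim0, fun a => a.elim0, ?_⟩
    have hp : pairs 0 = ∅ := by
      ext p
      exact p.1.elim0
    simp [hp]
  | succ r ih =>
    set P' : Fin r → CPt V oo := fun j => P j.castSucc with hP'
    set ρ : CPt V oo := P (Fin.last r) with hρ
    set D' : Divisor K F := Finsupp.single oo (n : ℤ) - ∑ j, Finsupp.single (P' j).c 1 with hD'
    have hD : Finsupp.single oo (n : ℤ) - ∑ j, Finsupp.single (P j).c 1 =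
        D' - Finsupp.single ρ.c 1 := by
      rw [Fin.sum_univ_castSucc, hD', sub_sub]
    rw [hD] at hell
    have hinj' : Function.Injective fun j => (P' j).ψ := fun i j hij =>
      Fin.castSucc_injective r (hinj hij)
    have hell' : ell D' + r ≤ lv oo n := by
      have h := ell_add_single_le (D' - Finsupp.single ρ.c 1) ρ.c
      rw [sub_add_cancel] at h
      omega
    obtain ⟨I0, hI0, hμ⟩ := ih P' hinj' hell'
    set μ : Ω := (evMat b I0 fun j => (P' j).ψ).det with hμdef
    have hPi : (∏ j, nrm V b n (P' j).ψ) * ∏ p ∈ pairs r, dl (P' p.1) (P' p.2) ≠ 0 := by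
      refine mul_ne_zero (Finset.prod_ne_zero_iff.2 fun j _ => nrm_ne_zero hb n _)
        (Finset.prod_ne_zero_iff.2 fun p hp => dl_ne_zero hb fun h => ?_)
      have h1 : p.1 = p.2 := hinj' h
      have h2 : p.1 < p.2 := (Finset.mem_filter.1 hp).2
      exact h2.ne h1
    have hμ0 : μ ≠ 0 := by
      intro h
      rw [h, map_zero] at hμ
      exact hPi hμ.symm
    by_contra hno
    -- the key claim
    have key : ∀ i, i < lv oo n → (b i : F) ∈ LSpace (D' - Finsupp.single ρ.c 1) ⊔
        Submodule.span K (Set.range fun a : Fin r => (b (I0 a) : F)) := by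
      intro i hi
      set Ii : Fin (r + 1) → ℕ := Fin.snoc (α := fun _ => ℕ) I0 i with hIi
      have hIi_lt : ∀ a, Ii a < lv oo n := by
        intro a
        refine Fin.lastCases ?_ (fun k => ?_) a
        · rw [hIi, Fin.snoc_last]; exact hi
        · rw [hIi, Fin.snoc_castSucc]; exact hI0 k
      set σ : Fin (r + 1) → Ω := D_cof b Ii fun j => (P' j).ψ with hσ
      have hσlast : σ (Fin.last r) = μ := by
        rw [hσ, D_cof_last]
        simp only [hIi, Fin.snoc_castSucc]
        rfl
      have hσmem : ∀ a, σ a / μ ∈ V.O := by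
        intro a
        rw [← V.val_le_one_iff, map_div₀]
        refine div_le_one_of_le₀ ?_ zero_le
        rw [hσ, D_val_cof, hμ]
        exact vW_core hb hn r _ (fun k => hIi_lt _) P'
      set s : Fin (r + 1) → V.O := fun a => ⟨σ a / μ, hσmem a⟩ with hs
      set f : Fin (r + 1) → affRing oo := fun a => b (Ii a) with hf
      have hfmem : ∀ a ∈ (Finset.univ : Finset (Fin (r + 1))),
          (f a : F) ∈ LSpace (Finsupp.single oo (n : ℤ)) := fun a _ => hb.mem_LSpace (hIi_lt a)
      have hz : ∀ j ∈ (Finset.univ : Finset (Fin r)),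
          ∑ a, (s a : Ω) * (P' j).ψ (f a) = 0 := by
        intro j _
        have h := D_laplace_zero (b := b) Ii (fun j => (P' j).ψ) j
        have h2 : ∑ a, (s a : Ω) * (P' j).ψ (f a) =
            (∑ a, D_cof b Ii (fun j => (P' j).ψ) a * (P' j).ψ (b (Ii a))) / μ := by
          rw [Finset.sum_div]
          refine Finset.sum_congr rfl fun a _ => ?_
          simp only [hs, hf, hσ]
          ring
        rw [h2, h, zero_div]
      have hsb : sbar V Finset.univ s f ∈ LSpace (D' - Finsupp.single ρ.c 1) := by
        by_contra hnot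
        have h := hs_core_eq hb hn Finset.univ s f hfmem Finset.univ P'
          (hinj'.injOn) hz ρ hnot
        apply hno
        refine ⟨Ii, hIi_lt, ?_⟩
        have h2 : (evMat b Ii fun j => (P j).ψ).det = μ * ∑ a, (s a : Ω) * ρ.ψ (f a) := by
          rw [D_laplace, Finset.mul_sum]
          refine Finset.sum_congr rfl fun a _ => ?_
          have e1 : μ * ((s a : Ω) * ρ.ψ (f a)) = σ a * ρ.ψ (f a) := by
            simp only [hs]
            field_simp
          rw [e1]
        rw [h2, map_mul, h, hμ, Fin.prod_univ_castSucc, prod_pairs_succ_last]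
        simp only [hP', hρ]
        rw [mul_mul_mul_comm]
      have hres1 : V.res (s (Fin.last r)) = 1 := by
        have : s (Fin.last r) = 1 := by
          apply Subtype.ext
          simp only [hs, hσlast]
          exact div_self hμ0
        rw [this, map_one]
      have hsplit : (b i : F) = sbar V Finset.univ s f +
          ∑ a : Fin r, (-(V.res (s a.castSucc))) • (b (I0 a) : F) := by
        rw [sbar, Fin.sum_univ_castSucc, hres1, map_one, one_mul]
        simp only [hf, hIi, Fin.snoc_last, Fin.snoc_castSucc, Algebra.smul_def, map_neg, neg_mul,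
          Finset.sum_neg_distrib]
        ring
      rw [hsplit]
      refine Submodule.add_mem_sup hsb (Submodule.sum_mem _ fun a _ => Submodule.smul_mem _ _
        (Submodule.subset_span ⟨a, rfl⟩))
    have hle : LSpace (Finsupp.single oo (n : ℤ)) ≤ LSpace (D' - Finsupp.single ρ.c 1) ⊔
        Submodule.span K (Set.range fun a : Fin r => (b (I0 a) : F)) := by
      rw [IsPoleBasis.span_eq' hb (n : ℤ), Submodule.span_le]
      rintro _ ⟨i, hi, rfl⟩
      exact key i hi
    have hfin : FiniteDimensional K
        (Submodule.span K (Set.range fun a : Fin r => (b (I0 a) : F))) :=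
      FiniteDimensional.span_of_finite K (Set.finite_range _)
    have h1 : lv oo n ≤ ell (D' - Finsupp.single ρ.c 1) + r :=
      calc lv oo n ≤ Module.finrank K ↥(LSpace (D' - Finsupp.single ρ.c 1) ⊔
            Submodule.span K (Set.range fun a : Fin r => (b (I0 a) : F))) :=
            Submodule.finrank_mono hle
        _ ≤ Module.finrank K (LSpace (D' - Finsupp.single ρ.c 1)) +
            Module.finrank K (Submodule.span K (Set.range fun a : Fin r => (b (I0 a) : F))) :=
            Submodule.finrank_add_le_finrank_add_finrank _ _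
        _ ≤ ell (D' - Finsupp.single ρ.c 1) + r := by
            refine Nat.add_le_add_left ?_ _
            exact (finrank_range_le_card _).trans (by simp)
    omega

end Fermat.Agent.S17.Loc
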