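import Fermat.Agent.S17.Loc.D

/-!
# S17-LOC, file `DSq`: (V-D) for the square determinant
-/

set_option autoImplicit false
set_option linter.unusedSectionVars false

noncomputable section

namespace Fermat.Agent.S17.Loc

open AlgebraicCurve Fermat.Agent.S24.Zeros Fermat.Agent.S17.FF

variable {K F : Type*} [Field K] [Field F] [Algebra K F] [IsAlgClosed K] [CharZero K] [IsFF K F]
variable {Ω : Type*} [Field Ω] [Algebra K Ω] {V : ResVal K Ω} {oo : Place K F} {b : ℕ → affRing oo}

/-- **(V-D)**, the square determinant -/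
theorem vD_square (hb : IsPB oo b) {n : ℕ} (hn : Big K F n) (r : ℕ) (hr : r = lv oo n) (P : Fin r → CPt V oo)
    (hinj : Function.Injective fun j => (P j).ψ)
    (hell : ell (Finsupp.single oo (n : ℤ) - ∑ j, Finsupp.single (P j).c 1) = 0) :
    V.val (evMat b (fun a => (a : ℕ)) fun j => (P j).ψ).det =
      (∏ j, nrm V b n (P j).ψ) * ∏ p ∈ pairs r, dl (P p.1) (P p.2) := by
  subst hr
  obtain ⟨I, hI, hval⟩ := vD_core hb hn (lv oo n) P hinj (by rw [hell, zero_add])
  have hne : (∏ j, nrm V b n (P j).ψ) * ∏ p ∈ pairs (lv oo n), dl (P p.1) (P p.2) ≠ 0 := by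
    refine mul_ne_zero (Finset.prod_ne_zero_iff.2 fun j _ => nrm_ne_zero hb n _)
      (Finset.prod_ne_zero_iff.2 fun p hp => dl_ne_zero hb ?_)
    intro h
    have h1 : p.1 = p.2 := hinj h
    have hlt : p.1 < p.2 := (Finset.mem_filter.1 hp).2
    exact absurd h1 (ne_of_lt hlt)
  have hIinj : Function.Injective I := by
    intro a a' haa
    by_contra hne'
    apply hne
    rw [← hval, Matrix.det_zero_of_row_eq hne' ?_, map_zero]
    funext j
    simp only [evMat, Matrix.of_apply, haa]
  have hσinj : Function.Injective (fun a => (⟨I a, hI a⟩ : Fin (lv oo n))) :=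
    fun a a' h => hIinj (congrArg Fin.val h)
  let σ : Equiv.Perm (Fin (lv oo n)) :=
    Equiv.ofBijective _ (Finite.injective_iff_bijective.1 hσinj)
  have hM : evMat b I (fun j => (P j).ψ)
      = (evMat b (fun a => (a : ℕ)) fun j => (P j).ψ).submatrix σ id := by
    ext a j
    rfl
  rw [← hval, hM, Matrix.det_permute, map_mul]
  have hs : V.val (((Equiv.Perm.sign σ : ℤˣ) : ℤ) : Ω) = 1 := by
    rcases Int.units_eq_one_or (Equiv.Perm.sign σ) with h | h
    · rw [h]
      simp
    · rw [h]
      simp
  rw [hs, one_mul]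

/-- `K`-points with nonvanishing determinant impose independent conditions -/
theorem ell_eq_zero_of_det_ne_zero (hb : IsPB oo b) {k u : ℕ} (hu : u = lv oo k)
    (U : Fin u → affRing oo →ₐ[K] K) (hU : Function.Injective U)
    (hdet : (evMat b (fun a => (a : ℕ)) U).det ≠ 0) :
    ell (Finsupp.single oo (k : ℤ) - ∑ j, Finsupp.single (placeOf (U j)) 1) = 0 := by
  subst hu
  by_contra hne
  obtain ⟨f, hf, hf0⟩ := ell_pos_iff.1 (Nat.pos_of_ne_zero hne)
  have hsingle : ∀ (j : Fin (lv oo k)) (c : Place K F),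
      0 ≤ (Finsupp.single (placeOf (U j)) (1 : ℤ)) c := by
    intro j c
    classical
    rw [Finsupp.single_apply]
    split_ifs <;> norm_num
  have hE : (0 : Divisor K F) ≤ ∑ j, Finsupp.single (placeOf (U j)) 1 :=
    Finset.sum_nonneg fun j _ => fun c => hsingle j c
  have hf' : f ∈ LSpace (Finsupp.single oo (k : ℤ)) := LSpace_mono (sub_le_self _ hE) hf
  obtain ⟨a, ha⟩ := hb.exists_coeff hf'
  have hz : ∀ j, ∑ i ∈ Finset.range (lv oo k), a i * U j (b i) = 0 := by
    intro j
    have hc : placeOf (U j) ≠ oo := placeOf_ne _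
    have hord : 1 ≤ (placeOf (U j)).ord f := by
      rcases hf with h | h
      · exact absurd h hf0
      · have h1 := h (placeOf (U j))
        rw [Finsupp.sub_apply, Finsupp.single_eq_of_ne hc, Finsupp.finsetSum_apply] at h1
        have h2 : 1 ≤ ∑ j', Finsupp.single (placeOf (U j')) (1 : ℤ) (placeOf (U j)) := by
          calc (1 : ℤ) = Finsupp.single (placeOf (U j)) (1 : ℤ) (placeOf (U j)) :=
                (Finsupp.single_eq_same).symm
            _ ≤ _ := Finset.single_le_sum
                (f := fun j' => Finsupp.single (placeOf (U j')) (1 : ℤ) (placeOf (U j)))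
                (fun j' _ => hsingle j' _) (Finset.mem_univ j)
        omega
    have hv : val (placeOf (U j)) f = 0 :=
      (val_eq_zero_iff _ (by omega)).2 (Or.inr (by omega))
    have hfa : f = ((∑ i ∈ Finset.range (lv oo k), a i • b i : affRing oo) : F) := by
      rw [ha, AddSubmonoidClass.coe_finsetSum]
      refine Finset.sum_congr rfl fun i _ => ?_
      rw [Subalgebra.coe_smul, Algebra.smul_def]
    rw [hfa, val_placeOf, map_sum] at hv
    rw [← hv]
    refine Finset.sum_congr rfl fun i _ => ?_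
    rw [map_smul, smul_eq_mul]
  apply hdet
  rw [← Matrix.exists_vecMul_eq_zero_iff]
  refine ⟨fun i => a i, ?_, ?_⟩
  · intro h0
    apply hf0
    rw [ha]
    refine Finset.sum_eq_zero fun i hi => ?_
    have h1 : a i = 0 := congrFun h0 ⟨i, Finset.mem_range.1 hi⟩
    rw [h1, map_zero, zero_mul]
  · funext j
    rw [Pi.zero_apply, ← hz j, ← Fin.sum_univ_eq_sum_range (fun i => a i * U j (b i))]
    rfl

end Fermat.Agent.S17.Loc
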