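import Fermat.Agent.S17.Loc.V1

/-!
# S17-LOC, file `Dl`: the local distance `dl`, constant points
-/

set_option autoImplicit false
set_option linter.unusedSectionVars false

noncomputable section

namespace Fermat.Agent.S17.Loc

open AlgebraicCurve Fermat.Agent.S24.Zeros Fermat.Agent.S17.FF

variable {K F : Type*} [Field K] [Field F] [Algebra K F] [IsAlgClosed K] [CharZero K] [IsFF K F]
variable {Ω : Type*} [Field Ω] [Algebra K Ω] {V : ResVal K Ω} {oo : Place K F} {b : ℕ → affRing oo}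

/-- every element of `A` lies in `L(n∞)` for some big `n` -/
theorem Dl_exists_big (a : affRing oo) :
    ∃ n : ℕ, Big K F n ∧ (a : F) ∈ LSpace (Finsupp.single oo (n : ℤ)) := by
  obtain ⟨n, hn⟩ := (mem_affRing_iff_exists oo (a : F)).1 a.2
  refine ⟨n + (cBound K F + 2).toNat, ?_, ?_⟩
  · unfold Big
    have := Int.self_le_toNat (cBound K F + 2)
    push_cast
    omega
  · refine LSpace_mono ?_ hn
    rw [Finsupp.single_le_single]
    push_cast
    omega

/-- a centered point is determined by its center and its coordinate (`LocalChart.Pt.ext_of_x`, `CPt.ψ_eq`, `CPt.inv_gen_mul`) -/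
theorem CPt.ψ_eq_of_x_eq (hb : IsPB oo b) (P Q : CPt V oo) (hc : P.c = Q.c) (hx : P.x = Q.x) : P.ψ = Q.ψ := by
  obtain ⟨ψ, c, χ, hP⟩ := P
  obtain ⟨ψ', c', χ', hQ⟩ := Q
  dsimp only at hc
  subst hc
  have hχ : χ.toHom = χ'.toHom := LocalChart.Pt.ext_of_x hx
  refine AlgHom.ext fun a => ?_
  obtain ⟨n, hn, ha⟩ := Dl_exists_big a
  have h1 := CPt.ψ_eq hb hn (⟨ψ, c, χ, hP⟩ : CPt V oo) ha
  have h2 := CPt.ψ_eq hb hn (⟨ψ', c, χ', hQ⟩ : CPt V oo) ha
  have h3 := CPt.inv_gen_mul hb hn (⟨ψ, c, χ, hP⟩ : CPt V oo)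
  have h4 := CPt.inv_gen_mul hb hn (⟨ψ', c, χ', hQ⟩ : CPt V oo)
  dsimp only at h1 h2 h3 h4 ⊢
  rw [← hχ] at h2 h4
  have h5 : ψ (gen b n c) = ψ' (gen b n c) := by
    have hne : χ.toHom (locF c ((gen b n c : F))⁻¹) ≠ 0 := by
      intro h0
      rw [h0, zero_mul] at h3
      exact zero_ne_one h3
    exact mul_left_cancel₀ hne (h3.trans h4.symm)
  rw [h1, h2, h5]

theorem dl_comm (P Q : CPt V oo) : dl P Q = dl Q P := by
  unfold dl
  by_cases h : P.c = Q.c
  · rw [if_pos h, if_pos h.symm, Valuation.map_sub_swap]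
  · rw [if_neg h, if_neg fun e => h e.symm]

theorem dl_le_one (P Q : CPt V oo) : dl P Q ≤ 1 := by
  unfold dl
  by_cases h : P.c = Q.c
  · rw [if_pos h]
    exact Valuation.map_sub_le _ P.val_x_lt_one.le Q.val_x_lt_one.le
  · rw [if_neg h]

theorem dl_ne_zero (hb : IsPB oo b) {P Q : CPt V oo} (h : P.ψ ≠ Q.ψ) : dl P Q ≠ 0 := by
  unfold dl
  by_cases hc : P.c = Q.c
  · rw [if_pos hc]
    intro h0
    rw [map_eq_zero, sub_eq_zero] at h0
    exact h (CPt.ψ_eq_of_x_eq hb P Q hc h0)
  · rw [if_neg hc]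
    exact one_ne_zero

theorem dl_eq_zero {P Q : CPt V oo} (hc : P.c = Q.c) (hx : P.x = Q.x) : dl P Q = 0 := by
  unfold dl
  rw [if_pos hc, hx, sub_self, map_zero]

theorem center_eq_of_dl_lt {P Q : CPt V oo} (h : dl P Q < 1) : P.c = Q.c := by
  by_contra hc
  unfold dl at h
  rw [if_neg hc] at h
  exact lt_irrefl _ h

/-- the place of a `K`-point of `A` -/
def placeOf (U : affRing oo →ₐ[K] K) : Place K F :=
  ((Equiv.ofBijective _ (ptOfPlace_bijective oo)).symm U).1

theorem placeOf_ne (U : affRing oo →ₐ[K] K) : placeOf U ≠ oo :=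
  ((Equiv.ofBijective _ (ptOfPlace_bijective oo)).symm U).2

theorem val_placeOf (U : affRing oo →ₐ[K] K) (a : affRing oo) : val (placeOf U) (a : F) = U a := by
  have h := (Equiv.ofBijective _ (ptOfPlace_bijective oo)).apply_symm_apply U
  have h2 := DFunLike.congr_fun h a
  exact h2

theorem placeOf_injective : Function.Injective (placeOf (oo := oo)) := by
  intro U U' h
  exact (Equiv.ofBijective _ (ptOfPlace_bijective oo)).symm.injective (Subtype.ext h)

variable (V) in
/-- the constant centered point attached to a `K`-point of `A` -/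
def CPt.const (U : affRing oo →ₐ[K] K) : CPt V oo where
  ψ := (Algebra.ofId K Ω).comp U
  c := placeOf U
  χ := LocalChart.Pt.const _ V
  compat := by
    intro f a a' hf
    change algebraMap K Ω (ev (placeOf U) f) * algebraMap K Ω (U a') = algebraMap K Ω (U a)
    rw [← map_mul, ← val_placeOf U a, ← val_placeOf U a', ← hf,
      val_mul (placeOf U) (ord_nonneg_of_mem _ f.2) (a'.2 _ (placeOf_ne U)),
      val_of_mem (placeOf U) f.2]

@[simp] theorem CPt.const_ψ (U : affRing oo →ₐ[K] K) : (CPt.const V U).ψ = (Algebra.ofId K Ω).comp U := rfl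

@[simp] theorem CPt.const_c (U : affRing oo →ₐ[K] K) : (CPt.const V U).c = placeOf U := rfl


end Fermat.Agent.S17.Loc
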