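import Fermat.Agent.S17.Loc.Gen

/-!
# S17-LOC, file `V2b`: geometric input for (V2)
-/

set_option autoImplicit false
set_option linter.unusedSectionVars false

noncomputable section

namespace Fermat.Agent.S17.Loc

open AlgebraicCurve Fermat.Agent.S24.Zeros Fermat.Agent.S17.FF

variable {K F : Type*} [Field K] [Field F] [Algebra K F] [IsAlgClosed K] [CharZero K] [IsFF K F]
variable {Ω : Type*} [Field Ω] [Algebra K Ω] {V : ResVal K Ω} {oo : Place K F} {b : ℕ → affRing oo}

/-- `Big d` forces `d > 0`. -/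
theorem V2b_pos (oo : Place K F) {d : ℕ} (hd : Big K F d) : 0 < d := by
  rcases Nat.eq_zero_or_pos d with rfl | h
  · exfalso
    obtain ⟨f, hf, hf0, hord⟩ := exists_subtop oo (d := ((0 : ℕ) : ℤ)) hd
    rw [Nat.cast_zero, Finsupp.single_zero, mem_LSpace_zero] at hf
    obtain ⟨c, rfl⟩ := hf
    rw [ord_algebraMap] at hord
    norm_num at hord
  · exact h

/-- `ord (f / g)`. -/
theorem V2b_ord_div (c : Place K F) {f g : F} (hf : f ≠ 0) (hg : g ≠ 0) :
    c.ord (f / g) = c.ord f - c.ord g := by
  rw [div_eq_mul_inv, c.ord_mul hf (inv_ne_zero hg), c.ord_inv, sub_eq_add_neg]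

/-- the value of a `K`-linear combination of regular functions. -/
theorem V2b_val_sum (c : Place K F) (s : Finset ℕ) (a : ℕ → K) (h : ℕ → F)
    (hh : ∀ i ∈ s, 0 ≤ c.ord (h i)) :
    0 ≤ c.ord (∑ i ∈ s, algebraMap K F (a i) * h i) ∧
      val c (∑ i ∈ s, algebraMap K F (a i) * h i) = ∑ i ∈ s, a i * val c (h i) := by
  classical
  induction s using Finset.induction_on with
  | empty =>
    refine ⟨by simp [Place.ord_zero], ?_⟩
    rw [Finset.sum_empty, Finset.sum_empty, ← map_zero (algebraMap K F), val_algebraMap]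
  | insert i s hi ih =>
    obtain ⟨h1, h2⟩ := ih fun j hj => hh j (Finset.mem_insert_of_mem hj)
    have h3 : 0 ≤ c.ord (h i) := hh i (Finset.mem_insert_self i s)
    have h4 : 0 ≤ c.ord (algebraMap K F (a i)) := by rw [ord_algebraMap]
    have h5 : 0 ≤ c.ord (algebraMap K F (a i) * h i) :=
      (mem_iff_ord_nonneg' c _).1 (mul_mem (mem_of_ord_nonneg c h4) (mem_of_ord_nonneg c h3))
    rw [Finset.sum_insert hi, Finset.sum_insert hi]
    refine ⟨(mem_iff_ord_nonneg' c _).1 (add_mem (mem_of_ord_nonneg c h5) (mem_of_ord_nonneg c h1)),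
      ?_⟩
    rw [val_add c h5 h1, h2, val_mul c h4 h3, val_algebraMap]

/-- the value of `f / gen` in terms of the coefficients of `f`. -/
theorem V2b_val_div_gen (hb : IsPB oo b) {d : ℕ} (hd : Big K F d) (c : Place K F) (a : ℕ → K) :
    val c ((∑ i ∈ Finset.range (lv oo d), algebraMap K F (a i) * (b i : F)) / (gen b d c : F)) =
      ∑ i ∈ Finset.range (lv oo d), a i * val c ((b i : F) / (gen b d c : F)) := by
  rw [Finset.sum_div]
  simp only [mul_div_assoc]
  exact (V2b_val_sum c _ a _ fun i hi =>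
    hb.ord_div_gen_nonneg hd c (hb.mem_LSpace (Finset.mem_range.1 hi))).2

/-- some normalised coordinate is `1`. -/
theorem V2b_exists_one (hb : IsPB oo b) (d : ℕ) (c : Place K F) :
    ∃ j < lv oo d, val c ((b j : F) / (gen b d c : F)) = 1 := by
  have h1 : val c (1 : F) = 1 := by rw [← map_one (algebraMap K F), val_algebraMap]
  by_cases hc : c = oo
  · subst hc
    refine ⟨lv c d - 1, Nat.sub_lt (lv_pos c d) one_pos, ?_⟩
    have h0 := hb.gen_ne_zero d c
    rw [gen_oo] at h0 ⊢
    rw [div_self h0, h1]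
  · refine ⟨0, lv_pos oo d, ?_⟩
    rw [gen_of_ne b d hc, hb.b_zero]
    simp [h1]

/-- a section vanishing at `c` and not at `c'`. -/
theorem V2b_exists_sep (hb : IsPB oo b) {d : ℕ} (hd : Big K F d) {c c' : Place K F} (h : c ≠ c') :
    ∃ f ∈ LSpace (Finsupp.single oo (d : ℤ)),
      val c (f / (gen b d c : F)) = 0 ∧ val c' (f / (gen b d c' : F)) ≠ 0 := by
  have hdpos : (0 : ℤ) < d := by exact_mod_cast V2b_pos oo hd
  have h1 : ∀ v : Place K F, val v (1 : F) = 1 := fun v => by
    rw [← map_one (algebraMap K F), val_algebraMap]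
  by_cases hc : c = oo
  · subst hc
    have hc' : c' ≠ c := Ne.symm h
    have hmem : (1 : F) ∈ LSpace (Finsupp.single c (d : ℤ)) := by
      have := hb.mem_LSpace (lv_pos c d)
      rwa [hb.b_zero] at this
    refine ⟨1, hmem, ?_, ?_⟩
    · have h0 := hb.gen_ne_zero d c
      have h2 : c.ord ((1 : F) / (gen b d c : F)) = d := by
        rw [V2b_ord_div c one_ne_zero h0, Place.ord_one, hb.ord_gen hd c, Finsupp.single_eq_same]
        ring
      rw [val_eq_zero_iff c (by rw [h2]; exact hdpos.le)]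
      right
      rw [h2]; exact hdpos
    · rw [gen_of_ne b d hc']
      simp [h1]
  · by_cases hc' : c' = oo
    · subst hc'
      obtain ⟨f, hf, hord, hval⟩ := exists_sep_oo c' (d := (d : ℤ)) hd hc
      have hf0 : f ≠ 0 := by
        rintro rfl
        rw [Place.ord_zero] at hord
        omega
      refine ⟨f, hf, ?_, ?_⟩
      · rw [gen_of_ne b d hc]
        simpa using hval
      · have h0 := hb.gen_ne_zero d c'
        have h2 : c'.ord (f / (gen b d c' : F)) = 0 := by
          rw [V2b_ord_div c' hf0 h0, hord, hb.ord_gen hd c', Finsupp.single_eq_same]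
          ring
        rw [Ne, val_eq_zero_iff c' h2.ge, h2]
        push_neg
        exact ⟨div_ne_zero hf0 h0, le_refl _⟩
    · obtain ⟨f, hf, hv, hv'⟩ := exists_sep oo (d := (d : ℤ)) hd hc hc' h
      refine ⟨f, hf, ?_, ?_⟩
      · rw [gen_of_ne b d hc]; simpa using hv
      · rw [gen_of_ne b d hc']; simpa using hv'

/-- geometric input, different centers: the vectors `(h_i(c))_i`, `(h'_i(c'))_i` are not proportional
(`exists_sep`, `exists_sep_oo`, `IsPB.exists_coeff`). -/
theorem exists_minor_ne_zero (hb : IsPB oo b) {d : ℕ} (hd : Big K F d) {c c' : Place K F} (h : c ≠ c') :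
    ∃ i < lv oo d, ∃ j < lv oo d,
      val c ((b i : F) / (gen b d c : F)) * val c' ((b j : F) / (gen b d c' : F))
        - val c ((b j : F) / (gen b d c : F)) * val c' ((b i : F) / (gen b d c' : F)) ≠ 0 := by
  by_contra hcon
  push_neg at hcon
  obtain ⟨f, hf, hv, hv'⟩ := V2b_exists_sep hb hd h
  obtain ⟨a, rfl⟩ := hb.exists_coeff hf
  rw [V2b_val_div_gen hb hd] at hv hv'
  obtain ⟨j, hj, hj1⟩ := V2b_exists_one hb d c
  apply hv'
  have key : (∑ i ∈ Finset.range (lv oo d), a i * val c ((b i : F) / (gen b d c : F))) *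
        val c' ((b j : F) / (gen b d c' : F)) =
      val c ((b j : F) / (gen b d c : F)) *
        ∑ i ∈ Finset.range (lv oo d), a i * val c' ((b i : F) / (gen b d c' : F)) := by
    rw [Finset.sum_mul, Finset.mul_sum]
    refine Finset.sum_congr rfl fun i hi => ?_
    have := hcon i (Finset.mem_range.1 hi) j hj
    linear_combination a i * this
  rw [hv, hj1, zero_mul, one_mul] at key
  exact key.symm

/-- geometric input, equal centers: some `K`-linear combination of the `h_i` is a uniformiser at `c`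
(`exists_unif`, `exists_subtop`, `IsPB.exists_coeff`, `taylor_ne_zero_of_ord_eq`). -/
theorem exists_taylor_one_ne_zero (hb : IsPB oo b) {d : ℕ} (hd : Big K F d) (c : Place K F) :
    ∃ f ∈ LSpace (Finsupp.single oo (d : ℤ)), (chartAt c).taylor 1 (locF c (f / (gen b d c : F))) ≠ 0 := by
  obtain ⟨f, hf, hord⟩ : ∃ f ∈ LSpace (Finsupp.single oo (d : ℤ)),
      c.ord (f / (gen b d c : F)) = 1 := by
    by_cases hc : c = oo
    · subst hc
      obtain ⟨f, hf, hf0, hord⟩ := exists_subtop c (d := (d : ℤ)) hd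
      refine ⟨f, hf, ?_⟩
      rw [V2b_ord_div c hf0 (hb.gen_ne_zero d c), hord, hb.ord_gen hd c, Finsupp.single_eq_same]
      ring
    · obtain ⟨f, hf, hord⟩ := exists_unif oo (d := (d : ℤ)) hd hc
      refine ⟨f, hf, ?_⟩
      rw [gen_of_ne b d hc]
      simpa using hord
  refine ⟨f, hf, ?_⟩
  have hcoe : ((locF c (f / (gen b d c : F)) : c.toValuationSubring) : F) = f / (gen b d c : F) :=
    coe_locF (by rw [hord]; exact zero_le_one)
  have hne : locF c (f / (gen b d c : F)) ≠ 0 := by
    intro h0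
    rw [h0] at hcoe
    rw [← hcoe] at hord
    simp [Place.ord_zero] at hord
  exact taylor_ne_zero_of_ord_eq c (unif c) (ord_unif c) hne (n := 1) (by rw [hcoe, hord]; rfl)

end Fermat.Agent.S17.Loc
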