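import Fermat.Agent.S17.Loc.V2a
import Fermat.Agent.S17.Loc.V2b
import Fermat.Agent.S17.Loc.Dl

/-!
# S17-LOC, file `V2`: `wdg = nrm * nrm * dl`
-/

set_option autoImplicit false
set_option linter.unusedSectionVars false

noncomputable section

namespace Fermat.Agent.S17.Loc

open AlgebraicCurve Fermat.Agent.S24.Zeros Fermat.Agent.S17.FF

variable {K F : Type*} [Field K] [Field F] [Algebra K F] [IsAlgClosed K] [CharZero K] [IsFF K F]
variable {Ω : Type*} [Field Ω] [Algebra K Ω] {V : ResVal K Ω} {oo : Place K F} {b : ℕ → affRing oo}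

/-- the residue of `χ(b_i / gen)`. -/
theorem V2_res (hb : IsPB oo b) {d : ℕ} (hd : Big K F d) {c : Place K F} (χ : (chartAt c).Pt V)
    {i : ℕ} (hi : i < lv oo d) :
    V.res ⟨χ.toHom (locF c ((b i : F) / (gen b d c : F))), χ.mem _⟩ =
      val c ((b i : F) / (gen b d c : F)) := by
  rw [χ.res_eq]
  have h := evAlg_eq_val c (locF c ((b i : F) / (gen b d c : F)))
  rw [coe_locF (hb.ord_div_gen_nonneg hd c (hb.mem_LSpace hi))] at h
  exact h

/-- an index `j₀` with `b_{j₀} = gen`. -/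
theorem V2_exists_index (hb : IsPB oo b) (d : ℕ) (c : Place K F) :
    ∃ j₀ < lv oo d, b j₀ = gen b d c := by
  by_cases hc : c = oo
  · subst hc
    exact ⟨lv c d - 1, by have := lv_pos c d; omega, (gen_oo b d).symm⟩
  · exact ⟨0, lv_pos oo d, by rw [gen_of_ne b d hc, hb.b_zero]⟩

theorem V2_locF_one (c : Place K F) : locF c (1 : F) = 1 :=
  Subtype.ext (coe_locF (by rw [Place.ord_one]))

/-- the normalised minors, equal centers. -/
theorem V2_sup_eq (hb : IsPB oo b) {d : ℕ} (hd : Big K F d) {c : Place K F}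
    (χ χ' : (chartAt c).Pt V) :
    ((Finset.range (lv oo d) ×ˢ Finset.range (lv oo d)).sup fun ij =>
        V.val (χ.toHom (locF c ((b ij.1 : F) / (gen b d c : F))) *
            χ'.toHom (locF c ((b ij.2 : F) / (gen b d c : F)))
          - χ.toHom (locF c ((b ij.2 : F) / (gen b d c : F))) *
            χ'.toHom (locF c ((b ij.1 : F) / (gen b d c : F))))) = V.val (χ.x - χ'.x) := by
  set h : ℕ → c.toValuationSubring := fun i => locF c ((b i : F) / (gen b d c : F)) with hh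
  have hle1 : ∀ (ξ : (chartAt c).Pt V) (f : c.toValuationSubring), V.val (ξ.toHom f) ≤ 1 :=
    fun ξ f => (V.val_le_one_iff _).2 (ξ.mem f)
  apply le_antisymm
  · refine Finset.sup_le fun ij _ => ?_
    have e : χ.toHom (h ij.1) * χ'.toHom (h ij.2) - χ.toHom (h ij.2) * χ'.toHom (h ij.1) =
        (χ.toHom (h ij.1) - χ'.toHom (h ij.1)) * χ'.toHom (h ij.2) -
          (χ.toHom (h ij.2) - χ'.toHom (h ij.2)) * χ'.toHom (h ij.1) := by ring
    show V.val (χ.toHom (h ij.1) * χ'.toHom (h ij.2) - χ.toHom (h ij.2) * χ'.toHom (h ij.1)) ≤ _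
    rw [e]
    refine V.val.map_sub_le ?_ ?_
    · rw [map_mul]
      calc V.val (χ.toHom (h ij.1) - χ'.toHom (h ij.1)) * V.val (χ'.toHom (h ij.2))
          ≤ V.val (χ.x - χ'.x) * 1 :=
            mul_le_mul' (LocalChart.val_sub_le χ χ' _) (hle1 χ' _)
        _ = _ := mul_one _
    · rw [map_mul]
      calc V.val (χ.toHom (h ij.2) - χ'.toHom (h ij.2)) * V.val (χ'.toHom (h ij.1))
          ≤ V.val (χ.x - χ'.x) * 1 :=
            mul_le_mul' (LocalChart.val_sub_le χ χ' _) (hle1 χ' _)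
        _ = _ := mul_one _
  · obtain ⟨j₀, hj₀, hbj⟩ := V2_exists_index hb d c
    have hj1 : h j₀ = 1 := by
      show locF c ((b j₀ : F) / (gen b d c : F)) = 1
      rw [hbj, div_self (hb.gen_ne_zero d c), V2_locF_one]
    obtain ⟨f, hf, hft⟩ := exists_taylor_one_ne_zero hb hd c
    obtain ⟨a, ha⟩ := hb.exists_coeff hf
    have hg : locF c (f / (gen b d c : F)) =
        ∑ i ∈ Finset.range (lv oo d), algebraMap K c.toValuationSubring (a i) * h i := by
      refine Subtype.ext ?_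
      rw [coe_locF (hb.ord_div_gen_nonneg hd c hf)]
      have e1 : ((∑ i ∈ Finset.range (lv oo d), algebraMap K c.toValuationSubring (a i) * h i :
          c.toValuationSubring) : F) = ∑ i ∈ Finset.range (lv oo d),
            ((algebraMap K c.toValuationSubring (a i) * h i : c.toValuationSubring) : F) :=
        map_sum c.toValuationSubring.subtype _ _
      rw [e1, ha, Finset.sum_div]
      refine Finset.sum_congr rfl fun i hi => ?_
      have e2 : ((h i : c.toValuationSubring) : F) = (b i : F) / (gen b d c : F) :=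
        coe_locF (hb.ord_div_gen_nonneg hd c (hb.mem_LSpace (Finset.mem_range.1 hi)))
      show _ = algebraMap K F (a i) * ((h i : c.toValuationSubring) : F)
      rw [e2, mul_div_assoc]
    have hsum : χ.toHom (locF c (f / (gen b d c : F))) - χ'.toHom (locF c (f / (gen b d c : F))) =
        ∑ i ∈ Finset.range (lv oo d),
          algebraMap K Ω (a i) * (χ.toHom (h i) - χ'.toHom (h i)) := by
      rw [hg, map_sum, map_sum, ← Finset.sum_sub_distrib]
      refine Finset.sum_congr rfl fun i _ => ?_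
      rw [map_mul, map_mul, AlgHom.commutes, AlgHom.commutes, mul_sub]
    rw [← LocalChart.val_sub_eq χ χ' hft, hsum]
    refine Valuation.map_sum_le _ fun i hi => ?_
    rw [map_mul]
    calc V.val (algebraMap K Ω (a i)) * V.val (χ.toHom (h i) - χ'.toHom (h i))
        ≤ 1 * V.val (χ.toHom (h i) - χ'.toHom (h i)) :=
          mul_le_mul' (V.val_algebraMap_le (a i)) le_rfl
      _ = V.val (χ.toHom (h i) * χ'.toHom (h j₀) - χ.toHom (h j₀) * χ'.toHom (h i)) := by
          rw [one_mul, hj1, map_one, map_one, mul_one, one_mul]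
      _ ≤ _ := Finset.le_sup (f := fun ij : ℕ × ℕ =>
          V.val (χ.toHom (h ij.1) * χ'.toHom (h ij.2) - χ.toHom (h ij.2) * χ'.toHom (h ij.1)))
          (b := (i, j₀)) (Finset.mem_product.2 ⟨hi, Finset.mem_range.2 hj₀⟩)

theorem wdg_of_center_ne (hb : IsPB oo b) {d : ℕ} (hd : Big K F d) (P Q : CPt V oo) (h : P.c ≠ Q.c) :
    wdg V b d P.ψ Q.ψ = nrm V b d P.ψ * nrm V b d Q.ψ := by
  rw [wdg_eq_mul_sup hb hd P Q]
  have hmem : ∀ ij : ℕ × ℕ,
      P.χ.toHom (locF P.c ((b ij.1 : F) / (gen b d P.c : F))) *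
          Q.χ.toHom (locF Q.c ((b ij.2 : F) / (gen b d Q.c : F)))
        - P.χ.toHom (locF P.c ((b ij.2 : F) / (gen b d P.c : F))) *
          Q.χ.toHom (locF Q.c ((b ij.1 : F) / (gen b d Q.c : F))) ∈ V.O := fun ij =>
    V.O.sub_mem (V.O.mul_mem _ _ (P.χ.mem _) (Q.χ.mem _)) (V.O.mul_mem _ _ (P.χ.mem _) (Q.χ.mem _))
  suffices hs : ((Finset.range (lv oo d) ×ˢ Finset.range (lv oo d)).sup fun ij =>
      V.val (P.χ.toHom (locF P.c ((b ij.1 : F) / (gen b d P.c : F))) *
          Q.χ.toHom (locF Q.c ((b ij.2 : F) / (gen b d Q.c : F)))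
        - P.χ.toHom (locF P.c ((b ij.2 : F) / (gen b d P.c : F))) *
          Q.χ.toHom (locF Q.c ((b ij.1 : F) / (gen b d Q.c : F))))) = 1 by
    rw [hs, mul_one]
  apply le_antisymm
  · exact Finset.sup_le fun ij _ => (V.val_le_one_iff _).2 (hmem ij)
  · obtain ⟨i, hi, j, hj, hne⟩ := exists_minor_ne_zero hb hd h
    have h1 : V.val (P.χ.toHom (locF P.c ((b i : F) / (gen b d P.c : F))) *
          Q.χ.toHom (locF Q.c ((b j : F) / (gen b d Q.c : F)))
        - P.χ.toHom (locF P.c ((b j : F) / (gen b d P.c : F))) *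
          Q.χ.toHom (locF Q.c ((b i : F) / (gen b d Q.c : F)))) = 1 := by
      refine (V.val_eq_one_iff ⟨_, hmem (i, j)⟩).2 ?_
      have e : (⟨_, hmem (i, j)⟩ : V.O) =
          ⟨_, P.χ.mem (locF P.c ((b i : F) / (gen b d P.c : F)))⟩ *
            ⟨_, Q.χ.mem (locF Q.c ((b j : F) / (gen b d Q.c : F)))⟩ -
          ⟨_, P.χ.mem (locF P.c ((b j : F) / (gen b d P.c : F)))⟩ *
            ⟨_, Q.χ.mem (locF Q.c ((b i : F) / (gen b d Q.c : F)))⟩ := rfl
      rw [e, map_sub, map_mul, map_mul, V2_res hb hd P.χ hi, V2_res hb hd P.χ hj,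
        V2_res hb hd Q.χ hi, V2_res hb hd Q.χ hj]
      exact hne
    rw [← h1]
    exact Finset.le_sup (f := fun ij : ℕ × ℕ =>
      V.val (P.χ.toHom (locF P.c ((b ij.1 : F) / (gen b d P.c : F))) *
          Q.χ.toHom (locF Q.c ((b ij.2 : F) / (gen b d Q.c : F)))
        - P.χ.toHom (locF P.c ((b ij.2 : F) / (gen b d P.c : F))) *
          Q.χ.toHom (locF Q.c ((b ij.1 : F) / (gen b d Q.c : F))))) (b := (i, j))
      (Finset.mem_product.2 ⟨Finset.mem_range.2 hi, Finset.mem_range.2 hj⟩)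

theorem wdg_of_center_eq (hb : IsPB oo b) {d : ℕ} (hd : Big K F d) (P Q : CPt V oo) (h : P.c = Q.c) :
    wdg V b d P.ψ Q.ψ = nrm V b d P.ψ * nrm V b d Q.ψ * V.val (P.x - Q.x) := by
  rw [wdg_eq_mul_sup hb hd P Q]
  obtain ⟨ψ, c, χ, hcomp⟩ := P
  obtain ⟨ψ', c', χ', hcomp'⟩ := Q
  simp only at h
  subst h
  congr 1
  exact V2_sup_eq hb hd χ χ'

/-- **(V2)** -/
theorem wdg_eq (hb : IsPB oo b) {d : ℕ} (hd : Big K F d) (P Q : CPt V oo) :
    wdg V b d P.ψ Q.ψ = nrm V b d P.ψ * nrm V b d Q.ψ * dl P Q := by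
  classical
  unfold dl
  split_ifs with h
  · exact wdg_of_center_eq hb hd P Q h
  · rw [mul_one]; exact wdg_of_center_ne hb hd P Q h

end Fermat.Agent.S17.Loc
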