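import Fermat.Agent.S17.Loc.W
import Fermat.Agent.S17.Loc.V2
import Fermat.Agent.S17.Loc.Center

/-!
# S17-LOC, file `VHS`: final valuative statements (no centers): (V1), (V-HS), (V-HS∞), (V-W)
-/

set_option autoImplicit false
set_option linter.unusedSectionVars false

noncomputable section

namespace Fermat.Agent.S17.Loc

open AlgebraicCurve Fermat.Agent.S24.Zeros Fermat.Agent.S17.FF

variable {K F : Type*} [Field K] [Field F] [Algebra K F] [IsAlgClosed K] [CharZero K] [IsFF K F]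
variable {Ω : Type*} [Field Ω] [Algebra K Ω] (V : ResVal K Ω) {oo : Place K F} {b : ℕ → affRing oo}

/-! ### centered versions -/

theorem VHS_prod_wdg (hb : IsPB oo b) {d : ℕ} (hd : Big K F d) {κ : Type*} (J : Finset κ)
    (P Q : κ → CPt V oo) :
    ∏ j ∈ J, wdg V b d (P j).ψ (Q j).ψ =
      (∏ j ∈ J, (nrm V b d (P j).ψ * nrm V b d (Q j).ψ)) * ∏ j ∈ J, dl (P j) (Q j) := by
  rw [← Finset.prod_mul_distrib]
  exact Finset.prod_congr rfl (fun j _ => wdg_eq hb hd (P j) (Q j))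

theorem VHS_le_aux (hb : IsPB oo b) {m d : ℕ} (hm : Big K F m) (hd : Big K F d) (t : ℕ → Ω)
    {κ : Type*} (J : Finset κ) (P : κ → CPt V oo) (hinj : Set.InjOn (fun j => (P j).ψ) J)
    (hz : ∀ j ∈ J, sec b m t (P j).ψ = 0) (ρ : CPt V oo) :
    V.val (sec b m t ρ.ψ) * ∏ j ∈ J, (nrm V b d (P j).ψ * nrm V b d ρ.ψ) ≤
      tsz V oo m t * nrm V b m ρ.ψ * ∏ j ∈ J, wdg V b d (P j).ψ ρ.ψ := by
  have h1 : V.val (sec b m t ρ.ψ) ≤ tsz V oo m t * (nrm V b m ρ.ψ * ∏ j ∈ J, dl (P j) ρ) :=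
    hs_le hb hm (Finset.range (lv oo m)) t b
      (fun i hi => hb.mem_LSpace (Finset.mem_range.mp hi)) J P hinj hz ρ
  rw [VHS_prod_wdg V hb hd J P (fun _ => ρ)]
  calc V.val (sec b m t ρ.ψ) * ∏ j ∈ J, (nrm V b d (P j).ψ * nrm V b d ρ.ψ)
      ≤ tsz V oo m t * (nrm V b m ρ.ψ * ∏ j ∈ J, dl (P j) ρ) *
          ∏ j ∈ J, (nrm V b d (P j).ψ * nrm V b d ρ.ψ) := by gcongr
    _ = _ := by
      rw [mul_assoc, mul_assoc, mul_assoc, mul_comm (∏ j ∈ J, dl (P j) ρ)]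

theorem VHS_ge_aux (hb : IsPB oo b) {m d : ℕ} (hm : Big K F m) (hd : Big K F d) (t : ℕ → Ω)
    {κ : Type*} (J : Finset κ) (hcard : J.card = m) (P : κ → CPt V oo)
    (hinj : Set.InjOn (fun j => (P j).ψ) J)
    (hz : ∀ j ∈ J, sec b m t (P j).ψ = 0) (ρ : CPt V oo) :
    tsz V oo m t * nrm V b m ρ.ψ * ∏ j ∈ J, wdg V b d (P j).ψ ρ.ψ ≤
      V.val (sec b m t ρ.ψ) * ∏ j ∈ J, (nrm V b d (P j).ψ * nrm V b d ρ.ψ) := by
  rw [hs_eq hb hm t J hcard P hinj hz ρ, VHS_prod_wdg V hb hd J P (fun _ => ρ)]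
  apply le_of_eq
  rw [mul_assoc, mul_assoc, mul_assoc, mul_comm (∏ j ∈ J, dl (P j) ρ)]

theorem VHS_W_aux (hb : IsPB oo b) {n d : ℕ} (hn : Big K F n) (hd : Big K F d) (r : ℕ)
    (I : Fin r → ℕ) (hI : ∀ a, I a < lv oo n) (P : Fin r → CPt V oo) :
    V.val (evMat b I fun j => (P j).ψ).det *
        ∏ p ∈ pairs r, (nrm V b d (P p.1).ψ * nrm V b d (P p.2).ψ) ≤
      (∏ j, nrm V b n (P j).ψ) * ∏ p ∈ pairs r, wdg V b d (P p.1).ψ (P p.2).ψ := by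
  have h1 := vW_core hb hn r I hI P
  rw [VHS_prod_wdg V hb hd (pairs r) (fun p => P p.1) (fun p => P p.2)]
  calc V.val (evMat b I fun j => (P j).ψ).det *
        ∏ p ∈ pairs r, (nrm V b d (P p.1).ψ * nrm V b d (P p.2).ψ)
      ≤ (∏ j, nrm V b n (P j).ψ) * (∏ p ∈ pairs r, dl (P p.1) (P p.2)) *
          ∏ p ∈ pairs r, (nrm V b d (P p.1).ψ * nrm V b d (P p.2).ψ) := by gcongr
    _ = _ := by
      rw [mul_assoc, mul_comm (∏ p ∈ pairs r, dl (P p.1) (P p.2))]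

theorem vE1 (hb : IsPB oo b) {m d : ℕ} (hm : Big K F m) (hd : Big K F d) (ψ : affRing oo →ₐ[K] Ω) :
    nrm V b m ψ ^ d = nrm V b d ψ ^ m := by
  have := nrm_pow_eq hb hm hd (cpt V ψ)
  rwa [cpt_ψ] at this

theorem vHS_le (hb : IsPB oo b) {m d : ℕ} (hm : Big K F m) (hd : Big K F d) (t : ℕ → Ω) {κ : Type*}
    (J : Finset κ) (ψ : κ → affRing oo →ₐ[K] Ω) (hinj : Set.InjOn ψ J)
    (hz : ∀ j ∈ J, sec b m t (ψ j) = 0) (ρ : affRing oo →ₐ[K] Ω) :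
    V.val (sec b m t ρ) * ∏ j ∈ J, (nrm V b d (ψ j) * nrm V b d ρ) ≤
      tsz V oo m t * nrm V b m ρ * ∏ j ∈ J, wdg V b d (ψ j) ρ := by
  have := VHS_le_aux V hb hm hd t J (fun j => cpt V (ψ j)) (by simpa only [cpt_ψ] using hinj)
    (by simpa only [cpt_ψ] using hz) (cpt V ρ)
  simpa only [cpt_ψ] using this

theorem vHS_ge (hb : IsPB oo b) {m d : ℕ} (hm : Big K F m) (hd : Big K F d) (t : ℕ → Ω) {κ : Type*}
    (J : Finset κ) (hcard : J.card = m) (ψ : κ → affRing oo →ₐ[K] Ω) (hinj : Set.InjOn ψ J)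
    (hz : ∀ j ∈ J, sec b m t (ψ j) = 0) (ρ : affRing oo →ₐ[K] Ω) :
    tsz V oo m t * nrm V b m ρ * ∏ j ∈ J, wdg V b d (ψ j) ρ ≤
      V.val (sec b m t ρ) * ∏ j ∈ J, (nrm V b d (ψ j) * nrm V b d ρ) := by
  have := VHS_ge_aux V hb hm hd t J hcard (fun j => cpt V (ψ j))
    (by simpa only [cpt_ψ] using hinj) (by simpa only [cpt_ψ] using hz) (cpt V ρ)
  simpa only [cpt_ψ] using this

theorem vHSoo (hb : IsPB oo b) {n : ℕ} (hn : Big K F n) (t : ℕ → Ω) {κ : Type*}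
    (J : Finset κ) (ψ : κ → affRing oo →ₐ[K] Ω) (hinj : Set.InjOn ψ J)
    (hz : ∀ j ∈ J, sec b (n + 1) t (ψ j) = 0) :
    V.val (t (lv oo n)) * ∏ j ∈ J, nrm V b (n + 1) (ψ j) ≤
      tsz V oo (n + 1) t * ∏ j ∈ J, nrm V b n (ψ j) := by
  have := hsoo hb hn t J (fun j => cpt V (ψ j)) (by simpa only [cpt_ψ] using hinj)
    (by simpa only [cpt_ψ] using hz)
  simpa only [cpt_ψ] using this

theorem vW (hb : IsPB oo b) {n d : ℕ} (hn : Big K F n) (hd : Big K F d) (r : ℕ) (I : Fin r → ℕ)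
    (hI : ∀ a, I a < lv oo n) (ψ : Fin r → affRing oo →ₐ[K] Ω) :
    V.val (evMat b I ψ).det * ∏ p ∈ pairs r, (nrm V b d (ψ p.1) * nrm V b d (ψ p.2)) ≤
      (∏ j, nrm V b n (ψ j)) * ∏ p ∈ pairs r, wdg V b d (ψ p.1) (ψ p.2) := by
  have := VHS_W_aux V hb hn hd r I hI (fun j => cpt V (ψ j))
  simpa only [cpt_ψ] using this

end Fermat.Agent.S17.Loc
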