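import Fermat.Agent.S17.Loc.Fam
import Fermat.Agent.S17.Loc.VHS

/-!
# S17-LOC, file `E1`: the estimates (E1) and (E-HS∞)
-/

set_option autoImplicit false
set_option linter.unusedSectionVars false

noncomputable section

namespace Fermat.Agent.S17.Loc

open AlgebraicCurve Fermat.Agent.S24.Zeros Fermat.Agent.S17.FF
open scoped Pointwise

variable {K F : Type} [Field K] [Field F] [Algebra K F] [IsAlgClosed K] [CharZero K] [IsFF K F]
variable [DecidableEq K] (𝔸 : AbsFam K) {oo : Place K F} {b : ℕ → affRing oo}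

/-- **(E1)** -/
theorem e1 (hb : IsPB oo b) {m d : ℕ} (hm : Big K F m) (hd : Big K F d) :
    ∃ C, 𝔸.Good C ∧ ∀ (p : 𝔸.ι) (P : KPt oo),
      aN b (𝔸.abv p) m P ^ d ≤ C p * aN b (𝔸.abv p) d P ^ m ∧
        aN b (𝔸.abv p) d P ^ m ≤ C p * aN b (𝔸.abv p) m P ^ d := by
  classical
  let f : Finset (KPt oo → K) := famN b m (fun P : KPt oo => P) ^ d
  let g : Finset (KPt oo → K) := famN b d (fun P : KPt oo => P) ^ m
  have h1 : ValLE K f g := by
    intro Ω _ _ _ φ V
    simp only [f, g, vsize_image_pow, vsize_famN]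
    exact (vE1 V hb hm hd _).le
  have h2 : ValLE K g f := by
    intro Ω _ _ _ φ V
    simp only [f, g, vsize_image_pow, vsize_famN]
    exact (vE1 V hb hm hd _).ge
  obtain ⟨C₁, hC₁, hE₁⟩ := exists_good_of_valLE 𝔸 f g h1
  obtain ⟨C₂, hC₂, hE₂⟩ := exists_good_of_valLE 𝔸 g f h2
  refine ⟨fun p => max (C₁ p) (C₂ p), hC₁.max 𝔸 hC₂, fun p P => ?_⟩
  have e1 := hE₁ p P
  have e2 := hE₂ p P
  simp only [f, g, asize_image_pow, asize_famN] at e1 e2
  exact ⟨e1.trans (mul_le_mul_of_nonneg_right (le_max_left _ _) (pow_nonneg (asize_nonneg _ _) _)),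
    e2.trans (mul_le_mul_of_nonneg_right (le_max_right _ _) (pow_nonneg (asize_nonneg _ _) _))⟩

/-- **(E-HS∞)** -/
theorem eHSinf (hb : IsPB oo b) {n : ℕ} (hn : Big K F n) (k : ℕ) :
    ∃ C, 𝔸.Good C ∧ ∀ (p : 𝔸.ι) (t : ℕ → K) (ψ : Fin k → KPt oo), Function.Injective ψ →
      (∀ j, sec b (n + 1) t (ψ j) = 0) →
      𝔸.abv p (t (lv oo n)) * ∏ j, aN b (𝔸.abv p) (n + 1) (ψ j) ≤
        C p * (aT (𝔸.abv p) oo (n + 1) t * ∏ j, aN b (𝔸.abv p) n (ψ j)) := by
  classical
  let T : Type := {x : (ℕ → K) × (Fin k → KPt oo) //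
    Function.Injective x.2 ∧ ∀ j, sec b (n + 1) x.1 (x.2 j) = 0}
  let c : T → ℕ → K := fun τ => τ.1.1
  let P : Fin k → T → KPt oo := fun j τ => τ.1.2 j
  let f : Finset (T → K) := {fun τ => c τ (lv oo n)} * ∏ j, famN b (n + 1) (P j)
  let g : Finset (T → K) := famT oo (n + 1) c * ∏ j, famN b n (P j)
  have h1 : ValLE K f g := by
    intro Ω _ _ _ φ V
    simp only [f, g, vsize_image_mul, vsize_image_prod, vsize_image_singleton, vsize_famN,
      vsize_famT]
    refine vHSoo V hb hn (fun i => φ fun τ => c τ i) Finset.univ (fun j => push φ (P j)) ?_ ?_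
    · intro i _ j _ hij
      by_contra hne
      exact push_ne hb φ (P := P i) (Q := P j) (fun τ h => hne (τ.2.1 h)) hij
    · intro j _
      rw [sec_push]
      have : (fun τ : T => sec b (n + 1) (c τ) (P j τ)) = 0 := by
        funext τ
        exact τ.2.2 j
      rw [this, map_zero]
  obtain ⟨C₁, hC₁, hE₁⟩ := exists_good_of_valLE 𝔸 f g h1
  refine ⟨C₁, hC₁, fun p t ψ hψ hzero => ?_⟩
  have e1 := hE₁ p ⟨(t, ψ), hψ, hzero⟩
  simpa only [f, g, asize_image_mul, asize_image_prod, asize_image_singleton, asize_famN,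
    asize_famT] using e1

end Fermat.Agent.S17.Loc
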