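import Fermat.Agent.S17.Loc.DSq
import Fermat.Agent.S17.Loc.V2
import Fermat.Agent.S17.Loc.Center

/-!
# S17-LOC, file `VD`: final valuative statement (V-D) for `Z(t) + U`
-/

set_option autoImplicit false
set_option linter.unusedSectionVars false

noncomputable section

namespace Fermat.Agent.S17.Loc

open AlgebraicCurve Fermat.Agent.S24.Zeros Fermat.Agent.S17.FF

variable {K F : Type*} [Field K] [Field F] [Algebra K F] [IsAlgClosed K] [CharZero K] [IsFF K F]
variable {Ω : Type*} [Field Ω] [Algebra K Ω] (V : ResVal K Ω) {oo : Place K F} {b : ℕ → affRing oo}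

/-- **(V-D)** for `ψ` = the `m` distinct zeros of `t ∈ L(m∞)_Ω` and `U` constant points with `det_{n-m}(U) ≠ 0`. -/
theorem vD (hb : IsPB oo b) {n m d u : ℕ} (hm : Big K F m) (hmn : m ≤ n) (hnm : Big K F (n - m)) (hd : Big K F d)
    (hu : u = lv oo (n - m)) (t : ℕ → Ω) (ht : ∃ i < lv oo m, t i ≠ 0)
    (ψ : Fin m → affRing oo →ₐ[K] Ω) (hinj : Function.Injective ψ) (hz : ∀ j, sec b m t (ψ j) = 0)
    (U : Fin u → affRing oo →ₐ[K] K) (hU : Function.Injective U)
    (hdet : (evMat b (fun a => (a : ℕ)) U).det ≠ 0)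
    (hdisj : ∀ j k, ψ j ≠ (Algebra.ofId K Ω).comp (U k))
    (Ψ : Fin (m + u) → affRing oo →ₐ[K] Ω)
    (hΨ : Ψ = Fin.append ψ fun k => (Algebra.ofId K Ω).comp (U k)) :
    (∏ j, nrm V b n (Ψ j)) * ∏ p ∈ pairs (m + u), wdg V b d (Ψ p.1) (Ψ p.2) ≤
      V.val (evMat b (fun a => (a : ℕ)) Ψ).det *
        ∏ p ∈ pairs (m + u), (nrm V b d (Ψ p.1) * nrm V b d (Ψ p.2)) := by
  classical
  subst hΨ
  set Q : Fin (m + u) → CPt V oo :=
    Fin.append (fun j => cpt V (ψ j)) (fun k => CPt.const V (U k)) with hQ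
  have hQψ : ∀ x, (Q x).ψ = Fin.append ψ (fun k => (Algebra.ofId K Ω).comp (U k)) x := by
    intro x
    refine Fin.addCases (fun j => ?_) (fun k => ?_) x
    · rw [hQ, Fin.append_left, Fin.append_left, cpt_ψ]
    · rw [hQ, Fin.append_right, Fin.append_right, CPt.const_ψ]
  have hQfun : (fun x => (Q x).ψ) = Fin.append ψ (fun k => (Algebra.ofId K Ω).comp (U k)) :=
    funext hQψ
  have hcompinj : Function.Injective (fun k => (Algebra.ofId K Ω).comp (U k)) := by
    intro k k' h
    apply hU
    apply AlgHom.ext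
    intro a
    have h1 := AlgHom.congr_fun h a
    exact (algebraMap K Ω).injective h1
  have hQinj : Function.Injective (fun x => (Q x).ψ) := by
    rw [hQfun]
    intro x x'
    refine Fin.addCases (fun j => ?_) (fun k => ?_) x <;>
      refine Fin.addCases (fun j' => ?_) (fun k' => ?_) x'
    · simp only [Fin.append_left]
      intro h
      rw [hinj h]
    · simp only [Fin.append_left, Fin.append_right]
      intro h
      exact absurd h (hdisj j k')
    · simp only [Fin.append_left, Fin.append_right]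
      intro h
      exact absurd h.symm (hdisj j' k)
    · simp only [Fin.append_right]
      intro h
      rw [hcompinj h]
  have hn : Big K F n := by
    unfold Big at *
    omega
  have hr : m + u = lv oo n := by
    have h1 := lv_eq oo (n := n) (by unfold Big at hn; omega)
    have h2 := lv_eq oo (n := n - m) (by unfold Big at hnm; omega)
    rw [Nat.cast_sub hmn] at h2
    omega
  obtain ⟨g, hg0, hg⟩ := exists_red hb hm t ht (Finset.univ : Finset (Fin m)) (by simp)
    (fun j => cpt V (ψ j))
    (by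
      intro j _ j' _ h
      simp only [cpt_ψ] at h
      exact hinj h)
    (by
      intro j _
      rw [cpt_ψ]
      exact hz j)
  have hell : ell (Finsupp.single oo (n : ℤ) - ∑ x, Finsupp.single (Q x).c 1) = 0 := by
    have h0 := ell_eq_zero_of_det_ne_zero hb hu U hU hdet
    have h1 : Finsupp.single oo (n : ℤ) - ∑ x, Finsupp.single (Q x).c 1 =
        (Finsupp.single oo ((n - m : ℕ) : ℤ) - ∑ k, Finsupp.single (placeOf (U k)) 1) +
          divf g⁻¹ := by
      rw [divf_inv, hg, Fin.sum_univ_add, Nat.cast_sub hmn, Finsupp.single_sub]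
      simp only [hQ, Fin.append_left, Fin.append_right, CPt.const_c]
      abel
    rw [h1, ell_add_divf _ (inv_ne_zero hg0)]
    exact h0
  have hsq := vD_square hb hn (m + u) hr Q hQinj hell
  rw [hQfun] at hsq
  rw [hsq]
  have hw : ∀ p ∈ pairs (m + u),
      wdg V b d (Fin.append ψ (fun k => (Algebra.ofId K Ω).comp (U k)) p.1)
        (Fin.append ψ (fun k => (Algebra.ofId K Ω).comp (U k)) p.2) =
      nrm V b d (Fin.append ψ (fun k => (Algebra.ofId K Ω).comp (U k)) p.1) *
        nrm V b d (Fin.append ψ (fun k => (Algebra.ofId K Ω).comp (U k)) p.2) *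
        dl (Q p.1) (Q p.2) := by
    intro p _
    rw [← hQψ, ← hQψ]
    exact wdg_eq hb hd _ _
  rw [Finset.prod_congr rfl hw, Finset.prod_mul_distrib]
  apply le_of_eq
  simp only [hQψ]
  rw [mul_assoc, mul_comm (∏ p ∈ pairs (m + u), dl (Q p.1) (Q p.2))]

end Fermat.Agent.S17.Loc
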