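import Fermat.Agent.S17.Loc.Fam
import Fermat.Agent.S17.Loc.VD

/-!
# S17-LOC, file `ED`: the estimate (E-D)
-/

set_option autoImplicit false
set_option linter.unusedSectionVars false

noncomputable section

namespace Fermat.Agent.S17.Loc

open AlgebraicCurve Fermat.Agent.S24.Zeros Fermat.Agent.S17.FF
open scoped Pointwise

variable {K F : Type} [Field K] [Field F] [Algebra K F] [IsAlgClosed K] [CharZero K] [IsFF K F]
variable [DecidableEq K] (𝔸 : AbsFam K) {oo : Place K F} {b : ℕ → affRing oo}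

/-- **(E-D)** -/
theorem eD (hb : IsPB oo b) {n m d u : ℕ} (hm : Big K F m) (hmn : m ≤ n) (hnm : Big K F (n - m)) (hd : Big K F d)
    (hu : u = lv oo (n - m)) (U : Fin u → KPt oo) (hU : Function.Injective U)
    (hdet : (evMat b (fun a => (a : ℕ)) U).det ≠ 0) :
    ∃ C, 𝔸.Good C ∧ ∀ (p : 𝔸.ι) (t : ℕ → K) (ψ : Fin m → KPt oo), Function.Injective ψ →
      (∃ i < lv oo m, t i ≠ 0) → (∀ j, sec b m t (ψ j) = 0) → (∀ j k, ψ j ≠ U k) →
      (∏ x, aN b (𝔸.abv p) n (Fin.append ψ U x)) *
          ∏ q ∈ pairs (m + u), aW b (𝔸.abv p) d (Fin.append ψ U q.1) (Fin.append ψ U q.2) ≤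
        C p * (𝔸.abv p (evMat b (fun a => (a : ℕ)) (Fin.append ψ U)).det *
          ∏ q ∈ pairs (m + u), (aN b (𝔸.abv p) d (Fin.append ψ U q.1) * aN b (𝔸.abv p) d (Fin.append ψ U q.2))) := by
  classical
  let T : Type := {x : (ℕ → K) × (Fin m → KPt oo) // Function.Injective x.2 ∧
    (∃ i < lv oo m, x.1 i ≠ 0) ∧ (∀ j, sec b m x.1 (x.2 j) = 0) ∧ ∀ j k, x.2 j ≠ U k}
  let c : T → ℕ → K := fun τ => τ.1.1
  let P : Fin m → T → KPt oo := fun j τ => τ.1.2 j
  let Q : Fin (m + u) → T → KPt oo := fun x τ => Fin.append τ.1.2 U x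
  let f : Finset (T → K) := (∏ x, famN b n (Q x)) * ∏ q ∈ pairs (m + u), famW b d (Q q.1) (Q q.2)
  let g : Finset (T → K) := {fun τ => (evMat b (fun a => (a : ℕ)) fun x => Q x τ).det} *
    ∏ q ∈ pairs (m + u), (famN b d (Q q.1) * famN b d (Q q.2))
  have h1 : ValLE K f g := by
    intro Ω _ _ _ φ V
    simp only [f, g, vsize_image_mul, vsize_image_prod, vsize_image_singleton, vsize_famN,
      vsize_famW]
    rw [← det_push]
    refine vD V hb hm hmn hnm hd hu (fun i => φ fun τ => c τ i) ?_ (fun j => push φ (P j)) ?_ ?_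
      U hU hdet ?_ (fun x => push φ (Q x)) ?_
    · exact exists_coeff_ne_zero φ (lv oo m) c fun τ => τ.2.2.1
    · intro i j hij
      by_contra hne
      exact push_ne hb φ (P := P i) (Q := P j) (fun τ h => hne (τ.2.1 h)) hij
    · intro j
      rw [sec_push]
      have : (fun τ : T => sec b m (c τ) (P j τ)) = 0 := by
        funext τ
        exact τ.2.2.2.1 j
      rw [this, map_zero]
    · intro j k
      rw [← push_const φ (U k)]
      exact push_ne hb φ (P := P j) (Q := fun _ => U k) (fun τ => τ.2.2.2.2 j k)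
    · funext x
      refine Fin.addCases (fun j => ?_) (fun k => ?_) x
      · rw [Fin.append_left]
        congr 1
        funext τ
        exact Fin.append_left _ _ j
      · rw [Fin.append_right, ← push_const φ (U k)]
        congr 1
        funext τ
        exact Fin.append_right _ _ k
  obtain ⟨C₁, hC₁, hE₁⟩ := exists_good_of_valLE 𝔸 f g h1
  refine ⟨C₁, hC₁, fun p t ψ hψ ht hzero hdisj => ?_⟩
  have e1 := hE₁ p ⟨(t, ψ), hψ, ht, hzero, hdisj⟩
  simpa only [f, g, asize_image_mul, asize_image_prod, asize_image_singleton, asize_famN,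
    asize_famW] using e1

end Fermat.Agent.S17.Loc
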