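import Fermat.Agent.S17.Loc.Fam
import Fermat.Agent.S17.Loc.VHS

/-!
# S17-LOC, file `EHS`: the estimate (E-HS)
-/

set_option autoImplicit false
set_option linter.unusedSectionVars false

noncomputable section

namespace Fermat.Agent.S17.Loc

open AlgebraicCurve Fermat.Agent.S24.Zeros Fermat.Agent.S17.FF
open scoped Pointwise

variable {K F : Type} [Field K] [Field F] [Algebra K F] [IsAlgClosed K] [CharZero K] [IsFF K F]
variable [DecidableEq K] (𝔸 : AbsFam K) {oo : Place K F} {b : ℕ → affRing oo}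

/-- **(E-HS)** -/
theorem eHS (hb : IsPB oo b) {m d : ℕ} (hm : Big K F m) (hd : Big K F d) :
    ∃ C, 𝔸.Good C ∧ ∀ (p : 𝔸.ι) (t : ℕ → K) (ψ : Fin m → KPt oo) (ρ : KPt oo), Function.Injective ψ →
      (∀ j, sec b m t (ψ j) = 0) →
      𝔸.abv p (sec b m t ρ) * ∏ j, (aN b (𝔸.abv p) d (ψ j) * aN b (𝔸.abv p) d ρ) ≤
          C p * (aT (𝔸.abv p) oo m t * aN b (𝔸.abv p) m ρ * ∏ j, aW b (𝔸.abv p) d (ψ j) ρ) ∧
        aT (𝔸.abv p) oo m t * aN b (𝔸.abv p) m ρ * ∏ j, aW b (𝔸.abv p) d (ψ j) ρ ≤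
          C p * (𝔸.abv p (sec b m t ρ) * ∏ j, (aN b (𝔸.abv p) d (ψ j) * aN b (𝔸.abv p) d ρ)) := by
  classical
  let T : Type := {x : (ℕ → K) × (Fin m → KPt oo) × KPt oo //
    Function.Injective x.2.1 ∧ ∀ j, sec b m x.1 (x.2.1 j) = 0}
  let c : T → ℕ → K := fun τ => τ.1.1
  let P : Fin m → T → KPt oo := fun j τ => τ.1.2.1 j
  let R : T → KPt oo := fun τ => τ.1.2.2
  let f : Finset (T → K) := {fun τ => sec b m (c τ) (R τ)} * ∏ j, (famN b d (P j) * famN b d R)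
  let g : Finset (T → K) := famT oo m c * famN b m R * ∏ j, famW b d (P j) R
  have hinj : ∀ (Ω : Type) [Field Ω] [Algebra K Ω] (φ : (T → K) →ₐ[K] Ω),
      Set.InjOn (fun j => push φ (P j)) (Finset.univ : Finset (Fin m)) := by
    intro Ω _ _ φ i _ j _ hij
    by_contra hne
    exact push_ne hb φ (P := P i) (Q := P j) (fun τ h => hne (τ.2.1 h)) hij
  have hz : ∀ (Ω : Type) [Field Ω] [Algebra K Ω] (φ : (T → K) →ₐ[K] Ω),
      ∀ j ∈ (Finset.univ : Finset (Fin m)),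
        sec b m (fun i => φ fun τ => c τ i) (push φ (P j)) = 0 := by
    intro Ω _ _ φ j _
    rw [sec_push]
    have : (fun τ : T => sec b m (c τ) (P j τ)) = 0 := by
      funext τ
      exact τ.2.2 j
    rw [this, map_zero]
  have h1 : ValLE K f g := by
    intro Ω _ _ _ φ V
    simp only [f, g, vsize_image_mul, vsize_image_prod, vsize_image_singleton, vsize_famN,
      vsize_famW, vsize_famT]
    rw [← sec_push]
    exact vHS_le V hb hm hd _ Finset.univ (fun j => push φ (P j)) (hinj Ω φ) (hz Ω φ) (push φ R)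
  have h2 : ValLE K g f := by
    intro Ω _ _ _ φ V
    simp only [f, g, vsize_image_mul, vsize_image_prod, vsize_image_singleton, vsize_famN,
      vsize_famW, vsize_famT]
    rw [← sec_push]
    exact vHS_ge V hb hm hd _ Finset.univ (by rw [Finset.card_univ, Fintype.card_fin])
      (fun j => push φ (P j)) (hinj Ω φ) (hz Ω φ) (push φ R)
  obtain ⟨C₁, hC₁, hE₁⟩ := exists_good_of_valLE 𝔸 f g h1
  obtain ⟨C₂, hC₂, hE₂⟩ := exists_good_of_valLE 𝔸 g f h2
  refine ⟨fun p => max (C₁ p) (C₂ p), hC₁.max 𝔸 hC₂, fun p t ψ ρ hψ hzero => ?_⟩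
  have e1 := hE₁ p ⟨(t, ψ, ρ), hψ, hzero⟩
  have e2 := hE₂ p ⟨(t, ψ, ρ), hψ, hzero⟩
  simp only [f, g, asize_image_mul, asize_image_prod, asize_image_singleton, asize_famN,
    asize_famW, asize_famT] at e1 e2
  have hn1 : 0 ≤ aT (𝔸.abv p) oo m t * aN b (𝔸.abv p) m ρ * ∏ j, aW b (𝔸.abv p) d (ψ j) ρ :=
    mul_nonneg (mul_nonneg (asize_nonneg _ _) (asize_nonneg _ _))
      (Finset.prod_nonneg fun j _ => asize_nonneg _ _)
  have hn2 : 0 ≤ 𝔸.abv p (sec b m t ρ) * ∏ j, (aN b (𝔸.abv p) d (ψ j) * aN b (𝔸.abv p) d ρ) :=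
    mul_nonneg ((𝔸.abv p).nonneg _)
      (Finset.prod_nonneg fun j _ => mul_nonneg (asize_nonneg _ _) (asize_nonneg _ _))
  exact ⟨e1.trans (mul_le_mul_of_nonneg_right (le_max_left _ _) hn1),
    e2.trans (mul_le_mul_of_nonneg_right (le_max_right _ _) hn2)⟩

end Fermat.Agent.S17.Loc
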