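import Fermat.Agent.S17.Loc.Fam
import Fermat.Agent.S17.Loc.VHS

/-!
# S17-LOC, file `EW`: the estimate (E-W)
-/

set_option autoImplicit false
set_option linter.unusedSectionVars false

noncomputable section

namespace Fermat.Agent.S17.Loc

open AlgebraicCurve Fermat.Agent.S24.Zeros Fermat.Agent.S17.FF
open scoped Pointwise

variable {K F : Type} [Field K] [Field F] [Algebra K F] [IsAlgClosed K] [CharZero K] [IsFF K F]
variable [DecidableEq K] (𝔸 : AbsFam K) {oo : Place K F} {b : ℕ → affRing oo}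

/-- **(E-W)** -/
theorem eW (hb : IsPB oo b) {n d : ℕ} (hn : Big K F n) (hd : Big K F d) (r : ℕ) :
    ∃ C, 𝔸.Good C ∧ ∀ (p : 𝔸.ι) (I : Fin r → ℕ) (ψ : Fin r → KPt oo), (∀ a, I a < lv oo n) →
      𝔸.abv p (evMat b I ψ).det * ∏ q ∈ pairs r, (aN b (𝔸.abv p) d (ψ q.1) * aN b (𝔸.abv p) d (ψ q.2)) ≤
        C p * ((∏ j, aN b (𝔸.abv p) n (ψ j)) * ∏ q ∈ pairs r, aW b (𝔸.abv p) d (ψ q.1) (ψ q.2)) := by
  classical
  let T : Type := Fin r → KPt oo
  let P : Fin r → T → KPt oo := fun j τ => τ j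
  have key : ∀ I : Fin r → Fin (lv oo n), ∃ C, 𝔸.Good C ∧ ∀ (p : 𝔸.ι) (ψ : Fin r → KPt oo),
      𝔸.abv p (evMat b (fun a => (I a : ℕ)) ψ).det *
          ∏ q ∈ pairs r, (aN b (𝔸.abv p) d (ψ q.1) * aN b (𝔸.abv p) d (ψ q.2)) ≤
        C p * ((∏ j, aN b (𝔸.abv p) n (ψ j)) *
          ∏ q ∈ pairs r, aW b (𝔸.abv p) d (ψ q.1) (ψ q.2)) := by
    intro I
    let f : Finset (T → K) := {fun τ => (evMat b (fun a => (I a : ℕ)) fun j => P j τ).det} *
      ∏ q ∈ pairs r, (famN b d (P q.1) * famN b d (P q.2))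
    let g : Finset (T → K) := (∏ j, famN b n (P j)) * ∏ q ∈ pairs r, famW b d (P q.1) (P q.2)
    have h1 : ValLE K f g := by
      intro Ω _ _ _ φ V
      simp only [f, g, vsize_image_mul, vsize_image_prod, vsize_image_singleton, vsize_famN,
        vsize_famW]
      rw [← det_push]
      exact vW V hb hn hd r _ (fun a => (I a).2) (fun j => push φ (P j))
    obtain ⟨C₁, hC₁, hE₁⟩ := exists_good_of_valLE 𝔸 f g h1
    refine ⟨C₁, hC₁, fun p ψ => ?_⟩
    have e1 := hE₁ p ψ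
    simpa only [f, g, asize_image_mul, asize_image_prod, asize_image_singleton, asize_famN,
      asize_famW] using e1
  choose C hC hE using key
  obtain ⟨D, hD, hCD⟩ := AbsFam.Good.exists_sup 𝔸 hC
  refine ⟨D, hD, fun p I ψ hI => ?_⟩
  refine (hE (fun a => ⟨I a, hI a⟩) p ψ).trans (mul_le_mul_of_nonneg_right (hCD _ p) ?_)
  exact mul_nonneg (Finset.prod_nonneg fun j _ => asize_nonneg _ _)
    (Finset.prod_nonneg fun j _ => asize_nonneg _ _)

end Fermat.Agent.S17.Loc
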