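import Fermat.Agent.S17.Loc.Push

/-!
# S17-LOC, file `Fam`: `vsize` and `asize` of the families `famN`, `famW`, `famT` and of their products
-/

set_option autoImplicit false
set_option linter.unusedSectionVars false

noncomputable section

namespace Fermat.Agent.S17.Loc

open AlgebraicCurve Fermat.Agent.S24.Zeros Fermat.Agent.S17.FF
open scoped Pointwise

variable {K F : Type} [Field K] [Field F] [Algebra K F] [IsAlgClosed K] [CharZero K] [IsFF K F]
variable {oo : Place K F} (b : ℕ → affRing oo) {T : Type}

section push

variable {Ω : Type} [Field Ω] [Algebra K Ω]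

variable [DecidableEq Ω] (V : ResVal K Ω) (φ : (T → K) →ₐ[K] Ω)

theorem vsize_famN (n : ℕ) (P : T → KPt oo) :
    V.vsize ((famN b n P).image φ) = nrm V b n (push φ P) := by
  classical
  unfold famN nrm ResVal.vsize
  rw [Finset.image_image, Finset.sup_image]
  rfl

theorem vsize_famW (d : ℕ) (P P' : T → KPt oo) :
    V.vsize ((famW b d P P').image φ) = wdg V b d (push φ P) (push φ P') := by
  classical
  unfold famW wdg ResVal.vsize
  rw [Finset.image_image, Finset.sup_image]
  refine Finset.sup_congr rfl fun ij _ => ?_
  have : φ (fun t => P t (b ij.1) * P' t (b ij.2) - P t (b ij.2) * P' t (b ij.1)) =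
      push φ P (b ij.1) * push φ P' (b ij.2) - push φ P (b ij.2) * push φ P' (b ij.1) := by
    simp only [push_apply]
    rw [← map_mul, ← map_mul, ← map_sub]
    rfl
  simp only [Function.comp_apply, this]

theorem vsize_famT (m : ℕ) (c : T → ℕ → K) :
    V.vsize ((famT oo m c).image φ) = tsz V oo m fun i => φ fun t => c t i := by
  classical
  unfold famT tsz ResVal.vsize
  rw [Finset.image_image, Finset.sup_image]
  rfl

theorem vsize_image_singleton (u : T → K) : V.vsize (({u} : Finset (T → K)).image φ) = V.val (φ u) := by
  rw [Finset.image_singleton, ResVal.vsize_singleton]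

open scoped Classical in
theorem vsize_image_mul (f g : Finset (T → K)) :
    V.vsize ((f * g).image φ) = V.vsize (f.image φ) * V.vsize (g.image φ) := by
  rw [Finset.image_mul φ, ResVal.vsize_mul]

open scoped Classical in
theorem vsize_image_pow (f : Finset (T → K)) (n : ℕ) :
    V.vsize ((f ^ n).image φ) = V.vsize (f.image φ) ^ n := by
  have := image_pow_ringHom (φ : (T → K) →+* Ω) f n
  rw [show (f ^ n).image φ = f.image φ ^ n from this, ResVal.vsize_pow]

open scoped Classical in
theorem vsize_image_prod {κ : Type*} (J : Finset κ) (f : κ → Finset (T → K)) :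
    V.vsize ((∏ j ∈ J, f j).image φ) = ∏ j ∈ J, V.vsize ((f j).image φ) := by
  have := image_prod_ringHom (φ : (T → K) →+* Ω) J f
  rw [show (∏ j ∈ J, f j).image φ = ∏ j ∈ J, (f j).image φ from this, ResVal.vsize_prod]

open scoped Classical in
theorem vsize_image_biUnion {κ : Type*} (J : Finset κ) (f : κ → Finset (T → K)) :
    V.vsize ((J.biUnion f).image φ) = J.sup fun j => V.vsize ((f j).image φ) := by
  rw [Finset.biUnion_image]
  unfold ResVal.vsize
  rw [Finset.sup_biUnion]

end push

section eval

variable [DecidableEq K] (a : AbsoluteValue K ℝ) (t : T)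

theorem asize_famN (n : ℕ) (P : T → KPt oo) :
    asize a ((famN b n P).image fun u => u t) = aN b a n (P t) := by
  classical
  unfold famN aN
  rw [Finset.image_image]
  rfl

theorem asize_famW (d : ℕ) (P P' : T → KPt oo) :
    asize a ((famW b d P P').image fun u => u t) = aW b a d (P t) (P' t) := by
  classical
  unfold famW aW
  rw [Finset.image_image]
  rfl

theorem asize_famT (m : ℕ) (c : T → ℕ → K) :
    asize a ((famT oo m c).image fun u => u t) = aT a oo m (c t) := by
  classical
  unfold famT aT
  rw [Finset.image_image]
  rfl

theorem asize_image_singleton (u : T → K) : asize a (({u} : Finset (T → K)).image fun u => u t) = a (u t) := by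
  rw [Finset.image_singleton, asize_singleton]

open scoped Classical in
theorem asize_image_mul (f g : Finset (T → K)) :
    asize a ((f * g).image fun u => u t) = asize a (f.image fun u => u t) * asize a (g.image fun u => u t) := by
  have := image_mul_ringHom (Pi.evalRingHom (fun _ : T => K) t) f g
  rw [show (f * g).image (fun u => u t) = f.image (fun u => u t) * g.image (fun u => u t) from this,
    asize_mul]

open scoped Classical in
theorem asize_image_pow (f : Finset (T → K)) (n : ℕ) :
    asize a ((f ^ n).image fun u => u t) = asize a (f.image fun u => u t) ^ n := by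
  have := image_pow_ringHom (Pi.evalRingHom (fun _ : T => K) t) f n
  rw [show (f ^ n).image (fun u => u t) = f.image (fun u => u t) ^ n from this, asize_pow]

open scoped Classical in
theorem asize_image_prod {κ : Type*} (J : Finset κ) (f : κ → Finset (T → K)) :
    asize a ((∏ j ∈ J, f j).image fun u => u t) = ∏ j ∈ J, asize a ((f j).image fun u => u t) := by
  have := image_prod_ringHom (Pi.evalRingHom (fun _ : T => K) t) J f
  rw [show (∏ j ∈ J, f j).image (fun u => u t) = ∏ j ∈ J, (f j).image (fun u => u t) from this,
    asize_prod]

end eval

end Fermat.Agent.S17.Loc
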