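import Fermat.Agent.S17.Loc.PB

/-!
# S17-LOC, file `Gen`: elementary facts on `gen`
-/

set_option autoImplicit false
set_option linter.unusedSectionVars false

noncomputable section

namespace Fermat.Agent.S17.Loc

open AlgebraicCurve Fermat.Agent.S24.Zeros Fermat.Agent.S17.FF

variable {K F : Type*} [Field K] [Field F] [Algebra K F] [IsAlgClosed K] [CharZero K] [IsFF K F]
variable {oo : Place K F} {b : ℕ → affRing oo}

theorem gen_of_ne (b : ℕ → affRing oo) (n : ℕ) {c : Place K F} (h : c ≠ oo) : gen b n c = 1 := by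
  unfold gen
  rw [if_neg h]

theorem gen_oo (b : ℕ → affRing oo) (n : ℕ) : gen b n oo = b (lv oo n - 1) := by
  unfold gen
  rw [if_pos rfl]

theorem IsPB.gen_ne_zero (hb : IsPB oo b) (n : ℕ) (c : Place K F) : (gen b n c : F) ≠ 0 := by
  by_cases h : c = oo
  · subst h
    rw [gen_oo]
    exact hb.ne_zero _
  · rw [gen_of_ne b n h]
    exact one_ne_zero

theorem IsPB.ord_gen (hb : IsPB oo b) {n : ℕ} (hn : Big K F n) (c : Place K F) :
    c.ord (gen b n c : F) = -(Finsupp.single oo (n : ℤ) c) := by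
  by_cases h : c = oo
  · subst h
    rw [gen_oo, hb.ord_top hn, Finsupp.single_eq_same]
  · rw [gen_of_ne b n h, Finsupp.single_eq_of_ne h, neg_zero]
    exact c.ord_one

theorem IsPB.gen_mem_LSpace (hb : IsPB oo b) (n : ℕ) (c : Place K F) :
    (gen b n c : F) ∈ LSpace (Finsupp.single oo (n : ℤ)) := by
  by_cases h : c = oo
  · subst h
    rw [gen_oo]
    exact hb.mem_LSpace (Nat.sub_lt (lv_pos c n) one_pos)
  · rw [gen_of_ne b n h, ← hb.b_zero]
    exact hb.mem_LSpace (lv_pos oo n)

/-- `f / gen` is regular at `c` for `f ∈ L(n∞)` -/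
theorem IsPB.ord_div_gen_nonneg (hb : IsPB oo b) {n : ℕ} (hn : Big K F n) (c : Place K F) {f : F}
    (hf : f ∈ LSpace (Finsupp.single oo (n : ℤ))) : 0 ≤ c.ord (f / (gen b n c : F)) := by
  by_cases hf0 : f = 0
  · rw [hf0, zero_div, Place.ord_zero]
  rw [div_eq_mul_inv, c.ord_mul hf0 (inv_ne_zero (hb.gen_ne_zero n c)), c.ord_inv, hb.ord_gen hn,
    neg_neg]
  rcases FF.mem_LSpace.1 hf with h | h
  · exact absurd h hf0
  · have := h c
    omega

/-- membership in `L(n∞ - E)` in terms of `f / gen`. -/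
theorem IsPB.mem_LSpace_sub_iff (hb : IsPB oo b) {n : ℕ} (hn : Big K F n) (E : Divisor K F) {f : F} (hf : f ≠ 0) :
    f ∈ LSpace (Finsupp.single oo (n : ℤ) - E) ↔ ∀ c : Place K F, E c ≤ c.ord (f / (gen b n c : F)) := by
  have key : ∀ c : Place K F,
      c.ord (f / (gen b n c : F)) = c.ord f + Finsupp.single oo (n : ℤ) c := by
    intro c
    rw [div_eq_mul_inv, c.ord_mul hf (inv_ne_zero (hb.gen_ne_zero n c)), c.ord_inv, hb.ord_gen hn,
      neg_neg]
  rw [FF.mem_LSpace]
  constructor
  · intro h c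
    rcases h with h | h
    · exact absurd h hf
    · have := h c
      rw [Finsupp.sub_apply] at this
      rw [key]
      omega
  · intro h
    refine Or.inr fun c => ?_
    have := h c
    rw [key] at this
    rw [Finsupp.sub_apply]
    omega


end Fermat.Agent.S17.Loc
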