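import Fermat.Agent.S17.Loc.Basic

/-!
# S17-LOC, file `Lift`: extending a hom from a chart algebra `B` to the local ring `O_c`
-/

set_option autoImplicit false
set_option linter.unusedSectionVars false

noncomputable section

namespace Fermat.Agent.S17.Loc

open AlgebraicCurve Fermat.Agent.S24.Zeros Fermat.Agent.S17.FF

variable {K F : Type*} [Field K] [Field F] [Algebra K F] [IsAlgClosed K] [CharZero K] [IsFF K F]
variable {Ω : Type*} [Field Ω] [Algebra K Ω] {V : ResVal K Ω}

/-- **(LIFT)** `B ⊆ O_c` a `K`-subalgebra of which `O_c` is the localisation at the point `c`;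
`θ : B → Ω` with values in `V.O` and `res ∘ θ = ` evaluation at `c`.  Then `θ` extends to a local hom `O_c → V.O`.
(For `f = a / b` put `χ f = θ a / θ b`; `θ b` is a unit of `V.O` since `res (θ b) = b(c) ≠ 0`.  Either check well-definedness by hand
or prove `IsLocalization M O_c`, `M = {b ∈ B | val c b ≠ 0}`, and use `IsLocalization.lift`.) -/
theorem exists_lift (c : Place K F) (B : Subalgebra K F) (hB : ∀ f ∈ B, f ∈ c.toValuationSubring)
    (hloc : ∀ f : F, f ∈ c.toValuationSubring → ∃ a ∈ B, ∃ b ∈ B, val c b ≠ 0 ∧ f = a / b)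
    (θ : B →ₐ[K] Ω) (hθ : ∀ f : B, ∃ h : θ f ∈ V.O, V.res ⟨θ f, h⟩ = val c (f : F)) :
    ∃ χ : (chartAt c).Pt V, ∀ (f : c.toValuationSubring) (hf : (f : F) ∈ B), χ.toHom f = θ ⟨f, hf⟩ := by
  classical
  have hord : ∀ f ∈ B, 0 ≤ c.ord f := fun f hf => ord_nonneg_of_mem c (hB f hf)
  have hθ0 : ∀ b : B, val c (b : F) ≠ 0 → θ b ≠ 0 := by
    intro b hb h0
    obtain ⟨h, hr⟩ := hθ b
    apply hb
    rw [← hr]
    have h1 : (⟨θ b, h⟩ : V.O) = 0 := Subtype.ext h0
    rw [h1, map_zero]
  have hval1 : ∀ b : B, val c (b : F) ≠ 0 → V.val (θ b) = 1 := by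
    intro b hb
    obtain ⟨h, hr⟩ := hθ b
    exact (V.val_eq_one_iff ⟨θ b, h⟩).2 (by rw [hr]; exact hb)
  have hb0 : ∀ b : B, val c (b : F) ≠ 0 → (b : F) ≠ 0 := by
    intro b hb h0
    apply hb
    rw [h0]
    have h1 := val_algebraMap c (0 : K)
    rwa [map_zero] at h1
  have hone : val c ((1 : B) : F) ≠ 0 := by
    have h1 := val_algebraMap c (1 : K)
    rw [map_one] at h1
    change val c (1 : F) ≠ 0
    rw [h1]
    exact one_ne_zero
  have hmulv : ∀ b b' : B, val c (b : F) ≠ 0 → val c (b' : F) ≠ 0 →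
      val c ((b * b' : B) : F) ≠ 0 := by
    intro b b' hb hb'
    change val c ((b : F) * (b' : F)) ≠ 0
    rw [val_mul c (hord _ b.2) (hord _ b'.2)]
    exact mul_ne_zero hb hb'
  choose! A hA D hD hDv hAD using hloc
  let A' : c.toValuationSubring → B := fun f => ⟨A f, hA f f.2⟩
  let D' : c.toValuationSubring → B := fun f => ⟨D f, hD f f.2⟩
  have hD'v : ∀ f, val c (D' f : F) ≠ 0 := fun f => hDv f f.2
  have hspec : ∀ f : c.toValuationSubring, (f : F) * (D' f : F) = (A' f : F) := by
    intro f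
    have h1 := hAD f f.2
    have h2 : D (f : F) ≠ 0 := hb0 (D' f) (hD'v f)
    rw [eq_div_iff h2] at h1
    exact h1
  let χ0 : c.toValuationSubring → Ω := fun f => θ (A' f) / θ (D' f)
  have key : ∀ (f : c.toValuationSubring) (a b : B), val c (b : F) ≠ 0 → (f : F) * b = a →
      χ0 f = θ a / θ b := by
    intro f a b hb hfab
    change θ (A' f) / θ (D' f) = θ a / θ b
    rw [div_eq_div_iff (hθ0 _ (hD'v f)) (hθ0 b hb), ← map_mul, ← map_mul]
    congr 1
    apply Subtype.ext
    change (A' f : F) * b = a * (D' f : F)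
    rw [← hfab, ← hspec f]
    ring
  let χ : c.toValuationSubring →ₐ[K] Ω :=
    { toFun := χ0
      map_one' := by
        rw [key 1 1 1 hone (by simp), map_one, div_one]
      map_mul' := by
        intro f g
        rw [key (f * g) (A' f * A' g) (D' f * D' g) (hmulv _ _ (hD'v f) (hD'v g)) (by
          push_cast
          rw [← hspec f, ← hspec g]
          ring), map_mul, map_mul, mul_div_mul_comm]
      map_zero' := by
        rw [key 0 0 1 hone (by simp), map_zero, zero_div]
      map_add' := by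
        intro f g
        rw [key (f + g) (A' f * D' g + A' g * D' f) (D' f * D' g)
          (hmulv _ _ (hD'v f) (hD'v g)) (by
          push_cast
          rw [← hspec f, ← hspec g]
          ring), map_add, map_mul, map_mul, map_mul]
        change _ = θ (A' f) / θ (D' f) + θ (A' g) / θ (D' g)
        have h1 := hθ0 _ (hD'v f)
        have h2 := hθ0 _ (hD'v g)
        field_simp
      commutes' := by
        intro r
        rw [key (algebraMap K c.toValuationSubring r) (algebraMap K B r) 1 hone (by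
          rw [Place.coe_algebraMap]
          simp), map_one, div_one, AlgHom.commutes] }
  have hχ : ∀ f, χ f = θ (A' f) / θ (D' f) := fun f => rfl
  have hmem : ∀ f, χ f ∈ V.O := by
    intro f
    rw [← V.val_le_one_iff, hχ, map_div₀, hval1 _ (hD'v f), div_one, V.val_le_one_iff]
    exact (hθ (A' f)).1
  refine ⟨⟨χ, hmem, ?_⟩, ?_⟩
  · intro f
    obtain ⟨hA1, hA2⟩ := hθ (A' f)
    obtain ⟨hD1, hD2⟩ := hθ (D' f)
    have h1 : (⟨χ f, hmem f⟩ : V.O) * ⟨θ (D' f), hD1⟩ = ⟨θ (A' f), hA1⟩ := by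
      apply Subtype.ext
      change χ f * θ (D' f) = θ (A' f)
      rw [hχ, div_mul_cancel₀ _ (hθ0 _ (hD'v f))]
    have h2 := congrArg V.res h1
    rw [map_mul, hD2, hA2, ← hspec f,
      val_mul c (ord_nonneg_of_mem c f.2) (hord _ (D' f).2)] at h2
    have h3 := mul_right_cancel₀ (hD'v f) h2
    rw [h3]
    exact (evAlg_eq_val c f).symm
  · intro f hf
    change χ0 f = _
    rw [key f ⟨f, hf⟩ 1 hone (by simp), map_one, div_one]

/-- an element of `Ω` which is integral over `V.O` (monic equation with coefficients in `V.O`) lies in `V.O` -/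
theorem mem_of_monic (V : ResVal K Ω) {y : Ω} (n : ℕ) (a : Fin n → Ω) (ha : ∀ i, a i ∈ V.O)
    (h : y ^ n + ∑ i : Fin n, a i * y ^ (i : ℕ) = 0) : y ∈ V.O := by
  have hint : IsIntegral V.O y := by
    refine ⟨Polynomial.X ^ n +
      ∑ i : Fin n, Polynomial.C (⟨a i, ha i⟩ : V.O) * Polynomial.X ^ (i : ℕ),
      Polynomial.monic_X_pow_add (Polynomial.degree_sum_fin_lt _), ?_⟩
    rw [Polynomial.eval₂_add, Polynomial.eval₂_finsetSum, Polynomial.eval₂_pow,
      Polynomial.eval₂_X, ← h]
    congr 1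
    refine Finset.sum_congr rfl fun i _ => ?_
    rw [Polynomial.eval₂_mul, Polynomial.eval₂_C, Polynomial.eval₂_pow, Polynomial.eval₂_X]
    rfl
  obtain ⟨z, hz⟩ := IsIntegrallyClosed.isIntegral_iff.1 hint
  rw [← hz]
  exact z.2

end Fermat.Agent.S17.Loc
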