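import Fermat.Agent.S17.Loc.Pairs
import Fermat.Agent.S17.Glob.ApiGr

/-!
# S17-LOC, file `ListFn`: lists of given length as functions on `Fin N`
-/

set_option autoImplicit false
set_option linter.unusedSectionVars false

noncomputable section

namespace Fermat.Agent.S17.Loc

variable {α : Type*}

/-- a list of length `N` as a function on `Fin N` -/
def toFn (l : List α) {N : ℕ} (h : l.length = N) : Fin N → α := fun j => l.get (j.cast h.symm)

theorem toFn_mem (l : List α) {N : ℕ} (h : l.length = N) (j : Fin N) : toFn l h j ∈ l := by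
  exact List.get_mem _ _

theorem exists_toFn_eq {l : List α} {N : ℕ} (h : l.length = N) {x : α} (hx : x ∈ l) : ∃ j, toFn l h j = x := by
  subst h
  obtain ⟨j, hj⟩ := List.get_of_mem hx
  exact ⟨j, hj⟩

theorem toFn_injective {l : List α} {N : ℕ} (h : l.length = N) (hl : l.Nodup) : Function.Injective (toFn l h) := by
  subst h
  exact List.nodup_iff_injective_get.1 hl

theorem prod_map_eq {M : Type*} [CommMonoid M] (l : List α) {N : ℕ} (h : l.length = N) (f : α → M) :
    (l.map f).prod = ∏ j, f (toFn l h j) := by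
  subst h
  have : (l.map f) = List.ofFn fun j : Fin l.length => f (l.get j) := by
    conv_lhs => rw [← List.ofFn_get l]
    rw [List.map_ofFn]
    rfl
  rw [this, List.prod_ofFn]
  rfl

theorem sum_map_eq {M : Type*} [AddCommMonoid M] (l : List α) {N : ℕ} (h : l.length = N) (f : α → M) :
    (l.map f).sum = ∑ j, f (toFn l h j) := by
  subst h
  have : (l.map f) = List.ofFn fun j : Fin l.length => f (l.get j) := by
    conv_lhs => rw [← List.ofFn_get l]
    rw [List.map_ofFn]
    rfl
  rw [this, List.sum_ofFn]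
  rfl

theorem pairProd_eq (f : α → α → ℝ) (l : List α) {N : ℕ} (h : l.length = N) :
    pairProd f l = ∏ p ∈ pairs N, f (toFn l h p.1) (toFn l h p.2) := by
  subst h
  induction l with
  | nil =>
    have : pairs 0 = ∅ := by
      ext p
      exact p.1.elim0
    simp [pairProd, this]
  | cons a l ih =>
    rw [pairProd, ih]
    have h1 := prod_pairs_succ_zero l.length
      (fun p => f (toFn (a :: l) rfl p.1) (toFn (a :: l) rfl p.2))
    have h2 : ∏ p ∈ pairs (a :: l).length, f (toFn (a :: l) rfl p.1) (toFn (a :: l) rfl p.2) =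
        ∏ p ∈ pairs (l.length + 1), f (toFn (a :: l) rfl p.1) (toFn (a :: l) rfl p.2) := rfl
    rw [h2, h1, prod_map_eq l rfl]
    rfl

theorem det_eq {R : Type*} [CommRing R] (g : ℕ → α → R) (l : List α) {N : ℕ} (h : l.length = N) :
    Matrix.det (Matrix.of fun i j : Fin l.length => g i (l.get j)) =
      Matrix.det (Matrix.of fun i j : Fin N => g i (toFn l h j)) := by
  subst h
  rfl

theorem toFn_append (l l' : List α) {N N' : ℕ} (h : l.length = N) (h' : l'.length = N')
    (h'' : (l ++ l').length = N + N') : toFn (l ++ l') h'' = Fin.append (toFn l h) (toFn l' h') := by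
  subst h h'
  funext x
  refine Fin.addCases (fun j => ?_) (fun j => ?_) x
  · rw [Fin.append_left]
    simp only [toFn, List.get_eq_getElem, Fin.val_cast, Fin.val_castAdd]
    exact List.getElem_append_left _
  · rw [Fin.append_right]
    simp only [toFn, List.get_eq_getElem, Fin.val_cast, Fin.val_natAdd]
    rw [List.getElem_append_right (by omega)]
    simp

theorem toFn_map {β : Type*} (g : α → β) (l : List α) {N : ℕ} (h : l.length = N) (h' : (l.map g).length = N) :
    toFn (l.map g) h' = g ∘ toFn l h := by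
  subst h
  funext j
  simp [toFn]

/-- `List.Forall₂` in terms of `toFn` -/
theorem forall₂_iff (R : α → α → Prop) (l l' : List α) {N : ℕ} (h : l.length = N) (h' : l'.length = N) :
    List.Forall₂ R l l' ↔ ∀ j, R (toFn l h j) (toFn l' h' j) := by
  subst h
  rw [List.forall₂_iff_get]
  constructor
  · rintro ⟨-, hh⟩ j
    exact hh j.1 j.2 (by rw [h']; exact j.2)
  · intro hh
    exact ⟨h'.symm, fun i h₁ h₂ => hh ⟨i, h₁⟩⟩

/-- nodup of `l₁ ++ l₂ ++ l₃` as injectivity of `Sum.elim` -/
theorem injective_sumElim {l₁ l₂ l₃ : List α} {N₁ N₂ N₃ : ℕ} (h₁ : l₁.length = N₁) (h₂ : l₂.length = N₂)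
    (h₃ : l₃.length = N₃) (hl : (l₁ ++ l₂ ++ l₃).Nodup) :
    Function.Injective (Sum.elim (toFn l₁ h₁) (Sum.elim (toFn l₂ h₂) (toFn l₃ h₃))) := by
  rw [List.nodup_append] at hl
  obtain ⟨h12, hn3, hd3⟩ := hl
  rw [List.nodup_append] at h12
  obtain ⟨hn1, hn2, hd12⟩ := h12
  rintro (x | x | x) (y | y | y) hxy <;> simp only [Sum.elim_inl, Sum.elim_inr] at hxy
  · rw [toFn_injective h₁ hn1 hxy]
  · exact absurd hxy (hd12 _ (toFn_mem l₁ h₁ x) _ (toFn_mem l₂ h₂ y))
  · exact absurd hxy (hd3 _ (List.mem_append_left _ (toFn_mem l₁ h₁ x)) _ (toFn_mem l₃ h₃ y))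
  · exact absurd hxy.symm (hd12 _ (toFn_mem l₁ h₁ y) _ (toFn_mem l₂ h₂ x))
  · rw [toFn_injective h₂ hn2 hxy]
  · exact absurd hxy (hd3 _ (List.mem_append_right _ (toFn_mem l₂ h₂ x)) _ (toFn_mem l₃ h₃ y))
  · exact absurd hxy.symm (hd3 _ (List.mem_append_left _ (toFn_mem l₁ h₁ y)) _ (toFn_mem l₃ h₃ x))
  · exact absurd hxy.symm (hd3 _ (List.mem_append_right _ (toFn_mem l₂ h₂ y)) _ (toFn_mem l₃ h₃ x))
  · rw [toFn_injective h₃ hn3 hxy]

theorem sumElim_mem {l₁ l₂ l₃ : List α} {N₁ N₂ N₃ : ℕ} (h₁ : l₁.length = N₁) (h₂ : l₂.length = N₂)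
    (h₃ : l₃.length = N₃) (x : Fin N₁ ⊕ (Fin N₂ ⊕ Fin N₃)) :
    Sum.elim (toFn l₁ h₁) (Sum.elim (toFn l₂ h₂) (toFn l₃ h₃)) x ∈ l₁ ++ l₂ ++ l₃ := by
  rcases x with x | x | x
  · exact List.mem_append_left _ (List.mem_append_left _ (toFn_mem l₁ h₁ x))
  · exact List.mem_append_left _ (List.mem_append_right _ (toFn_mem l₂ h₂ x))
  · exact List.mem_append_right _ (toFn_mem l₃ h₃ x)

end Fermat.Agent.S17.Loc
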