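import Fermat.Agent.S17.Loc.Model
import Fermat.Agent.S17.Loc.ListFn
import Fermat.Agent.S17.Loc.EW
import Fermat.Agent.S17.Loc.ED

/-!
# S17-LOC, file `MainB`: (E-W), (E-D) for a modelled curve
-/

set_option autoImplicit false
set_option linter.unusedSectionVars false

noncomputable section

namespace Fermat.Agent.S17.Loc

open AlgebraicCurve Fermat.Agent.S24.Zeros Fermat.Agent.S17.FF

variable {F : Type} [Field F] [Algebra Qbar F] [IsFF Qbar F]
variable {X : ACurve} {oo : Place Qbar F} {b : ℕ → affRing oo}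

theorem MainB_minor_eq (M : Model X oo b) (I : ℕ → ℕ) (l : List X.Pts) {N : ℕ} (h : l.length = N) :
    X.minor I l = (evMat b (fun a : Fin N => I a) (M.pt ∘ toFn l h)).det := by
  unfold ACurve.minor
  rw [det_eq (fun i P => X.ev (I i) P) l h]
  congr 1
  ext i j
  simp only [Matrix.of_apply, evMat, M.ev_eq, Function.comp_apply]

theorem MainB_comp_append {α β : Type*} (g : α → β) {m u : ℕ} (x : Fin m → α) (y : Fin u → α) :
    g ∘ Fin.append x y = Fin.append (g ∘ x) (g ∘ y) := by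
  funext k
  refine Fin.addCases (fun j => ?_) (fun j => ?_) k
  · simp [Fin.append_left]
  · simp [Fin.append_right]

theorem Model.ew (M : Model X oo b) (𝔸 : GlobalAbs) (n r : ℕ) (hn : X.n₀ ≤ n) : X.EW 𝔸 n r := by
  obtain ⟨C, hC, h⟩ := eW 𝔸.toAbsFam M.hb (M.big n hn) (M.big _ M.d_ge) r
  refine ⟨C, hC, fun p I l hlen hI => ?_⟩
  have h1 := h p (fun a : Fin r => I a) (M.pt ∘ toFn l hlen)
    (fun a => by rw [← M.ell_eq]; exact hI a a.2)
  rw [MainB_minor_eq M I l hlen, pairProd_eq _ l hlen, pairProd_eq _ l hlen, prod_map_eq l hlen]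
  simp only [M.NN_eq, M.Wd_eq, M.Nn_eq]
  exact h1

theorem Model.ed (M : Model X oo b) (𝔸 : GlobalAbs) (n m : ℕ) (U : List X.Pts) (hm : X.n₀ ≤ m) (hnm : X.n₀ + m ≤ n) (hU : U.Nodup)
    (hlen : U.length = X.ℓ (n - m)) (hdet : X.DL U ≠ 0) : X.ED 𝔸 n m U := by
  have hu : U.length = lv oo (n - m) := hlen.trans (M.ell_eq _)
  have hdet' : (evMat b (fun a : Fin U.length => (a : ℕ)) (M.pt ∘ toFn U rfl)).det ≠ 0 := by
    have := MainB_minor_eq M id U rfl
    simp only [id] at this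
    rw [← this]
    exact hdet
  obtain ⟨C, hC, h⟩ := eD 𝔸.toAbsFam M.hb (M.big m hm) (by omega : m ≤ n) (M.big (n - m) (by omega))
    (M.big _ M.d_ge) hu (M.pt ∘ toFn U rfl) (M.pt_inj.comp (toFn_injective rfl hU)) hdet'
  refine ⟨C, hC, fun p t ψ hnd hψ ht hz hdisj => ?_⟩
  have hl : (ψ ++ U).length = m + U.length := by rw [List.length_append, hψ]
  have h1 := h p t (M.pt ∘ toFn ψ hψ) (M.pt_inj.comp (toFn_injective hψ hnd))
    (by obtain ⟨i, hi, hne⟩ := ht; exact ⟨i, by rw [← M.ell_eq]; exact hi, hne⟩)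
    (fun j => by rw [Function.comp_apply, ← M.sec_eq]; exact hz _ (toFn_mem ψ hψ j))
    (fun j k hjk => hdisj _ (toFn_mem ψ hψ j) (by
      rw [M.pt_inj hjk]; exact toFn_mem U rfl k))
  rw [← MainB_comp_append, ← toFn_append ψ U hψ rfl hl] at h1
  have hDL : X.DL (ψ ++ U) = (evMat b (fun a : Fin (m + U.length) => (a : ℕ))
      (M.pt ∘ toFn (ψ ++ U) hl)).det := by
    have := MainB_minor_eq M id (ψ ++ U) hl
    simp only [id] at this
    exact this
  rw [hDL, pairProd_eq _ _ hl, pairProd_eq _ _ hl, prod_map_eq _ hl]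
  simp only [M.NN_eq, M.Wd_eq, M.Nn_eq]
  exact h1

end Fermat.Agent.S17.Loc
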