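import Fermat.Agent.S17.Loc.MainA
import Fermat.Agent.S17.Loc.MainB

/-!
# S17-LOC, file `Main`: the local estimates of `ACurve.Estimates` for a modelled curve
-/

set_option autoImplicit false
set_option linter.unusedSectionVars false

noncomputable section

namespace Fermat.Agent.S17.Loc

open AlgebraicCurve Fermat.Agent.S24.Zeros Fermat.Agent.S17.FF

variable {F : Type} [Field F] [Algebra Qbar F] [IsFF Qbar F]
variable {X : ACurve} {oo : Place Qbar F} {b : ℕ → affRing oo}

/-- **Main theorem of S17-LOC.** -/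
theorem Model.estimates (M : Model X oo b) (𝔸 : GlobalAbs) : X.Estimates 𝔸 where
  e1 := M.e1 𝔸
  ehs := M.ehs 𝔸
  ehsinf := M.ehsinf 𝔸
  ew := M.ew 𝔸
  ed := M.ed 𝔸

end Fermat.Agent.S17.Loc
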