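import Fermat.Agent.S17.Loc.Model
import Fermat.Agent.S17.Loc.ListFn
import Fermat.Agent.S17.Loc.E1
import Fermat.Agent.S17.Loc.EHS

/-!
# S17-LOC, file `MainA`: (E1), (E-HS), (E-HS∞) for a modelled curve
-/

set_option autoImplicit false
set_option linter.unusedSectionVars false

noncomputable section

namespace Fermat.Agent.S17.Loc

open AlgebraicCurve Fermat.Agent.S24.Zeros Fermat.Agent.S17.FF

variable {F : Type} [Field F] [Algebra Qbar F] [IsFF Qbar F]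
variable {X : ACurve} {oo : Place Qbar F} {b : ℕ → affRing oo}

theorem Model.e1 (M : Model X oo b) (𝔸 : GlobalAbs) (m : ℕ) (hm : X.n₀ ≤ m) : X.E1 𝔸 m := by
  obtain ⟨C, hC, h⟩ := Loc.e1 𝔸.toAbsFam M.hb (M.big m hm) (M.big _ M.d_ge)
  refine ⟨C, hC, fun p P => ?_⟩
  rw [M.Nn_eq, M.Nn_eq]
  exact h p (M.pt P)

theorem Model.ehs (M : Model X oo b) (𝔸 : GlobalAbs) (m : ℕ) (hm : X.n₀ ≤ m) : X.EHS 𝔸 m := by
  obtain ⟨C, hC, h⟩ := eHS 𝔸.toAbsFam M.hb (M.big m hm) (M.big _ M.d_ge)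
  refine ⟨C, hC, fun p t ψ ρ hnd hlen _ hz => ?_⟩
  have h1 := h p t (M.pt ∘ toFn ψ hlen) (M.pt ρ) (M.pt_inj.comp (toFn_injective hlen hnd))
    (fun j => by rw [Function.comp_apply, ← M.sec_eq]; exact hz _ (toFn_mem ψ hlen j))
  rw [prod_map_eq ψ hlen, prod_map_eq ψ hlen, M.sec_eq, M.tsize_eq, M.Nn_eq]
  simp only [M.NN_eq, M.Wd_eq]
  exact h1

theorem Model.ehsinf (M : Model X oo b) (𝔸 : GlobalAbs) (n k : ℕ) (hn : X.n₀ ≤ n) : X.EHSinf 𝔸 n k := by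
  obtain ⟨C, hC, h⟩ := eHSinf 𝔸.toAbsFam M.hb (M.big n hn) k
  refine ⟨C, hC, fun p t ψ hnd hlen hz => ?_⟩
  have h1 := h p t (M.pt ∘ toFn ψ hlen) (M.pt_inj.comp (toFn_injective hlen hnd))
    (fun j => by rw [Function.comp_apply, ← M.sec_eq]; exact hz _ (toFn_mem ψ hlen j))
  rw [prod_map_eq ψ hlen, prod_map_eq ψ hlen, M.tsize_eq, M.ell_eq]
  simp only [M.Nn_eq]
  exact h1

end Fermat.Agent.S17.Loc
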