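import Fermat.Agent.S17.Loc.Push
import Fermat.Agent.S17.Glob.ACurve

/-!
# S17-LOC, file `Model`: what it means for an `ACurve` to be modelled on `(F, oo, b)`
-/

set_option autoImplicit false
set_option linter.unusedSectionVars false

noncomputable section

namespace Fermat.Agent.S17.Loc

open AlgebraicCurve Fermat.Agent.S24.Zeros Fermat.Agent.S17.FF

variable {F : Type} [Field F] [Algebra Qbar F] [IsFF Qbar F]

/-- The abstract curve `X` is modelled on the function field `F/ℚ̄`, the place `oo` and the pole basis `b`. -/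
structure Model (X : ACurve) (oo : Place Qbar F) (b : ℕ → affRing oo) where
  hb : IsPB oo b
  pt : X.Pts → KPt oo
  pt_inj : Function.Injective pt
  ev_eq : ∀ i P, X.ev i P = pt P (b i)
  ell_eq : ∀ n, X.ℓ n = lv oo n
  big : ∀ n, X.n₀ ≤ n → Big Qbar F n
  d_ge : X.n₀ ≤ X.d

variable {X : ACurve} {oo : Place Qbar F} {b : ℕ → affRing oo} (M : Model X oo b) (𝔸 : GlobalAbs)

theorem Model.Nn_eq (p : 𝔸.ι) (n : ℕ) (P : X.Pts) : X.Nn 𝔸 p n P = aN b (𝔸.abv p) n (M.pt P) := by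
  simp only [ACurve.Nn, aN, M.ell_eq, M.ev_eq]

theorem Model.Wd_eq (p : 𝔸.ι) (P P' : X.Pts) : X.Wd 𝔸 p P P' = aW b (𝔸.abv p) X.d (M.pt P) (M.pt P') := by
  simp only [ACurve.Wd, aW, M.ell_eq, M.ev_eq]

theorem Model.NN_eq (p : 𝔸.ι) (P P' : X.Pts) :
    X.NN 𝔸 p P P' = aN b (𝔸.abv p) X.d (M.pt P) * aN b (𝔸.abv p) X.d (M.pt P') := by
  simp only [ACurve.NN, M.Nn_eq]

include M in
theorem Model.tsize_eq (p : 𝔸.ι) (m : ℕ) (t : ℕ → Qbar) : X.tsize 𝔸 p m t = aT (𝔸.abv p) oo m t := by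
  simp only [ACurve.tsize, aT, M.ell_eq]

theorem Model.sec_eq (m : ℕ) (t : ℕ → Qbar) (P : X.Pts) : X.sec m t P = sec b m t (M.pt P) := by
  simp only [ACurve.sec, sec, M.ell_eq, M.ev_eq]

end Fermat.Agent.S17.Loc
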