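import Fermat.Agent.S17.Loc.Dl

/-!
# S17-LOC, file `Newton`: (V-Newton) at a place `c`, for sections of `L(n∞)` with integral coefficients
-/

set_option autoImplicit false
set_option linter.unusedSectionVars false

noncomputable section

namespace Fermat.Agent.S17.Loc

open AlgebraicCurve Fermat.Agent.S24.Zeros Fermat.Agent.S17.FF

variable {K F : Type*} [Field K] [Field F] [Algebra K F] [IsAlgClosed K] [CharZero K] [IsFF K F]
variable {Ω : Type*} [Field Ω] [Algebra K Ω] {V : ResVal K Ω} {oo : Place K F} {b : ℕ → affRing oo}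

/-- the reduction `∑ res(s_i) f_i ∈ F` of the section `∑ s_i f_i` -/
def sbar (V : ResVal K Ω) {ι : Type*} (I : Finset ι) (s : ι → V.O) (f : ι → affRing oo) : F :=
  ∑ i ∈ I, algebraMap K F (V.res (s i)) * (f i : F)

theorem sbar_mem {n : ℕ} {ι : Type*} (I : Finset ι) (s : ι → V.O) (f : ι → affRing oo)
    (hf : ∀ i ∈ I, (f i : F) ∈ LSpace (Finsupp.single oo (n : ℤ))) :
    sbar V I s f ∈ LSpace (Finsupp.single oo (n : ℤ)) := by
  unfold sbar
  refine Submodule.sum_mem _ fun i hi => ?_
  rw [← Algebra.smul_def]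
  exact Submodule.smul_mem _ _ (hf i hi)

theorem Newton_shift_add (c : Place K F) (f g : c.toValuationSubring) :
    (chartAt c).shift (f + g) = (chartAt c).shift f + (chartAt c).shift g := by
  apply Subtype.ext
  change (((f + g : c.toValuationSubring) : F) - algebraMap K F (ev c (f + g))) / (unif c : F) =
    ((f : F) - algebraMap K F (ev c f)) / (unif c : F) +
      ((g : F) - algebraMap K F (ev c g)) / (unif c : F)
  rw [map_add, map_add]
  change ((f : F) + (g : F) - _) / _ = _
  ring

theorem Newton_shift_smul (c : Place K F) (a : K) (f : c.toValuationSubring) :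
    (chartAt c).shift (algebraMap K c.toValuationSubring a * f) =
      algebraMap K c.toValuationSubring a * (chartAt c).shift f := by
  apply Subtype.ext
  change (((algebraMap K c.toValuationSubring a * f : c.toValuationSubring) : F) -
      algebraMap K F (ev c (algebraMap K c.toValuationSubring a * f))) / (unif c : F) =
    algebraMap K F a * (((f : F) - algebraMap K F (ev c f)) / (unif c : F))
  rw [map_mul, ev_algebraMap, map_mul]
  change (algebraMap K F a * (f : F) - _) / _ = _
  ring

theorem Newton_taylor_add (c : Place K F) (m : ℕ) (f g : c.toValuationSubring) :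
    (chartAt c).taylor m (f + g) = (chartAt c).taylor m f + (chartAt c).taylor m g := by
  induction m generalizing f g with
  | zero => rw [LocalChart.taylor_zero, LocalChart.taylor_zero, LocalChart.taylor_zero, map_add]
  | succ m ih =>
    rw [LocalChart.taylor_succ, LocalChart.taylor_succ, LocalChart.taylor_succ, Newton_shift_add, ih]

theorem Newton_taylor_smul (c : Place K F) (m : ℕ) (a : K) (f : c.toValuationSubring) :
    (chartAt c).taylor m (algebraMap K c.toValuationSubring a * f) = a * (chartAt c).taylor m f := by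
  induction m generalizing f with
  | zero =>
    rw [LocalChart.taylor_zero, LocalChart.taylor_zero, map_mul, AlgHom.commutes]
    rfl
  | succ m ih =>
    rw [LocalChart.taylor_succ, LocalChart.taylor_succ, Newton_shift_smul, ih]

theorem Newton_taylor_map_zero (c : Place K F) (m : ℕ) :
    (chartAt c).taylor m (0 : c.toValuationSubring) = 0 := by
  have h := Newton_taylor_add c m 0 0
  rw [add_zero] at h
  exact left_eq_add.1 h

/-- Taylor coefficients are `K`-linear (induction on `m`, `coe_chart_shift`). -/
theorem taylor_sum (c : Place K F) (m : ℕ) {ι : Type*} (I : Finset ι) (a : ι → K)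
    (h : ι → c.toValuationSubring) :
    (chartAt c).taylor m (∑ i ∈ I, algebraMap K c.toValuationSubring (a i) * h i) =
      ∑ i ∈ I, a i * (chartAt c).taylor m (h i) := by
  classical
  induction I using Finset.induction_on with
  | empty => rw [Finset.sum_empty, Finset.sum_empty, Newton_taylor_map_zero]
  | insert i I hi ih =>
    rw [Finset.sum_insert hi, Finset.sum_insert hi, Newton_taylor_add, Newton_taylor_smul, ih]

open scoped Classical in
/-- **(V-Newton)** at the place `c`: `LocalChart.newton` for `h_i = f_i / gen`, the points `P_j` centered at `c`. -/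
theorem newton_at (hb : IsPB oo b) {n : ℕ} (hn : Big K F n) {ι κ : Type*} (I : Finset ι) (s : ι → V.O)
    (f : ι → affRing oo) (hf : ∀ i ∈ I, (f i : F) ∈ LSpace (Finsupp.single oo (n : ℤ)))
    (J : Finset κ) (P : κ → CPt V oo) (hinj : Set.InjOn (fun j => (P j).ψ) J)
    (hz : ∀ j ∈ J, ∑ i ∈ I, (s i : Ω) * (P j).ψ (f i) = 0) (c : Place K F) :
    (∀ m < (J.filter fun j => (P j).c = c).card,
        (chartAt c).taylor m (locF c (sbar V I s f / (gen b n c : F))) = 0) ∧
      ∀ ρ : (chartAt c).Pt V, (∀ j ∈ J, (P j).c = c → ρ.x ≠ (P j).x) →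
        ∃ q : V.O, ∑ i ∈ I, (s i : Ω) * ρ.toHom (locF c ((f i : F) / (gen b n c : F))) =
            q * ∏ j ∈ J.filter (fun j => (P j).c = c), (ρ.x - (P j).x) ∧
          V.res q = (chartAt c).taylor (J.filter fun j => (P j).c = c).card
            (locF c (sbar V I s f / (gen b n c : F))) := by
  set Jc := J.filter fun j => (P j).c = c with hJc
  let h : ι → c.toValuationSubring := fun i => locF c ((f i : F) / (gen b n c : F))
  let χ' : κ → (chartAt c).Pt V := fun j =>
    if hj : (P j).c = c then (P j).at c hj else LocalChart.Pt.const _ V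
  have hχ' : ∀ j (hj : (P j).c = c), χ' j = (P j).at c hj := fun j hj => dif_pos hj
  have hx : ∀ j ∈ Jc, (χ' j).x = (P j).x := by
    intro j hj
    have hjc := (Finset.mem_filter.1 hj).2
    rw [hχ' j hjc, CPt.at_x]
  have hreg : ∀ i ∈ I, 0 ≤ c.ord ((f i : F) / (gen b n c : F)) := fun i hi =>
    hb.ord_div_gen_nonneg hn c (hf i hi)
  have hψ : ∀ j ∈ Jc, ∀ i ∈ I, (P j).ψ (f i) = (χ' j).toHom (h i) * (P j).ψ (gen b n c) := by
    intro j hj i hi
    have hjc := (Finset.mem_filter.1 hj).2
    rw [hχ' j hjc]
    refine ((P j).at_compat c hjc (h i) (f i) (gen b n c) ?_).symm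
    change ((locF c _ : c.toValuationSubring) : F) * _ = _
    rw [coe_locF (hreg i hi), div_mul_cancel₀ _ (hb.gen_ne_zero n c)]
  have hgen : ∀ j ∈ Jc, (P j).ψ (gen b n c) ≠ 0 := by
    intro j hj
    have hjc := (Finset.mem_filter.1 hj).2
    have := (P j).ψ_gen_ne_zero hb hn
    rwa [hjc] at this
  have hz' : ∀ j ∈ Jc, ∑ i ∈ I, (s i : Ω) * (χ' j).toHom (h i) = 0 := by
    intro j hj
    have h1 := hz j (Finset.mem_filter.1 hj).1
    have h2 : ∑ i ∈ I, (s i : Ω) * (P j).ψ (f i) =
        (∑ i ∈ I, (s i : Ω) * (χ' j).toHom (h i)) * (P j).ψ (gen b n c) := by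
      rw [Finset.sum_mul]
      refine Finset.sum_congr rfl fun i hi => ?_
      rw [hψ j hj i hi, mul_assoc]
    rw [h2] at h1
    exact (mul_eq_zero.1 h1).resolve_right (hgen j hj)
  have hinj' : Set.InjOn (fun j => (χ' j).x) Jc := by
    intro j hj j' hj' hjj'
    have hj1 := Finset.mem_coe.1 hj
    have hj1' := Finset.mem_coe.1 hj'
    have hjj2 : (χ' j).x = (χ' j').x := hjj'
    rw [hx j hj1, hx j' hj1'] at hjj2
    apply hinj (Finset.mem_coe.2 (Finset.mem_filter.1 hj1).1)
      (Finset.mem_coe.2 (Finset.mem_filter.1 hj1').1)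
    exact CPt.ψ_eq_of_x_eq hb (P j) (P j')
      ((Finset.mem_filter.1 hj1).2.trans (Finset.mem_filter.1 hj1').2.symm) hjj2
  obtain ⟨hN1, hN2⟩ := LocalChart.newton Jc χ' hinj' I s h hz'
  have hsb : locF c (sbar V I s f / (gen b n c : F)) =
      ∑ i ∈ I, algebraMap K c.toValuationSubring (V.res (s i)) * h i := by
    apply Subtype.ext
    rw [coe_locF (hb.ord_div_gen_nonneg hn c (sbar_mem I s f hf))]
    rw [show ((∑ i ∈ I, algebraMap K c.toValuationSubring (V.res (s i)) * h i :
        c.toValuationSubring) : F) =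
      ∑ i ∈ I, ((algebraMap K c.toValuationSubring (V.res (s i)) * h i :
        c.toValuationSubring) : F) from map_sum c.toValuationSubring.subtype _ _]
    unfold sbar
    rw [Finset.sum_div]
    refine Finset.sum_congr rfl fun i hi => ?_
    change _ = algebraMap K F (V.res (s i)) * ((locF c _ : c.toValuationSubring) : F)
    rw [coe_locF (hreg i hi), mul_div_assoc]
  have htay : ∀ m, (chartAt c).taylor m (locF c (sbar V I s f / (gen b n c : F))) =
      ∑ i ∈ I, V.res (s i) * (chartAt c).taylor m (h i) := by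
    intro m
    rw [hsb, taylor_sum]
  refine ⟨fun m hm => ?_, fun ρ hρ => ?_⟩
  · rw [htay]
    exact hN1 m hm
  · obtain ⟨q, hq, hres⟩ := hN2 ρ (fun j hj => by
      rw [hx j hj]
      exact hρ j (Finset.mem_filter.1 hj).1 (Finset.mem_filter.1 hj).2)
    refine ⟨q, ?_, ?_⟩
    · refine hq.trans ?_
      congr 1
      exact Finset.prod_congr rfl fun j hj => by rw [hx j hj]
    · rw [hres, htay]

end Fermat.Agent.S17.Loc
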