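import Fermat.Agent.S17.Loc.Basic
import Fermat.Agent.S17.FF.Det

/-!
# S17-LOC, file `PB`: elementary facts on pole bases and `lv`
-/

set_option autoImplicit false
set_option linter.unusedSectionVars false

noncomputable section

namespace Fermat.Agent.S17.Loc

open AlgebraicCurve Fermat.Agent.S24.Zeros Fermat.Agent.S17.FF

variable {K F : Type*} [Field K] [Field F] [Algebra K F] [IsAlgClosed K] [CharZero K] [IsFF K F]
variable {oo : Place K F} {b : ℕ → affRing oo}

theorem IsPB.b_zero (hb : IsPB oo b) : b 0 = 1 := by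
  exact Subtype.ext (IsPoleBasis.zero hb)

theorem IsPB.lt_lv_iff (hb : IsPB oo b) (n i : ℕ) : i < lv oo n ↔ -oo.ord (b i : F) ≤ (n : ℤ) := by
  exact IsPoleBasis.lt_ell_iff hb (n : ℤ) i

theorem IsPB.mem_LSpace (hb : IsPB oo b) {n i : ℕ} (h : i < lv oo n) :
    (b i : F) ∈ LSpace (Finsupp.single oo (n : ℤ)) := by
  exact (PoleBasis_mem_LSpace_iff hb (n : ℤ) i).2 ((hb.lt_lv_iff n i).1 h)

theorem PB_single_le (oo : Place K F) {m n : ℤ} (h : m ≤ n) :
    (Finsupp.single oo m : Divisor K F) ≤ Finsupp.single oo n := by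
  classical
  intro v
  rw [Finsupp.single_apply, Finsupp.single_apply]
  split_ifs
  · exact h
  · exact le_rfl

theorem lv_pos (oo : Place K F) (n : ℕ) : 0 < lv oo n := by
  have h : ell (0 : Divisor K F) ≤ ell (Finsupp.single oo (n : ℤ)) := by
    refine ell_mono ?_
    have := PB_single_le oo (Int.natCast_nonneg n)
    rwa [Finsupp.single_zero] at this
  rw [ell_zero] at h
  exact h

theorem lv_mono (oo : Place K F) : Monotone (lv oo) := by
  intro m n h
  exact ell_mono (PB_single_le oo (by exact_mod_cast h))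

theorem lv_eq (oo : Place K F) {n : ℕ} (hn : cBound K F ≤ (n : ℤ)) :
    (lv oo n : ℤ) = (n : ℤ) + 1 - genus K F := by
  have h := riemann_eq (D := Finsupp.single oo (n : ℤ)) (by rw [degree_single']; exact hn)
  rw [degree_single'] at h
  exact h

theorem lv_succ (oo : Place K F) {n : ℕ} (hn : Big K F n) : lv oo (n + 1) = lv oo n + 1 := by
  unfold Big at hn
  have h1 := lv_eq oo (n := n) (by omega)
  have h2 := lv_eq oo (n := n + 1) (by push_cast; omega)
  push_cast at h2
  omega

theorem Big.succ {n : ℕ} (hn : Big K F n) : Big K F (n + 1) := by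
  unfold Big at *
  push_cast
  omega

/-- the top basis element of `L(n∞)` has pole order exactly `n` -/
theorem IsPB.ord_top (hb : IsPB oo b) {n : ℕ} (hn : Big K F n) :
    oo.ord (b (lv oo n - 1) : F) = -(n : ℤ) := by
  unfold Big at hn
  exact IsPoleBasis.ord_top hb (m := (n : ℤ)) (by omega)

/-- the other basis elements have smaller pole order -/
theorem IsPB.ord_lt_top (hb : IsPB oo b) {n i : ℕ} (hn : Big K F n) (hi : i < lv oo n - 1) :
    -(n : ℤ) < oo.ord (b i : F) := by
  have h1 := IsPoleBasis.strictMono hb hi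
  have h2 := hb.ord_top hn
  simp only at h1
  omega

theorem IsPB.sum_ne_zero (hb : IsPB oo b) {n : ℕ} (a : ℕ → K) (h : ∃ i < n, a i ≠ 0) :
    ∑ i ∈ Finset.range n, algebraMap K F (a i) * (b i : F) ≠ 0 := by
  obtain ⟨i, hi, hai⟩ := h
  intro h0
  exact hai ((IsPoleBasis.sum_eq_zero_iff hb n a).1 h0 i hi)

theorem IsPB.exists_coeff (hb : IsPB oo b) {n : ℕ} {f : F} (hf : f ∈ LSpace (Finsupp.single oo (n : ℤ))) :
    ∃ a : ℕ → K, f = ∑ i ∈ Finset.range (lv oo n), algebraMap K F (a i) * (b i : F) := by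
  exact (IsPoleBasis.mem_LSpace_iff hb (n : ℤ) f).1 hf


end Fermat.Agent.S17.Loc
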