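import Fermat.Agent.S17.Loc.Basic

/-!
# S17-LOC, file `Pairs`: products over `pairs r`
-/

set_option autoImplicit false
set_option linter.unusedSectionVars false

noncomputable section

namespace Fermat.Agent.S17.Loc

open AlgebraicCurve Fermat.Agent.S24.Zeros Fermat.Agent.S17.FF

variable {K F : Type*} [Field K] [Field F] [Algebra K F] [IsAlgClosed K] [CharZero K] [IsFF K F]

section pairs

variable {M : Type*} [CommMonoid M]

/-- peel off the last index -/
theorem prod_pairs_succ_last (r : ℕ) (g : Fin (r + 1) × Fin (r + 1) → M) :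
    ∏ p ∈ pairs (r + 1), g p =
      (∏ p ∈ pairs r, g (p.1.castSucc, p.2.castSucc)) * ∏ j : Fin r, g (j.castSucc, Fin.last r) := by
  unfold pairs
  rw [Finset.prod_filter, Finset.prod_filter, Fintype.prod_prod_type, Fintype.prod_prod_type,
    Fin.prod_univ_castSucc]
  simp only [Fin.prod_univ_castSucc, Fin.castSucc_lt_castSucc_iff, Fin.castSucc_lt_last, if_true,
    lt_irrefl, if_false, mul_one, Finset.prod_mul_distrib]
  have h : ∀ y : Fin r, ¬ Fin.last r < y.castSucc := fun y => not_lt.2 (Fin.le_last _)
  simp only [h, if_false, Finset.prod_const_one, mul_one]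

/-- peel off the first index -/
theorem prod_pairs_succ_zero (r : ℕ) (g : Fin (r + 1) × Fin (r + 1) → M) :
    ∏ p ∈ pairs (r + 1), g p =
      (∏ j : Fin r, g (0, j.succ)) * ∏ p ∈ pairs r, g (p.1.succ, p.2.succ) := by
  unfold pairs
  rw [Finset.prod_filter, Finset.prod_filter, Fintype.prod_prod_type, Fintype.prod_prod_type,
    Fin.prod_univ_succ]
  simp only [Fin.prod_univ_succ, Fin.succ_lt_succ_iff, Fin.succ_pos, if_true,
    lt_irrefl, if_false, one_mul, Finset.prod_mul_distrib]
  have h : ∀ y : Fin r, ¬ y.succ < 0 := fun y => not_lt.2 (Fin.zero_le _)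
  simp only [h, if_false, Finset.prod_const_one, one_mul]

end pairs

end Fermat.Agent.S17.Loc
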