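import Fermat.Agent.S17.Loc.PB
import Fermat.Agent.S17.Alg.Est

/-!
# S17-LOC, file `Push`: the transfer machinery

`T` a type of configurations, `P : T → KPt oo` a point-valued function, `φ : (T → K) →ₐ[K] Ω`.
`push φ P : A →ₐ[K] Ω`, `a ↦ φ (t ↦ P t a)`.  Families of functions `famN`, `famW`, `famT` whose `vsize` after `φ` are
`nrm`, `wdg`, `tsz` of the pushed points and whose `asize` at `t` are `aN`, `aW`, `aT`.
-/

set_option autoImplicit false
set_option linter.unusedSectionVars false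

noncomputable section

namespace Fermat.Agent.S17.Loc

open AlgebraicCurve Fermat.Agent.S24.Zeros Fermat.Agent.S17.FF
open scoped Pointwise

variable {K F : Type} [Field K] [Field F] [Algebra K F] [IsAlgClosed K] [CharZero K] [IsFF K F]

/-- `K`-points of the affine curve -/
abbrev KPt (oo : Place K F) : Type := affRing oo →ₐ[K] K

variable {oo : Place K F} (b : ℕ → affRing oo) {T : Type}

section abs

variable [DecidableEq K] (a : AbsoluteValue K ℝ)

/-- `N_n(P) = max_{i < ℓ(n)} |b_i(P)|` -/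
def aN (n : ℕ) (P : KPt oo) : ℝ := asize a ((Finset.range (lv oo n)).image fun i => P (b i))

/-- `W(P,P') = max |b_i(P) b_j(P') - b_j(P) b_i(P')|` -/
def aW (d : ℕ) (P P' : KPt oo) : ℝ :=
  asize a ((Finset.range (lv oo d) ×ˢ Finset.range (lv oo d)).image
    fun ij => P (b ij.1) * P' (b ij.2) - P (b ij.2) * P' (b ij.1))

/-- `‖t‖ = max_{i < ℓ(m)} |t_i|` -/
def aT (oo : Place K F) (m : ℕ) (t : ℕ → K) : ℝ := asize a ((Finset.range (lv oo m)).image t)

end abs

section fam

open scoped Classical in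
/-- the family of functions `t ↦ b_i(P t)`, `i < ℓ(n)` -/
def famN (n : ℕ) (P : T → KPt oo) : Finset (T → K) :=
  (Finset.range (lv oo n)).image fun i t => P t (b i)

open scoped Classical in
/-- the family of the `2 × 2` minors -/
def famW (d : ℕ) (P P' : T → KPt oo) : Finset (T → K) :=
  (Finset.range (lv oo d) ×ˢ Finset.range (lv oo d)).image
    fun ij t => P t (b ij.1) * P' t (b ij.2) - P t (b ij.2) * P' t (b ij.1)

open scoped Classical in
/-- the family of the coefficient functions -/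
def famT (oo : Place K F) (m : ℕ) (c : T → ℕ → K) : Finset (T → K) :=
  (Finset.range (lv oo m)).image fun i t => c t i

end fam

section push

variable {Ω : Type} [Field Ω] [Algebra K Ω]

/-- push-forward of a point-valued function -/
def push (φ : (T → K) →ₐ[K] Ω) (P : T → KPt oo) : affRing oo →ₐ[K] Ω :=
  φ.comp (AlgHom.pi P)

@[simp] theorem push_apply (φ : (T → K) →ₐ[K] Ω) (P : T → KPt oo) (x : affRing oo) :
    push φ P x = φ fun t => P t x := rfl

theorem push_const (φ : (T → K) →ₐ[K] Ω) (U : KPt oo) :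
    push φ (fun _ : T => U) = (Algebra.ofId K Ω).comp U := by
  refine AlgHom.ext fun x => ?_
  rw [push_apply]
  exact φ.commutes (U x)

/-- `K`-points are separated by `b_i`, `i < ℓ(d)` (`exists_sep`, `ptOfPlace_bijective`, `IsPB.exists_coeff`) -/
theorem exists_ne_of_ne {b : ℕ → affRing oo} (hb : IsPB oo b) {d : ℕ} (hd : Big K F d) {P Q : KPt oo} (h : P ≠ Q) :
    ∃ i < lv oo d, P (b i) ≠ Q (b i) := by
  obtain ⟨v, rfl⟩ := (ptOfPlace_bijective oo).2 P
  obtain ⟨w, rfl⟩ := (ptOfPlace_bijective oo).2 Q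
  have hvw : v.1 ≠ w.1 := fun e => h (by rw [Subtype.ext e])
  obtain ⟨f, hf, hf0, hf1⟩ := exists_sep oo hd v.2 w.2 hvw
  obtain ⟨a, ha⟩ := hb.exists_coeff hf
  by_contra hcon
  push Not at hcon
  have hf' : f = ((∑ i ∈ Finset.range (lv oo d), a i • b i : affRing oo) : F) := by
    rw [ha, AddSubmonoidClass.coe_finsetSum]
    refine Finset.sum_congr rfl fun i _ => ?_
    rw [Algebra.smul_def]
    rfl
  have e1 : ptOfPlace oo v (∑ i ∈ Finset.range (lv oo d), a i • b i) =
      ptOfPlace oo w (∑ i ∈ Finset.range (lv oo d), a i • b i) := by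
    rw [map_sum, map_sum]
    refine Finset.sum_congr rfl fun i hi => ?_
    rw [map_smul, map_smul, hcon i (Finset.mem_range.1 hi)]
  rw [ptOfPlace_apply, ptOfPlace_apply, ← hf', hf0] at e1
  exact hf1 e1.symm

/-- open conditions transfer (`exists_map_ne_zero_of_no_common_zero`) -/
theorem push_ne {b : ℕ → affRing oo} (hb : IsPB oo b) (φ : (T → K) →ₐ[K] Ω) {P Q : T → KPt oo} (h : ∀ t, P t ≠ Q t) :
    push φ P ≠ push φ Q := by
  obtain ⟨d, hd⟩ : ∃ d : ℕ, Big K F d := ⟨(cBound K F + 2).toNat, Int.self_le_toNat _⟩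
  obtain ⟨i, hi⟩ := exists_map_ne_zero_of_no_common_zero (φ : (T → K) →+* Ω)
    (fun (i : Fin (lv oo d)) t => P t (b i) - Q t (b i)) (fun t => by
      obtain ⟨i, hi, hne⟩ := exists_ne_of_ne hb hd (h t)
      exact ⟨⟨i, hi⟩, sub_ne_zero.2 hne⟩)
  intro heq
  apply hi
  have : (fun t => P t (b i) - Q t (b i)) = (fun t => P t (b i)) - fun t => Q t (b i) := rfl
  rw [this, map_sub]
  have h2 := congrArg (fun ψ : affRing oo →ₐ[K] Ω => ψ (b i)) heq
  simp only [push_apply] at h2
  exact sub_eq_zero.2 h2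

theorem exists_coeff_ne_zero (φ : (T → K) →ₐ[K] Ω) (N : ℕ) (c : T → ℕ → K) (h : ∀ t, ∃ i < N, c t i ≠ 0) :
    ∃ i < N, φ (fun t => c t i) ≠ 0 := by
  obtain ⟨i, hi⟩ := exists_map_ne_zero_of_no_common_zero (φ : (T → K) →+* Ω)
    (fun (i : Fin N) t => c t i) (fun t => by
      obtain ⟨i, hi, hne⟩ := h t
      exact ⟨⟨i, hi⟩, hne⟩)
  exact ⟨i, i.2, hi⟩

theorem sec_push (φ : (T → K) →ₐ[K] Ω) (m : ℕ) (c : T → ℕ → K) (P : T → KPt oo) :
    sec b m (fun i => φ fun t => c t i) (push φ P) = φ fun t => sec b m (c t) (P t) := by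
  unfold sec
  have : (fun t => ∑ i ∈ Finset.range (lv oo m), c t i * P t (b i)) =
      ∑ i ∈ Finset.range (lv oo m), (fun t => c t i) * fun t => P t (b i) := by
    funext t
    rw [Finset.sum_apply]
    rfl
  rw [this, map_sum]
  refine Finset.sum_congr rfl fun i _ => ?_
  rw [map_mul]
  rfl

theorem det_push (φ : (T → K) →ₐ[K] Ω) {r : ℕ} (I : Fin r → ℕ) (P : Fin r → T → KPt oo) :
    (evMat b I fun j => push φ (P j)).det = φ fun t => (evMat b I fun j => P j t).det := by
  have h1 : (fun t => (evMat b I fun j => P j t).det) =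
      (Matrix.of fun a j => fun t => P j t (b (I a)) : Matrix (Fin r) (Fin r) (T → K)).det := by
    funext t
    have := (Pi.evalRingHom (fun _ : T => K) t).map_det
      (Matrix.of fun a j => fun t => P j t (b (I a)) : Matrix (Fin r) (Fin r) (T → K))
    rw [Pi.evalRingHom_apply] at this
    rw [this]
    rfl
  rw [h1]
  have h2 := (φ : (T → K) →+* Ω).map_det
    (Matrix.of fun a j => fun t => P j t (b (I a)) : Matrix (Fin r) (Fin r) (T → K))
  refine Eq.trans ?_ h2.symm
  rfl

end push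

end Fermat.Agent.S17.Loc
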