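import Fermat.Agent.S17.Loc.CoreHS
import Fermat.Agent.S17.Loc.CoreOO

/-!
# S17-LOC, file `Scale`: the core statements for sections with arbitrary coefficients in `Ω` (scaling)
-/

set_option autoImplicit false
set_option linter.unusedSectionVars false

noncomputable section

namespace Fermat.Agent.S17.Loc

open AlgebraicCurve Fermat.Agent.S24.Zeros Fermat.Agent.S17.FF

variable {K F : Type*} [Field K] [Field F] [Algebra K F] [IsAlgClosed K] [CharZero K] [IsFF K F]
variable {Ω : Type*} [Field Ω] [Algebra K Ω] {V : ResVal K Ω} {oo : Place K F} {b : ℕ → affRing oo}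

/-- normalisation of a coefficient vector: if not all `s_i` vanish there is `c ≠ 0` with `val c = max val s_i`,
`s_i / c ∈ V.O` and some `res (s_i / c) ≠ 0`. -/
theorem exists_normalise {ι : Type*} (I : Finset ι) (s : ι → Ω) (h : ∃ i ∈ I, s i ≠ 0) :
    ∃ (c : Ω) (s' : ι → V.O), c ≠ 0 ∧ V.val c = (I.sup fun i => V.val (s i)) ∧
      (∀ i ∈ I, s i = c * (s' i : Ω)) ∧ ∃ i ∈ I, V.res (s' i) ≠ 0 := by
  classical
  obtain ⟨i1, hi1, hs1⟩ := h
  obtain ⟨i0, hi0, hmax⟩ := Finset.exists_max_image I (fun i => V.val (s i)) ⟨i1, hi1⟩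
  have hc : s i0 ≠ 0 := by
    intro h0
    have h1 := hmax i1 hi1
    simp only [h0, map_zero] at h1
    exact hs1 ((V.val.zero_iff).1 (le_antisymm h1 zero_le))
  have hmem : ∀ i ∈ I, s i / s i0 ∈ V.O := by
    intro i hi
    rw [← V.val_le_one_iff, map_div₀]
    exact div_le_one_of_le₀ (hmax i hi) zero_le
  refine ⟨s i0, fun i => if h : s i / s i0 ∈ V.O then ⟨_, h⟩ else 0, hc, ?_, ?_, i0, hi0, ?_⟩
  · apply le_antisymm
    · exact Finset.le_sup (f := fun i => V.val (s i)) hi0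
    · exact Finset.sup_le hmax
  · intro i hi
    simp only [dif_pos (hmem i hi)]
    field_simp
  · simp only [dif_pos (hmem i0 hi0)]
    have h1 : (⟨s i0 / s i0, hmem i0 hi0⟩ : V.O) = 1 := Subtype.ext (div_self hc)
    rw [h1, map_one]
    exact one_ne_zero

/-- pulling the normalising constant out of a section -/
theorem Scale_sum_eq {ι : Type*} {I : Finset ι} {s : ι → Ω} {c : Ω} {s' : ι → V.O}
    (hs : ∀ i ∈ I, s i = c * (s' i : Ω)) (f : ι → affRing oo) (ψ : affRing oo →ₐ[K] Ω) :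
    ∑ i ∈ I, s i * ψ (f i) = c * ∑ i ∈ I, (s' i : Ω) * ψ (f i) := by
  rw [Finset.mul_sum]
  refine Finset.sum_congr rfl fun i hi => ?_
  rw [hs i hi, mul_assoc]

theorem Scale_zero {ι κ : Type*} {I : Finset ι} {s : ι → Ω} {c : Ω} {s' : ι → V.O} (hc : c ≠ 0)
    (hs : ∀ i ∈ I, s i = c * (s' i : Ω)) (f : ι → affRing oo) {J : Finset κ} {P : κ → CPt V oo}
    (hz : ∀ j ∈ J, ∑ i ∈ I, s i * (P j).ψ (f i) = 0) :
    ∀ j ∈ J, ∑ i ∈ I, (s' i : Ω) * (P j).ψ (f i) = 0 := by
  intro j hj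
  have h1 := hz j hj
  rw [Scale_sum_eq hs] at h1
  exact (mul_eq_zero.1 h1).resolve_left hc

/-- an effective divisor of degree zero vanishes -/
theorem Scale_eq_zero_of_nonneg {E : Divisor K F} (h0 : 0 ≤ E) (hd : Divisor.degree E = 0) :
    E = 0 := by
  rw [degree_eq_sum, Finsupp.sum, Finset.sum_eq_zero_iff_of_nonneg (fun v _ => h0 v)] at hd
  ext v
  by_cases hv : v ∈ E.support
  · exact hd v hv
  · exact Finsupp.notMem_support_iff.1 hv

theorem Scale_degree {κ : Type*} (J : Finset κ) (c : κ → Place K F) (m : ℕ) :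
    Divisor.degree (Finsupp.single oo (m : ℤ) - ∑ j ∈ J, Finsupp.single (c j) 1) =
      (m : ℤ) - J.card := by
  rw [map_sub, map_sum, degree_single']
  simp only [degree_single', Finset.sum_const, nsmul_eq_mul, mul_one]

/-- **(HS ≤)**, arbitrary coefficients, centered points -/
theorem hs_le (hb : IsPB oo b) {n : ℕ} (hn : Big K F n) {ι κ : Type*} (I : Finset ι) (s : ι → Ω)
    (f : ι → affRing oo) (hf : ∀ i ∈ I, (f i : F) ∈ LSpace (Finsupp.single oo (n : ℤ)))
    (J : Finset κ) (P : κ → CPt V oo) (hinj : Set.InjOn (fun j => (P j).ψ) J)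
    (hz : ∀ j ∈ J, ∑ i ∈ I, s i * (P j).ψ (f i) = 0) (ρ : CPt V oo) :
    V.val (∑ i ∈ I, s i * ρ.ψ (f i)) ≤
      (I.sup fun i => V.val (s i)) * (nrm V b n ρ.ψ * ∏ j ∈ J, dl (P j) ρ) := by
  by_cases h : ∃ i ∈ I, s i ≠ 0
  · obtain ⟨c, s', hc, hval, hs, -⟩ := exists_normalise (V := V) I s h
    rw [Scale_sum_eq hs, map_mul, hval]
    exact mul_le_mul_right (hs_core_le hb hn I s' f hf J P hinj (Scale_zero hc hs f hz) ρ) _
  · push Not at h
    have h1 : ∑ i ∈ I, s i * ρ.ψ (f i) = 0 :=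
      Finset.sum_eq_zero fun i hi => by rw [h i hi, zero_mul]
    rw [h1, map_zero]
    exact zero_le

/-- **(V-SP)** the reduction of a section of `L(m∞)` with `m` distinct zeros has divisor `∑ centers - m∞`. -/
theorem exists_red (hb : IsPB oo b) {m : ℕ} (hm : Big K F m) (t : ℕ → Ω) (ht : ∃ i < lv oo m, t i ≠ 0)
    {κ : Type*} (J : Finset κ) (hcard : J.card = m) (P : κ → CPt V oo)
    (hinj : Set.InjOn (fun j => (P j).ψ) J) (hz : ∀ j ∈ J, sec b m t (P j).ψ = 0) :
    ∃ g : F, g ≠ 0 ∧ divf g = ∑ j ∈ J, Finsupp.single (P j).c 1 - Finsupp.single oo (m : ℤ) := by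
  obtain ⟨i1, hi1, ht1⟩ := ht
  obtain ⟨c, s', hc, -, hs, i0, hi0, hres⟩ :=
    exists_normalise (V := V) (Finset.range (lv oo m)) t ⟨i1, Finset.mem_range.2 hi1, ht1⟩
  have hf : ∀ i ∈ Finset.range (lv oo m), (b i : F) ∈ LSpace (Finsupp.single oo (m : ℤ)) :=
    fun i hi => hb.mem_LSpace (Finset.mem_range.1 hi)
  have hg0 : sbar V (Finset.range (lv oo m)) s' b ≠ 0 :=
    hb.sum_ne_zero (fun i => V.res (s' i)) ⟨i0, Finset.mem_range.1 hi0, hres⟩
  have hgD := red hb hm _ s' b hf J P hinj (Scale_zero hc hs b hz)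
  refine ⟨_, hg0, ?_⟩
  rw [mem_LSpace_of_ne_zero hg0] at hgD
  have hE := Scale_eq_zero_of_nonneg hgD (by
    rw [map_add, degree_divf, Scale_degree, hcard, sub_self, add_zero])
  rw [eq_neg_of_add_eq_zero_left hE, neg_sub]

/-- **(HS =)**, full list of zeros, centered points -/
theorem hs_eq (hb : IsPB oo b) {m : ℕ} (hm : Big K F m) (t : ℕ → Ω)
    {κ : Type*} (J : Finset κ) (hcard : J.card = m) (P : κ → CPt V oo)
    (hinj : Set.InjOn (fun j => (P j).ψ) J) (hz : ∀ j ∈ J, sec b m t (P j).ψ = 0) (ρ : CPt V oo) :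
    V.val (sec b m t ρ.ψ) = tsz V oo m t * (nrm V b m ρ.ψ * ∏ j ∈ J, dl (P j) ρ) := by
  by_cases ht : ∃ i ∈ Finset.range (lv oo m), t i ≠ 0
  · obtain ⟨c, s', hc, hval, hs, i0, hi0, hres⟩ :=
      exists_normalise (V := V) (Finset.range (lv oo m)) t ht
    have hf : ∀ i ∈ Finset.range (lv oo m), (b i : F) ∈ LSpace (Finsupp.single oo (m : ℤ)) :=
      fun i hi => hb.mem_LSpace (Finset.mem_range.1 hi)
    have hg0 : sbar V (Finset.range (lv oo m)) s' b ≠ 0 :=
      hb.sum_ne_zero (fun i => V.res (s' i)) ⟨i0, Finset.mem_range.1 hi0, hres⟩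
    have hρ : sbar V (Finset.range (lv oo m)) s' b ∉
        LSpace (Finsupp.single oo (m : ℤ) - ∑ j ∈ J, Finsupp.single (P j).c 1
          - Finsupp.single ρ.c 1) := by
      rw [LSpace_eq_bot_of_degree_neg (by
        rw [map_sub, Scale_degree, hcard, sub_self, degree_single']
        norm_num), Submodule.mem_bot]
      exact hg0
    have h1 := hs_core_eq hb hm _ s' b hf J P hinj (Scale_zero hc hs b hz) ρ hρ
    unfold sec tsz
    rw [Scale_sum_eq hs, map_mul, hval, h1]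
  · push Not at ht
    have h1 : sec b m t ρ.ψ = 0 :=
      Finset.sum_eq_zero fun i hi => by rw [ht i hi, zero_mul]
    have h2 : tsz V oo m t = 0 := by
      unfold tsz
      rw [← bot_eq_zero, Finset.sup_eq_bot_iff]
      intro i hi
      rw [ht i hi, map_zero, bot_eq_zero]
    rw [h1, h2, map_zero, zero_mul]

/-- **(HS∞)**, arbitrary coefficients, centered points -/
theorem hsoo (hb : IsPB oo b) {n : ℕ} (hn : Big K F n) (t : ℕ → Ω) {κ : Type*}
    (J : Finset κ) (P : κ → CPt V oo) (hinj : Set.InjOn (fun j => (P j).ψ) J)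
    (hz : ∀ j ∈ J, sec b (n + 1) t (P j).ψ = 0) :
    V.val (t (lv oo n)) * ∏ j ∈ J, nrm V b (n + 1) (P j).ψ ≤
      tsz V oo (n + 1) t * ∏ j ∈ J, nrm V b n (P j).ψ := by
  have hidx : lv oo n ∈ Finset.range (lv oo (n + 1)) := by
    rw [lv_succ oo hn, Finset.mem_range]
    exact Nat.lt_succ_self _
  by_cases ht : ∃ i ∈ Finset.range (lv oo (n + 1)), t i ≠ 0
  · obtain ⟨c, s', hc, hval, hs, -⟩ :=
      exists_normalise (V := V) (Finset.range (lv oo (n + 1))) t ht
    have h1 := hsoo_core hb hn s' J P hinj (Scale_zero hc hs b hz)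
    unfold tsz
    rw [hs _ hidx, map_mul, mul_assoc, ← hval]
    exact mul_le_mul_right h1 _
  · push Not at ht
    rw [ht _ hidx, map_zero, zero_mul]
    exact zero_le

end Fermat.Agent.S17.Loc
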