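import Fermat.Agent.S17.Loc.Gen

/-!
# S17-LOC, file `V1`: first properties of centered points; (V1)
-/

set_option autoImplicit false
set_option linter.unusedSectionVars false

noncomputable section

namespace Fermat.Agent.S17.Loc

open AlgebraicCurve Fermat.Agent.S24.Zeros Fermat.Agent.S17.FF

variable {K F : Type*} [Field K] [Field F] [Algebra K F] [IsAlgClosed K] [CharZero K] [IsFF K F]
variable {Ω : Type*} [Field Ω] [Algebra K Ω] {V : ResVal K Ω} {oo : Place K F} {b : ℕ → affRing oo}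

/-- auxiliary: `val_le_nrm` -/
theorem V1_val_le_nrm {n i : ℕ} (hi : i < lv oo n) (ψ : affRing oo →ₐ[K] Ω) :
    V.val (ψ (b i)) ≤ nrm V b n ψ :=
  Finset.le_sup (f := fun i => V.val (ψ (b i))) (Finset.mem_range.2 hi)

/-- auxiliary: `one_le_nrm` -/
theorem V1_one_le_nrm (hb : IsPB oo b) (n : ℕ) (ψ : affRing oo →ₐ[K] Ω) : 1 ≤ nrm V b n ψ := by
  have h := V1_val_le_nrm (V := V) (b := b) (lv_pos oo n) ψ
  rwa [hb.b_zero, map_one, map_one] at h

/-- auxiliary: `1 / gen` is regular at `c` -/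
theorem V1_ord_inv_gen_nonneg (hb : IsPB oo b) {n : ℕ} (hn : Big K F n) (c : Place K F) :
    0 ≤ c.ord ((gen b n c : F))⁻¹ := by
  classical
  rw [c.ord_inv, hb.ord_gen hn, neg_neg, Finsupp.single_apply]
  split_ifs
  · exact Int.natCast_nonneg n
  · exact le_refl _

/-- `ψ(a) = χ(a/gen) ψ(gen)` for `a ∈ L(n∞)` -/
theorem CPt.ψ_eq (hb : IsPB oo b) {n : ℕ} (hn : Big K F n) (P : CPt V oo) {a : affRing oo}
    (ha : (a : F) ∈ LSpace (Finsupp.single oo (n : ℤ))) :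
    P.ψ a = P.χ.toHom (locF P.c ((a : F) / (gen b n P.c : F))) * P.ψ (gen b n P.c) := by
  have h := P.compat (locF P.c ((a : F) / (gen b n P.c : F))) a (gen b n P.c) (by
    rw [coe_locF (hb.ord_div_gen_nonneg hn P.c ha), div_mul_cancel₀ _ (hb.gen_ne_zero n P.c)])
  exact h.symm

/-- `χ(1/gen) ψ(gen) = 1` -/
theorem CPt.inv_gen_mul (hb : IsPB oo b) {n : ℕ} (hn : Big K F n) (P : CPt V oo) :
    P.χ.toHom (locF P.c ((gen b n P.c : F))⁻¹) * P.ψ (gen b n P.c) = 1 := by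
  have h := P.compat (locF P.c ((gen b n P.c : F))⁻¹) 1 (gen b n P.c) (by
    rw [coe_locF (V1_ord_inv_gen_nonneg hb hn P.c), inv_mul_cancel₀ (hb.gen_ne_zero n P.c)]
    rfl)
  rw [h, map_one]

theorem CPt.ψ_gen_ne_zero (hb : IsPB oo b) {n : ℕ} (hn : Big K F n) (P : CPt V oo) :
    P.ψ (gen b n P.c) ≠ 0 := by
  intro h0
  have h := P.inv_gen_mul hb hn
  rw [h0, mul_zero] at h
  exact zero_ne_one h

/-- at a finite center `ψ` is the restriction of `χ` -/
theorem CPt.ψ_eq_of_ne (P : CPt V oo) (h : P.c ≠ oo) (a : affRing oo) :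
    P.ψ a = P.χ.toHom (locF P.c (a : F)) := by
  have h1 := P.compat (locF P.c (a : F)) a 1 (by
    rw [coe_locF (a.2 P.c h)]
    exact mul_one _)
  rw [map_one, mul_one] at h1
  exact h1.symm

/-- **(V1)** `nrm_n(ψ) = val ψ(gen)` -/
theorem CPt.nrm_eq (hb : IsPB oo b) {n : ℕ} (hn : Big K F n) (P : CPt V oo) :
    nrm V b n P.ψ = V.val (P.ψ (gen b n P.c)) := by
  apply le_antisymm
  · refine Finset.sup_le fun i hi => ?_
    rw [P.ψ_eq hb hn (hb.mem_LSpace (Finset.mem_range.1 hi)), map_mul]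
    calc V.val (P.χ.toHom (locF P.c ((b i : F) / (gen b n P.c : F)))) * V.val (P.ψ (gen b n P.c))
        ≤ 1 * V.val (P.ψ (gen b n P.c)) :=
          mul_le_mul_left (LocalChart.Chart_val_le_one P.χ _) _
      _ = V.val (P.ψ (gen b n P.c)) := one_mul _
  · have hpos := lv_pos oo n
    by_cases h : P.c = oo
    · rw [h, gen_oo]
      exact V1_val_le_nrm (by omega) P.ψ
    · rw [gen_of_ne b n h, ← hb.b_zero]
      exact V1_val_le_nrm hpos P.ψ

theorem CPt.nrm_of_ne (hb : IsPB oo b) (n : ℕ) (P : CPt V oo) (h : P.c ≠ oo) : nrm V b n P.ψ = 1 := by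
  apply le_antisymm
  · refine Finset.sup_le fun i _ => ?_
    rw [P.ψ_eq_of_ne h]
    exact LocalChart.Chart_val_le_one P.χ _
  · exact V1_one_le_nrm hb n P.ψ

/-- `1/gen_n = unit * τ^n` at `∞` -/
theorem CPt.nrm_mul_pow (hb : IsPB oo b) {n : ℕ} (hn : Big K F n) (P : CPt V oo) (h : P.c = oo) :
    nrm V b n P.ψ * V.val P.x ^ n = 1 := by
  have hg0 := hb.gen_ne_zero n P.c
  have hτ : P.c.ord (unif P.c : F) = 1 := ord_unif P.c
  have hτ0 : (unif P.c : F) ≠ 0 := by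
    intro h0
    rw [h0, Place.ord_zero] at hτ
    exact zero_ne_one hτ
  have hgord : P.c.ord (gen b n P.c : F) = -(n : ℤ) := by
    rw [hb.ord_gen hn, h, Finsupp.single_eq_same]
  have hu0 : ((gen b n P.c : F))⁻¹ / (unif P.c : F) ^ n ≠ 0 :=
    div_ne_zero (inv_ne_zero hg0) (pow_ne_zero n hτ0)
  have huord : P.c.ord (((gen b n P.c : F))⁻¹ / (unif P.c : F) ^ n) = 0 := by
    rw [div_eq_mul_inv, P.c.ord_mul (inv_ne_zero hg0) (inv_ne_zero (pow_ne_zero n hτ0)),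
      P.c.ord_inv, P.c.ord_inv, hgord, ← zpow_natCast, P.c.ord_zpow, hτ]
    ring
  have hucoe := coe_locF (c := P.c) huord.ge
  have hev : (chartAt P.c).ev (locF P.c (((gen b n P.c : F))⁻¹ / (unif P.c : F) ^ n)) ≠ 0 := by
    intro h0
    have h1 : ev P.c (locF P.c (((gen b n P.c : F))⁻¹ / (unif P.c : F) ^ n)) = 0 := h0
    rw [ev_eq_zero_iff] at h1
    rcases h1 with h1 | h1
    · rw [h1] at hucoe
      exact hu0 hucoe.symm
    · rw [hucoe, huord] at h1
      exact lt_irrefl _ h1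
  have hval := P.χ.val_eq_one_of_ev_ne_zero hev
  have hmul : locF P.c ((gen b n P.c : F))⁻¹
      = locF P.c (((gen b n P.c : F))⁻¹ / (unif P.c : F) ^ n) * unif P.c ^ n := by
    apply Subtype.ext
    rw [coe_locF (V1_ord_inv_gen_nonneg hb hn P.c)]
    change _ = ((locF P.c (((gen b n P.c : F))⁻¹ / (unif P.c : F) ^ n) : P.c.toValuationSubring) : F)
      * (unif P.c : F) ^ n
    rw [hucoe, div_mul_cancel₀ _ (pow_ne_zero n hτ0)]
  have hx : P.χ.toHom (unif P.c) = P.x := rfl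
  have h1 := congrArg V.val (P.inv_gen_mul hb hn)
  rw [hmul, map_mul, map_mul, map_mul, map_pow, map_pow, hval, one_mul, map_one, hx,
    ← P.nrm_eq hb hn, mul_comm] at h1
  exact h1

theorem CPt.x_ne_zero (hb : IsPB oo b) (P : CPt V oo) (h : P.c = oo) : P.x ≠ 0 := by
  intro h0
  have hn : Big K F ((cBound K F + 2).toNat + 1) := by
    unfold Big
    have := Int.self_le_toNat (cBound K F + 2)
    push_cast
    omega
  have h1 := P.nrm_mul_pow hb hn h
  rw [h0, map_zero, zero_pow (Nat.succ_ne_zero _), mul_zero] at h1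
  exact zero_ne_one h1

theorem CPt.val_x_lt_one (P : CPt V oo) : V.val P.x < 1 := P.χ.val_x_lt_one

theorem one_le_nrm (hb : IsPB oo b) (n : ℕ) (ψ : affRing oo →ₐ[K] Ω) : 1 ≤ nrm V b n ψ := by
  exact V1_one_le_nrm hb n ψ

theorem nrm_ne_zero (hb : IsPB oo b) (n : ℕ) (ψ : affRing oo →ₐ[K] Ω) : nrm V b n ψ ≠ 0 := by
  exact ne_of_gt (lt_of_lt_of_le zero_lt_one (V1_one_le_nrm hb n ψ))

theorem val_le_nrm {n i : ℕ} (hi : i < lv oo n) (ψ : affRing oo →ₐ[K] Ω) : V.val (ψ (b i)) ≤ nrm V b n ψ := by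
  exact V1_val_le_nrm hi ψ

/-- **(V1)**, final form. -/
theorem nrm_pow_eq (hb : IsPB oo b) {m d : ℕ} (hm : Big K F m) (hd : Big K F d) (P : CPt V oo) :
    nrm V b m P.ψ ^ d = nrm V b d P.ψ ^ m := by
  by_cases h : P.c = oo
  · have h1 := P.nrm_mul_pow hb hm h
    have h2 := P.nrm_mul_pow hb hd h
    have h3 : nrm V b m P.ψ ^ d * V.val P.x ^ (m * d) = 1 := by
      rw [pow_mul, ← mul_pow, h1, one_pow]
    have h4 : nrm V b d P.ψ ^ m * V.val P.x ^ (m * d) = 1 := by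
      rw [mul_comm m d, pow_mul, ← mul_pow, h2, one_pow]
    rw [eq_inv_of_mul_eq_one_left h3, eq_inv_of_mul_eq_one_left h4]
  · rw [P.nrm_of_ne hb m h, P.nrm_of_ne hb d h, one_pow, one_pow]

/-- `nrm_{n+1}(ψ) * val x = nrm_n(ψ)` at `∞` -/
theorem CPt.nrm_succ_mul (hb : IsPB oo b) {n : ℕ} (hn : Big K F n) (P : CPt V oo) (h : P.c = oo) :
    nrm V b (n + 1) P.ψ * V.val P.x = nrm V b n P.ψ := by
  have h1 := P.nrm_mul_pow hb hn h
  have h2 := P.nrm_mul_pow hb hn.succ h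
  have hx : V.val P.x ^ n ≠ 0 := pow_ne_zero n ((map_ne_zero V.val).2 (P.x_ne_zero hb h))
  apply mul_right_cancel₀ hx
  rw [h1, mul_assoc, ← pow_succ', h2]

end Fermat.Agent.S17.Loc
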