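import Fermat.Agent.S17.Loc.V1

/-!
# S17-LOC, file `V2a`: normalised form of `wdg`
-/

set_option autoImplicit false
set_option linter.unusedSectionVars false

noncomputable section

namespace Fermat.Agent.S17.Loc

open AlgebraicCurve Fermat.Agent.S24.Zeros Fermat.Agent.S17.FF

variable {K F : Type*} [Field K] [Field F] [Algebra K F] [IsAlgClosed K] [CharZero K] [IsFF K F]
variable {Ω : Type*} [Field Ω] [Algebra K Ω] {V : ResVal K Ω} {oo : Place K F} {b : ℕ → affRing oo}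

theorem V2a_wdg_le (d : ℕ) (ψ ψ' : affRing oo →ₐ[K] Ω) : wdg V b d ψ ψ' ≤ wdg V b d ψ' ψ := by
  unfold wdg
  refine Finset.sup_le fun ij hij => ?_
  have hmem : (ij.1, ij.2) ∈ Finset.range (lv oo d) ×ˢ Finset.range (lv oo d) := hij
  have h1 : V.val (ψ (b ij.1) * ψ' (b ij.2) - ψ (b ij.2) * ψ' (b ij.1)) =
      V.val (ψ' (b ij.1) * ψ (b ij.2) - ψ' (b ij.2) * ψ (b ij.1)) := by
    rw [← Valuation.map_neg]
    congr 1
    ring
  rw [h1]
  exact Finset.le_sup (f := fun ij : ℕ × ℕ =>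
    V.val (ψ' (b ij.1) * ψ (b ij.2) - ψ' (b ij.2) * ψ (b ij.1))) hij

theorem wdg_comm (d : ℕ) (ψ ψ' : affRing oo →ₐ[K] Ω) : wdg V b d ψ ψ' = wdg V b d ψ' ψ := by
  exact le_antisymm (V2a_wdg_le d ψ ψ') (V2a_wdg_le d ψ' ψ)

theorem V2a_mul_sup {Γ : Type*} [LinearOrderedCommGroupWithZero Γ] {ι : Type*} (c : Γ)
    (s : Finset ι) (f : ι → Γ) : (s.sup fun i => c * f i) = c * s.sup f := by
  classical
  induction s using Finset.induction_on with
  | empty => rw [Finset.sup_empty, Finset.sup_empty, bot_eq_zero, mul_zero]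
  | insert a s _ ih =>
    rw [Finset.sup_insert, Finset.sup_insert, ih]
    rcases le_total (f a) (s.sup f) with h | h
    · rw [sup_eq_right.2 h, sup_eq_right.2 (mul_le_mul_right h c)]
    · rw [sup_eq_left.2 h, sup_eq_left.2 (mul_le_mul_right h c)]

/-- the normalised minors: with `h_i = b_i/gen_P`, `h'_i = b_i/gen_Q`,
`wdg = val ψ_P(gen) val ψ_Q(gen) max_{i,j} val (χ_P h_i χ_Q h'_j - χ_P h_j χ_Q h'_i)`. -/
theorem wdg_eq_mul_sup (hb : IsPB oo b) {d : ℕ} (hd : Big K F d) (P Q : CPt V oo) :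
    wdg V b d P.ψ Q.ψ = nrm V b d P.ψ * nrm V b d Q.ψ *
      (Finset.range (lv oo d) ×ˢ Finset.range (lv oo d)).sup fun ij =>
        V.val (P.χ.toHom (locF P.c ((b ij.1 : F) / (gen b d P.c : F))) * Q.χ.toHom (locF Q.c ((b ij.2 : F) / (gen b d Q.c : F)))
          - P.χ.toHom (locF P.c ((b ij.2 : F) / (gen b d P.c : F))) * Q.χ.toHom (locF Q.c ((b ij.1 : F) / (gen b d Q.c : F)))) := by
  rw [← V2a_mul_sup, P.nrm_eq hb hd, Q.nrm_eq hb hd]
  unfold wdg
  refine Finset.sup_congr rfl fun ij hij => ?_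
  obtain ⟨h1, h2⟩ := Finset.mem_product.1 hij
  rw [Finset.mem_range] at h1 h2
  rw [P.ψ_eq hb hd (hb.mem_LSpace h1), P.ψ_eq hb hd (hb.mem_LSpace h2),
    Q.ψ_eq hb hd (hb.mem_LSpace h1), Q.ψ_eq hb hd (hb.mem_LSpace h2), ← map_mul, ← map_mul]
  congr 1
  ring


end Fermat.Agent.S17.Loc
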