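import Fermat.Agent.S17.Loc.Scale
import Fermat.Agent.S17.Loc.Pairs

/-!
# S17-LOC, file `W`: (V-W) by induction on the number of points (Laplace expansion + (HS ≤))
-/

set_option autoImplicit false
set_option linter.unusedSectionVars false

noncomputable section

namespace Fermat.Agent.S17.Loc

open AlgebraicCurve Fermat.Agent.S24.Zeros Fermat.Agent.S17.FF

variable {K F : Type*} [Field K] [Field F] [Algebra K F] [IsAlgClosed K] [CharZero K] [IsFF K F]
variable {Ω : Type*} [Field Ω] [Algebra K Ω] {V : ResVal K Ω} {oo : Place K F} {b : ℕ → affRing oo}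

/-- Laplace expansion along the last column -/
theorem W_laplace {r : ℕ} (I : Fin (r + 1) → ℕ) (ψ : Fin r → affRing oo →ₐ[K] Ω)
    (φ : affRing oo →ₐ[K] Ω) :
    (evMat b I (Fin.snoc (α := fun _ => affRing oo →ₐ[K] Ω) ψ φ)).det =
      ∑ a : Fin (r + 1), ((-1) ^ ((a : ℕ) + r) * (evMat b (I ∘ a.succAbove) ψ).det) * φ (b (I a)) := by
  rw [Matrix.det_succ_column _ (Fin.last r)]
  refine Finset.sum_congr rfl fun a _ => ?_
  have h1 : evMat b I (Fin.snoc (α := fun _ => affRing oo →ₐ[K] Ω) ψ φ) a (Fin.last r) =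
      φ (b (I a)) := by
    simp [evMat]
  have h2 : (evMat b I (Fin.snoc (α := fun _ => affRing oo →ₐ[K] Ω) ψ φ)).submatrix a.succAbove
      (Fin.last r).succAbove = evMat b (I ∘ a.succAbove) ψ := by
    ext i j
    simp [evMat, Fin.succAbove_last]
  rw [h1, h2, Fin.val_last]
  ring

theorem W_val_neg_one_pow_mul (k : ℕ) (x : Ω) : V.val ((-1) ^ k * x) = V.val x := by
  rw [map_mul, map_pow, Valuation.map_neg, map_one, one_pow, one_mul]

/-- **(V-W)**, centered points -/
theorem vW_core (hb : IsPB oo b) {n : ℕ} (hn : Big K F n) (r : ℕ) (I : Fin r → ℕ) (hI : ∀ a, I a < lv oo n)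
    (P : Fin r → CPt V oo) :
    V.val (evMat b I fun j => (P j).ψ).det ≤
      (∏ j, nrm V b n (P j).ψ) * ∏ p ∈ pairs r, dl (P p.1) (P p.2) := by
  induction r with
  | zero =>
    have : pairs 0 = ∅ := by
      ext p
      exact p.1.elim0
    rw [Matrix.det_isEmpty, map_one, this]
    simp
  | succ r ih =>
    by_cases hinj : Function.Injective (fun j => (P j).ψ)
    swap
    · obtain ⟨i, j, hij, hne⟩ : ∃ i j, (P i).ψ = (P j).ψ ∧ i ≠ j := by
        simpa [Function.Injective] using hinj
      rw [Matrix.det_zero_of_column_eq hne (fun a => by simp [evMat, hij]), map_zero]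
      exact zero_le
    · have hsn : (fun j => (P j).ψ) = Fin.snoc (α := fun _ => affRing oo →ₐ[K] Ω)
          (fun j : Fin r => (P j.castSucc).ψ) (P (Fin.last r)).ψ := by
        funext j
        refine Fin.lastCases ?_ (fun j => ?_) j
        · simp
        · simp
      have hz : ∀ j ∈ (Finset.univ : Finset (Fin r)), ∑ a ∈ (Finset.univ : Finset (Fin (r + 1))),
          ((-1) ^ ((a : ℕ) + r) * (evMat b (I ∘ a.succAbove)
            fun j : Fin r => (P j.castSucc).ψ).det) * (P j.castSucc).ψ (b (I a)) = 0 := by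
        intro j _
        rw [← W_laplace]
        refine Matrix.det_zero_of_column_eq (i := j.castSucc) (j := Fin.last r)
          (Fin.castSucc_lt_last j).ne (fun a => ?_)
        simp [evMat]
      have hle := hs_le hb hn (Finset.univ : Finset (Fin (r + 1)))
        (fun a => (-1) ^ ((a : ℕ) + r) * (evMat b (I ∘ a.succAbove)
            fun j : Fin r => (P j.castSucc).ψ).det) (fun a => b (I a))
        (fun a _ => hb.mem_LSpace (hI a)) (Finset.univ : Finset (Fin r)) (fun j => P j.castSucc)
        (fun i _ j _ hij => Fin.castSucc_injective r (hinj hij)) hz (P (Fin.last r))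
      rw [← W_laplace, ← hsn] at hle
      refine hle.trans ?_
      have hsup : (Finset.univ.sup fun a : Fin (r + 1) => V.val ((-1) ^ ((a : ℕ) + r) *
          (evMat b (I ∘ a.succAbove) fun j : Fin r => (P j.castSucc).ψ).det)) ≤
          (∏ j : Fin r, nrm V b n (P j.castSucc).ψ) *
            ∏ p ∈ pairs r, dl (P p.1.castSucc) (P p.2.castSucc) := by
        refine Finset.sup_le fun a _ => ?_
        rw [W_val_neg_one_pow_mul]
        exact ih (I ∘ a.succAbove) (fun k => hI _) (fun j => P j.castSucc)
      rw [Fin.prod_univ_castSucc, prod_pairs_succ_last r (fun p => dl (P p.1) (P p.2))]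
      refine (mul_le_mul' hsup le_rfl).trans (le_of_eq ?_)
      simp only [mul_assoc, mul_comm, mul_left_comm]

end Fermat.Agent.S17.Loc
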